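import Mathlib
import Fermat.Prelude.Def_ModularCurve_GenusNumerics

set_option autoImplicit false

open Matrix MatrixGroups ModularGroup CongruenceSubgroup Matrix.SpecialLinearGroup

namespace Fermat.Agent.S20

/-- The quotient `SL(2,ℤ) ⧸ Γ₀(N)` (left cosets), with `SL(2,ℤ)` acting by left multiplication. -/
abbrev S20_Q (N : ℕ) : Type := SL(2, ℤ) ⧸ Gamma0 N

theorem S20_inv_mul_apply_one_zero (g g' : SL(2, ℤ)) :
    (g⁻¹ * g') 1 0 = g 0 0 * g' 1 0 - g 1 0 * g' 0 0 := by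
  have h1 : (g⁻¹ * g').1 = g⁻¹.1 * g'.1 := rfl
  have h2 := SL2_inv_expl g
  show (g⁻¹ * g').1 1 0 = g.1 0 0 * g'.1 1 0 - g.1 1 0 * g'.1 0 0
  rw [h1, h2]
  simp [Matrix.mul_apply, Fin.sum_univ_two]
  ring

/-- Criterion for equality of cosets in terms of first columns. -/
theorem S20_mk_eq_mk_iff (N : ℕ) (g g' : SL(2, ℤ)) :
    (QuotientGroup.mk g : S20_Q N) = QuotientGroup.mk g' ↔
      (N : ℤ) ∣ g 0 0 * g' 1 0 - g 1 0 * g' 0 0 := by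
  rw [QuotientGroup.eq, Gamma0_mem, S20_inv_mul_apply_one_zero,
    ZMod.intCast_zmod_eq_zero_iff_dvd]

theorem S20_smul_mk (N : ℕ) (g h : SL(2, ℤ)) :
    g • (QuotientGroup.mk h : S20_Q N) = QuotientGroup.mk (g * h) := rfl

theorem S20_isCoprime_col (g : SL(2, ℤ)) : IsCoprime (g 0 0) (g 1 0) := by
  refine ⟨g 1 1, -(g 0 1), ?_⟩
  have h := g.det_coe
  rw [Matrix.det_fin_two] at h
  linarith

theorem S20_S_mul_apply (h : SL(2, ℤ)) :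
    (S * h) 0 0 = -(h 1 0) ∧ (S * h) 1 0 = h 0 0 := by
  have h1 : (S * h).1 = S.1 * h.1 := rfl
  show (S * h).1 0 0 = -(h.1 1 0) ∧ (S * h).1 1 0 = h.1 0 0
  rw [h1, coe_S]
  simp [Matrix.mul_apply, Fin.sum_univ_two]

theorem S20_T_zpow_mul_apply (k : ℤ) (h : SL(2, ℤ)) :
    (T ^ k * h) 0 0 = h 0 0 + k * h 1 0 ∧ (T ^ k * h) 1 0 = h 1 0 := by
  have h1 : (T ^ k * h).1 = (T ^ k).1 * h.1 := rfl
  show (T ^ k * h).1 0 0 = h.1 0 0 + k * h.1 1 0 ∧ (T ^ k * h).1 1 0 = h.1 1 0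
  rw [h1, coe_T_zpow]
  simp [Matrix.mul_apply, Fin.sum_univ_two]

theorem S20_T_mul_apply (h : SL(2, ℤ)) :
    (T * h) 0 0 = h 0 0 + h 1 0 ∧ (T * h) 1 0 = h 1 0 := by
  have := S20_T_zpow_mul_apply 1 h
  simpa using this

theorem S20_ST_mul_apply (h : SL(2, ℤ)) :
    (S * T * h) 0 0 = -(h 1 0) ∧ (S * T * h) 1 0 = h 0 0 + h 1 0 := by
  rw [mul_assoc]
  obtain ⟨h1, h2⟩ := S20_S_mul_apply (T * h)
  obtain ⟨h3, h4⟩ := S20_T_mul_apply h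
  rw [h1, h2, h3, h4]
  exact ⟨rfl, rfl⟩

/-- A matrix in `SL(2,ℤ)` with first column `(x, 1)`. -/
def S20_colOne (x : ℤ) : SL(2, ℤ) :=
  ⟨!![x, -1; 1, 0], by simp [Matrix.det_fin_two_of]⟩

@[simp] theorem S20_colOne_apply_zero_zero (x : ℤ) : S20_colOne x 0 0 = x := rfl
@[simp] theorem S20_colOne_apply_one_zero (x : ℤ) : S20_colOne x 1 0 = 1 := rfl

end Fermat.Agent.S20
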