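import Mathlib

set_option autoImplicit false

namespace Fermat.Agent.S20

/-- If two coprime pairs are related by `N ∣ (a' + k c') c - c' a` then `gcd (c, N) = gcd (c', N)`. -/
theorem S20_NT1_gcd {N : ℕ} {a c a' c' k : ℤ} (hac : IsCoprime a c) (hac' : IsCoprime a' c')
    (h : (N : ℤ) ∣ (a' + k * c') * c - c' * a) : Int.gcd c N = Int.gcd c' N := by
  apply Nat.dvd_antisymm
  · -- d ∣ d'
    have hd1 : (Int.gcd c N : ℤ) ∣ c := Int.gcd_dvd_left c N
    have hd2 : (Int.gcd c N : ℤ) ∣ N := Int.gcd_dvd_right c N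
    have h1 : (Int.gcd c N : ℤ) ∣ c' * a := by
      have h2 : (Int.gcd c N : ℤ) ∣ (a' + k * c') * c - c' * a := hd2.trans h
      have h3 : (Int.gcd c N : ℤ) ∣ (a' + k * c') * c := hd1.mul_left _
      have := dvd_sub h3 h2
      simpa using this
    have hcop : IsCoprime (Int.gcd c N : ℤ) a := (hac.of_isCoprime_of_dvd_right hd1).symm
    have h4 : (Int.gcd c N : ℤ) ∣ c' := hcop.dvd_of_dvd_mul_right h1
    exact Int.natCast_dvd_natCast.mp (Int.dvd_coe_gcd h4 hd2)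
  · have hd1 : (Int.gcd c' N : ℤ) ∣ c' := Int.gcd_dvd_left c' N
    have hd2 : (Int.gcd c' N : ℤ) ∣ N := Int.gcd_dvd_right c' N
    have h1 : (Int.gcd c' N : ℤ) ∣ (a' + k * c') * c := by
      have h2 : (Int.gcd c' N : ℤ) ∣ (a' + k * c') * c - c' * a := hd2.trans h
      have h3 : (Int.gcd c' N : ℤ) ∣ c' * a := hd1.mul_right _
      have := dvd_add h2 h3
      simpa using this
    have hcop0 : IsCoprime (a' + k * c') c' := by
      have := hac'.add_mul_right_left k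
      simpa [mul_comm] using this
    have hcop : IsCoprime (Int.gcd c' N : ℤ) (a' + k * c') :=
      (hcop0.of_isCoprime_of_dvd_right hd1).symm
    have h4 : (Int.gcd c' N : ℤ) ∣ c := hcop.dvd_of_dvd_mul_left h1
    exact Int.natCast_dvd_natCast.mp (Int.dvd_coe_gcd h4 hd2)

theorem S20_NT1_alg {N d M c₁ c₁' a a' g k : ℤ} (hN : N = d * M) (hd : d ≠ 0) (hgd : g ∣ d)
    (hgM : g ∣ M) (h : N ∣ (a' + k * (d * c₁')) * (d * c₁) - (d * c₁') * a) :
    g ∣ a' * c₁ - c₁' * a := by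
  have e : (a' + k * (d * c₁')) * (d * c₁) - (d * c₁') * a
      = d * ((a' + k * (d * c₁')) * c₁ - c₁' * a) := by ring
  rw [e, hN, mul_dvd_mul_iff_left hd] at h
  have h1 : g ∣ (a' + k * (d * c₁')) * c₁ - c₁' * a := hgM.trans h
  have h2 : g ∣ d * (k * c₁' * c₁) := hgd.mul_right _
  have := dvd_sub h1 h2
  have e2 : (a' + k * (d * c₁')) * c₁ - c₁' * a - d * (k * c₁' * c₁) = a' * c₁ - c₁' * a := by ring
  rwa [e2] at this

theorem S20_NT2_alg {N d M c₁ c₁' a a' g : ℤ} (hN : N = d * M)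
    (hcop : IsCoprime (c₁ * c₁') M) (hg : ∃ u v : ℤ, g = u * d + v * M)
    (hA : g ∣ a' * c₁ - c₁' * a) :
    ∃ k : ℤ, N ∣ (a' + k * (d * c₁')) * (d * c₁) - (d * c₁') * a := by
  obtain ⟨u, v, h2⟩ := hg
  obtain ⟨t, h1⟩ := hA
  obtain ⟨w, y, h3⟩ := hcop
  refine ⟨-(u * t * w), v * t + u * d * t * y, ?_⟩
  rw [hN]
  linear_combination d * h1 + d * t * h2 - d * (u * d * t) * h3

end Fermat.Agent.S20
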