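import Mathlib
import Fermat.Agent.S20.P1Basic
import Fermat.Agent.S20.CuspNT

set_option autoImplicit false

open Matrix MatrixGroups ModularGroup CongruenceSubgroup Matrix.SpecialLinearGroup

namespace Fermat.Agent.S20

variable (N : ℕ)

/-- Criterion for two cosets to lie in the same `⟨T⟩`-orbit. -/
theorem S20_T_orbit_iff (g g' : SL(2, ℤ)) :
    (MulAction.orbitRel (Subgroup.zpowers T) (S20_Q N)) (QuotientGroup.mk g) (QuotientGroup.mk g') ↔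
      ∃ k : ℤ, (N : ℤ) ∣ (g' 0 0 + k * g' 1 0) * g 1 0 - g' 1 0 * g 0 0 := by
  rw [MulAction.orbitRel_apply, MulAction.mem_orbit_iff]
  constructor
  · rintro ⟨⟨t, ht⟩, h⟩
    obtain ⟨k, rfl⟩ := Subgroup.mem_zpowers_iff.mp ht
    refine ⟨k, ?_⟩
    change (T ^ k) • (QuotientGroup.mk g' : S20_Q N) = QuotientGroup.mk g at h
    rw [S20_smul_mk, S20_mk_eq_mk_iff] at h
    obtain ⟨h1, h2⟩ := S20_T_zpow_mul_apply k g'
    rw [h1, h2] at h
    exact h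
  · rintro ⟨k, hk⟩
    refine ⟨⟨T ^ k, Subgroup.zpow_mem_zpowers T k⟩, ?_⟩
    change (T ^ k) • (QuotientGroup.mk g' : S20_Q N) = QuotientGroup.mk g
    rw [S20_smul_mk, S20_mk_eq_mk_iff]
    obtain ⟨h1, h2⟩ := S20_T_zpow_mul_apply k g'
    rw [h1, h2]
    exact hk


/-- index set for the `⟨T⟩`-orbits (cusps): pairs `(d, z)` with `d ∣ N`, `z` a unit mod `gcd(d, N/d)` -/
abbrev S20_CuspIdx : Type := Σ d : {d // d ∈ N.divisors}, (ZMod (Nat.gcd (d : ℕ) (N / d)))ˣ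

instance S20_instNeZeroGcd (d : {d // d ∈ N.divisors}) : NeZero (Nat.gcd (d : ℕ) (N / d)) :=
  ⟨Nat.gcd_ne_zero_left (Nat.pos_of_mem_divisors d.2).ne'⟩

theorem S20_exists_isUnit_of_isCoprime {x : ℤ} {m : ℕ} (h : IsCoprime x (m : ℤ)) :
    ∃ u : ZMod m, u * (x : ZMod m) = 1 := by
  obtain ⟨u, v, huv⟩ := h
  refine ⟨(u : ZMod m), ?_⟩
  have := congrArg (Int.cast : ℤ → ZMod m) huv
  push_cast at this
  simpa using this

theorem S20_exists_rep (d : {d // d ∈ N.divisors}) (z : (ZMod (Nat.gcd (d : ℕ) (N / d)))ˣ) :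
    ∃ g : SL(2, ℤ), g 1 0 = ((d : ℕ) : ℤ) ∧
      (((g 0 0 : ℤ)) : ZMod (Nat.gcd (d : ℕ) (N / d))) = (z : ZMod _) := by
  have hd : 0 < (d : ℕ) := Nat.pos_of_mem_divisors d.2
  have : NeZero (d : ℕ) := ⟨hd.ne'⟩
  obtain ⟨w, hw⟩ := ZMod.unitsMap_surjective (Nat.gcd_dvd_left (d : ℕ) (N / d)) z
  have hcop : IsCoprime (((w : ZMod d).val : ℕ) : ℤ) ((d : ℕ) : ℤ) :=
    Nat.isCoprime_iff_coprime.mpr (ZMod.val_coe_unit_coprime w)
  obtain ⟨g, hg0, hg1⟩ := hcop.exists_SL2_col 0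
  refine ⟨g, hg1, ?_⟩
  rw [hg0, Int.cast_natCast, ZMod.natCast_val, ← hw, ZMod.unitsMap_val]

noncomputable def S20_cuspRep (x : S20_CuspIdx N) : SL(2, ℤ) := (S20_exists_rep N x.1 x.2).choose

theorem S20_cuspRep_spec (x : S20_CuspIdx N) :
    (S20_cuspRep N x) 1 0 = ((x.1 : ℕ) : ℤ) ∧
      (((S20_cuspRep N x 0 0 : ℤ)) : ZMod (Nat.gcd (x.1 : ℕ) (N / x.1))) = (x.2 : ZMod _) :=
  (S20_exists_rep N x.1 x.2).choose_spec

noncomputable def S20_cuspMap (x : S20_CuspIdx N) :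
    MulAction.orbitRel.Quotient (Subgroup.zpowers T) (S20_Q N) :=
  Quotient.mk _ (QuotientGroup.mk (S20_cuspRep N x))

theorem S20_cuspMap_injective : Function.Injective (S20_cuspMap N) := by
  intro x x' h
  have hrel : (MulAction.orbitRel (Subgroup.zpowers T) (S20_Q N))
      (QuotientGroup.mk (S20_cuspRep N x)) (QuotientGroup.mk (S20_cuspRep N x')) :=
    Quotient.exact h
  rw [S20_T_orbit_iff] at hrel
  obtain ⟨k, hk⟩ := hrel
  obtain ⟨hx1, hx0⟩ := S20_cuspRep_spec N x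
  obtain ⟨hx1', hx0'⟩ := S20_cuspRep_spec N x'
  have hcol := S20_isCoprime_col (S20_cuspRep N x)
  have hcol' := S20_isCoprime_col (S20_cuspRep N x')
  set a := S20_cuspRep N x 0 0
  set a' := S20_cuspRep N x' 0 0
  rw [hx1] at hcol hk
  rw [hx1'] at hcol' hk
  obtain ⟨⟨d, hd⟩, z⟩ := x
  obtain ⟨⟨d', hd'⟩, z'⟩ := x'
  simp only at hx0 hx0' hcol hcol' hk
  have hdN : d ∣ N := Nat.dvd_of_mem_divisors hd
  have hdN' : d' ∣ N := Nat.dvd_of_mem_divisors hd'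
  have hgcd := S20_NT1_gcd hcol hcol' hk
  rw [Int.gcd_natCast_natCast, Int.gcd_natCast_natCast, Nat.gcd_eq_left hdN,
    Nat.gcd_eq_left hdN'] at hgcd
  subst hgcd
  have hd0 : (d : ℤ) ≠ 0 := by
    exact_mod_cast (Nat.pos_of_mem_divisors hd).ne'
  have hNeq : (N : ℤ) = (d : ℤ) * ((N / d : ℕ) : ℤ) := by
    exact_mod_cast (Nat.mul_div_cancel' hdN).symm
  have hk' : (N : ℤ) ∣ (a' + k * ((d : ℤ) * 1)) * ((d : ℤ) * 1) - ((d : ℤ) * 1) * a := by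
    simpa using hk
  have hg := S20_NT1_alg (g := ((Nat.gcd d (N / d) : ℕ) : ℤ)) hNeq hd0
    (Int.natCast_dvd_natCast.mpr (Nat.gcd_dvd_left d (N / d)))
    (Int.natCast_dvd_natCast.mpr (Nat.gcd_dvd_right d (N / d))) hk'
  rw [mul_one, one_mul, ← ZMod.intCast_zmod_eq_zero_iff_dvd] at hg
  push_cast at hg
  rw [sub_eq_zero, hx0, hx0'] at hg
  have : z = z' := Units.ext hg.symm
  rw [this]


variable [NeZero N]

theorem S20_cuspMap_surjective : Function.Surjective (S20_cuspMap N) := by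
  intro q
  induction q using Quotient.inductionOn with
  | _ q =>
  obtain ⟨g, rfl⟩ := QuotientGroup.mk_surjective q
  have hN0 : N ≠ 0 := NeZero.ne N
  set a := g 0 0 with ha
  set c := g 1 0 with hc
  have hcol : IsCoprime a c := S20_isCoprime_col g
  -- the divisor `d = gcd (c, N)`
  set d : ℕ := Int.gcd c N with hd
  have hdN : d ∣ N := Int.natCast_dvd_natCast.mp (Int.gcd_dvd_right c N)
  have hdc : (d : ℤ) ∣ c := Int.gcd_dvd_left c N
  have hdpos : 0 < d := Nat.pos_of_dvd_of_pos hdN (Nat.pos_of_ne_zero hN0)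
  have hd0 : (d : ℤ) ≠ 0 := by exact_mod_cast hdpos.ne'
  have hdmem : d ∈ N.divisors := Nat.mem_divisors.mpr ⟨hdN, hN0⟩
  set c₁ : ℤ := c / (d : ℤ) with hc₁
  have hcd : c = (d : ℤ) * c₁ := (Int.mul_ediv_cancel' hdc).symm
  have hNeq : (N : ℤ) = (d : ℤ) * ((N / d : ℕ) : ℤ) := by
    exact_mod_cast (Nat.mul_div_cancel' hdN).symm
  have hMdiv : ((N / d : ℕ) : ℤ) = (N : ℤ) / (d : ℤ) := by
    rw [Int.natCast_div]
  -- coprimality facts
  have hcop1 : IsCoprime c₁ ((N / d : ℕ) : ℤ) := by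
    rw [hMdiv, Int.isCoprime_iff_gcd_eq_one]
    exact Int.gcd_div_gcd_div_gcd (i := c) (j := (N : ℤ)) hdpos
  have hgd : ((Nat.gcd d (N / d) : ℕ) : ℤ) ∣ (d : ℤ) :=
    Int.natCast_dvd_natCast.mpr (Nat.gcd_dvd_left d (N / d))
  have hgM : ((Nat.gcd d (N / d) : ℕ) : ℤ) ∣ ((N / d : ℕ) : ℤ) :=
    Int.natCast_dvd_natCast.mpr (Nat.gcd_dvd_right d (N / d))
  have hcopc : IsCoprime c₁ ((Nat.gcd d (N / d) : ℕ) : ℤ) :=
    hcop1.of_isCoprime_of_dvd_right hgM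
  have hcopa : IsCoprime a ((Nat.gcd d (N / d) : ℕ) : ℤ) :=
    (hcol.of_isCoprime_of_dvd_right hdc).of_isCoprime_of_dvd_right hgd
  obtain ⟨uc, huc⟩ := S20_exists_isUnit_of_isCoprime hcopc
  obtain ⟨ua, hua⟩ := S20_exists_isUnit_of_isCoprime hcopa
  -- the unit `z = a / c₁`
  let z : (ZMod (Nat.gcd d (N / d)))ˣ :=
    ⟨(a : ZMod _) * uc, (c₁ : ZMod _) * ua, by
      calc (a : ZMod (Nat.gcd d (N / d))) * uc * ((c₁ : ZMod _) * ua)
          = (ua * (a : ZMod _)) * (uc * (c₁ : ZMod _)) := by ring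
        _ = 1 := by rw [hua, huc, one_mul], by
      calc (c₁ : ZMod (Nat.gcd d (N / d))) * ua * ((a : ZMod _) * uc)
          = (ua * (a : ZMod _)) * (uc * (c₁ : ZMod _)) := by ring
        _ = 1 := by rw [hua, huc, one_mul]⟩
  refine ⟨⟨⟨d, hdmem⟩, z⟩, ?_⟩
  apply Quotient.sound
  show (MulAction.orbitRel (Subgroup.zpowers T) (S20_Q N))
      (QuotientGroup.mk (S20_cuspRep N ⟨⟨d, hdmem⟩, z⟩)) (QuotientGroup.mk g)
  rw [S20_T_orbit_iff]
  obtain ⟨hx1, hx0⟩ := S20_cuspRep_spec N ⟨⟨d, hdmem⟩, z⟩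
  simp only at hx1 hx0
  rw [hx1]
  set ax := S20_cuspRep N ⟨⟨d, hdmem⟩, z⟩ 0 0 with hax
  -- apply the algebraic lemma
  have hA : ((Nat.gcd d (N / d) : ℕ) : ℤ) ∣ a * 1 - c₁ * ax := by
    rw [← ZMod.intCast_zmod_eq_zero_iff_dvd]
    push_cast
    rw [hx0]
    show (a : ZMod (Nat.gcd d (N / d))) * 1 - (c₁ : ZMod _) * ((a : ZMod _) * uc) = 0
    have : (a : ZMod (Nat.gcd d (N / d))) * 1 - (c₁ : ZMod _) * ((a : ZMod _) * uc)
        = (a : ZMod _) * (1 - uc * (c₁ : ZMod _)) := by ring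
    rw [this, huc, sub_self, mul_zero]
  have hbez : ∃ u v : ℤ, ((Nat.gcd d (N / d) : ℕ) : ℤ) = u * (d : ℤ) + v * ((N / d : ℕ) : ℤ) := by
    refine ⟨Int.gcdA d ((N / d : ℕ) : ℤ), Int.gcdB d ((N / d : ℕ) : ℤ), ?_⟩
    have := Int.gcd_eq_gcd_ab (d : ℤ) ((N / d : ℕ) : ℤ)
    rw [Int.gcd_natCast_natCast] at this
    rw [this]; ring
  have hcop' : IsCoprime ((1 : ℤ) * c₁) ((N / d : ℕ) : ℤ) := by
    rw [one_mul]; exact hcop1
  obtain ⟨k, hk⟩ := S20_NT2_alg (a := ax) (a' := a) (c₁ := 1) (c₁' := c₁) hNeq hcop' hbez hA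
  refine ⟨k, ?_⟩
  rw [mul_one] at hk
  rw [← hc, hcd]
  exact hk

/-- **C4**: the number of `⟨T⟩`-orbits on `SL(2,ℤ) ⧸ Γ₀(N)` is `cuspCount N`. -/
theorem S20_card_T_orbits :
    Nat.card (MulAction.orbitRel.Quotient (Subgroup.zpowers T) (S20_Q N))
      = ModularCurve.cuspCount N := by
  have hbij : Function.Bijective (S20_cuspMap N) :=
    ⟨S20_cuspMap_injective N, S20_cuspMap_surjective N⟩
  rw [← Nat.card_congr (Equiv.ofBijective _ hbij), Nat.card_sigma]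
  unfold ModularCurve.cuspCount
  rw [← Finset.sum_attach N.divisors (fun d => Nat.totient (Nat.gcd d (N / d)))]
  rw [Finset.univ_eq_attach]
  refine Finset.sum_congr rfl fun d _ => ?_
  rw [Nat.card_eq_fintype_card, ZMod.card_units_eq_totient]

end Fermat.Agent.S20
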