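import Mathlib
import Fermat.Agent.S20.P1Basic

set_option autoImplicit false

open Matrix MatrixGroups ModularGroup CongruenceSubgroup Matrix.SpecialLinearGroup

namespace Fermat.Agent.S20

variable (N : ℕ)

theorem S20_S_fixed_iff (g : SL(2, ℤ)) :
    S • (QuotientGroup.mk g : S20_Q N) = QuotientGroup.mk g ↔
      (N : ℤ) ∣ (g 0 0) ^ 2 + (g 1 0) ^ 2 := by
  rw [S20_smul_mk, S20_mk_eq_mk_iff]
  obtain ⟨h1, h2⟩ := S20_S_mul_apply g
  rw [h1, h2, ← dvd_neg]
  have : -(-(g 1 0) * g 1 0 - g 0 0 * g 0 0) = (g 0 0) ^ 2 + (g 1 0) ^ 2 := by ring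
  rw [this]

theorem S20_ST_fixed_iff (g : SL(2, ℤ)) :
    (S * T) • (QuotientGroup.mk g : S20_Q N) = QuotientGroup.mk g ↔
      (N : ℤ) ∣ (g 0 0) ^ 2 + (g 0 0) * (g 1 0) + (g 1 0) ^ 2 := by
  rw [S20_smul_mk, S20_mk_eq_mk_iff]
  obtain ⟨h1, h2⟩ := S20_ST_mul_apply g
  rw [h1, h2, ← dvd_neg]
  have : -(-(g 1 0) * g 1 0 - (g 0 0 + g 1 0) * g 0 0)
      = (g 0 0) ^ 2 + (g 0 0) * (g 1 0) + (g 1 0) ^ 2 := by ring
  rw [this]

/-- If `c` is coprime to `a` and `N ∣ a * m + c * k` hmm: general unit lemma. -/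
theorem S20_exists_inv_of_dvd {a c : ℤ} (hac : IsCoprime a c) {m : ℤ}
    (h : (N : ℤ) ∣ a ^ 2 + c * m) : ∃ u : ZMod N, u * (c : ZMod N) = 1 := by
  have h1 : IsCoprime (a ^ 2) c := hac.pow_left
  have h2 : IsCoprime (a ^ 2 + c * m) c := by
    rw [IsCoprime.add_mul_left_left_iff]
    exact h1
  have h3 : IsCoprime (N : ℤ) c := h2.of_isCoprime_of_dvd_left h
  obtain ⟨u, v, huv⟩ := h3
  refine ⟨(v : ZMod N), ?_⟩
  have := congrArg (Int.cast : ℤ → ZMod N) huv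
  push_cast at this
  simpa using this

variable [NeZero N]

omit [NeZero N] in
theorem S20_mk_colOne_eq_iff (x : ZMod N) (g : SL(2, ℤ)) :
    (QuotientGroup.mk (S20_colOne (x.cast : ℤ)) : S20_Q N) = QuotientGroup.mk g ↔
      x * (g 1 0 : ZMod N) = (g 0 0 : ZMod N) := by
  rw [S20_mk_eq_mk_iff, ← ZMod.intCast_zmod_eq_zero_iff_dvd]
  simp only [S20_colOne_apply_zero_zero, S20_colOne_apply_one_zero]
  push_cast
  rw [one_mul, sub_eq_zero]

/-- **C2**: the number of fixed points of `S` on `SL(2,ℤ) ⧸ Γ₀(N)` is `nuTwo N`. -/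
theorem S20_card_fixed_S :
    Nat.card {q : S20_Q N // S • q = q} = ModularCurve.nuTwo N := by
  unfold ModularCurve.nuTwo
  symm
  have hfix : ∀ x : {x : ZMod N // x ^ 2 + 1 = 0},
      S • (QuotientGroup.mk (S20_colOne (x.1.cast : ℤ)) : S20_Q N)
        = QuotientGroup.mk (S20_colOne (x.1.cast : ℤ)) := by
    intro x
    rw [S20_S_fixed_iff, ← ZMod.intCast_zmod_eq_zero_iff_dvd]
    simp only [S20_colOne_apply_zero_zero, S20_colOne_apply_one_zero]
    push_cast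
    simpa using x.2
  refine Nat.card_congr (Equiv.ofBijective
    (fun x => ⟨QuotientGroup.mk (S20_colOne (x.1.cast : ℤ)), hfix x⟩) ⟨?_, ?_⟩)
  · intro x y hxy
    have h := congrArg Subtype.val hxy
    simp only at h
    rw [S20_mk_colOne_eq_iff] at h
    simp only [S20_colOne_apply_zero_zero, S20_colOne_apply_one_zero] at h
    push_cast at h
    exact Subtype.ext (by simpa using h)
  · rintro ⟨q, hq⟩
    obtain ⟨g, rfl⟩ := QuotientGroup.mk_surjective q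
    rw [S20_S_fixed_iff] at hq
    have hq' : (N : ℤ) ∣ (g 0 0) ^ 2 + (g 1 0) * (g 1 0) := by
      rw [← sq]; exact hq
    obtain ⟨u, hu⟩ := S20_exists_inv_of_dvd N (S20_isCoprime_col g) hq'
    have hz : ((g 0 0 : ZMod N)) ^ 2 + ((g 1 0 : ZMod N)) ^ 2 = 0 := by
      have := (ZMod.intCast_zmod_eq_zero_iff_dvd _ N).mpr hq
      push_cast at this
      exact this
    have hx : ((g 0 0 : ZMod N) * u) ^ 2 + 1 = 0 := by
      have : ((g 0 0 : ZMod N) * u) ^ 2 + 1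
          = (((g 0 0 : ZMod N)) ^ 2 + ((g 1 0 : ZMod N)) ^ 2) * u ^ 2 := by
        have hu2 : (u * (g 1 0 : ZMod N)) ^ 2 = 1 := by rw [hu, one_pow]
        calc ((g 0 0 : ZMod N) * u) ^ 2 + 1
            = ((g 0 0 : ZMod N) * u) ^ 2 + (u * (g 1 0 : ZMod N)) ^ 2 := by rw [hu2]
          _ = _ := by ring
      rw [this, hz, zero_mul]
    refine ⟨⟨(g 0 0 : ZMod N) * u, hx⟩, ?_⟩
    apply Subtype.ext
    simp only
    rw [S20_mk_colOne_eq_iff, mul_assoc, hu, mul_one]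

/-- **C3**: the number of fixed points of `S * T` on `SL(2,ℤ) ⧸ Γ₀(N)` is `nuThree N`. -/
theorem S20_card_fixed_ST :
    Nat.card {q : S20_Q N // (S * T) • q = q} = ModularCurve.nuThree N := by
  unfold ModularCurve.nuThree
  symm
  have hfix : ∀ x : {x : ZMod N // x ^ 2 + x + 1 = 0},
      (S * T) • (QuotientGroup.mk (S20_colOne (x.1.cast : ℤ)) : S20_Q N)
        = QuotientGroup.mk (S20_colOne (x.1.cast : ℤ)) := by
    intro x
    rw [S20_ST_fixed_iff, ← ZMod.intCast_zmod_eq_zero_iff_dvd]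
    simp only [S20_colOne_apply_zero_zero, S20_colOne_apply_one_zero]
    push_cast
    simpa using x.2
  refine Nat.card_congr (Equiv.ofBijective
    (fun x => ⟨QuotientGroup.mk (S20_colOne (x.1.cast : ℤ)), hfix x⟩) ⟨?_, ?_⟩)
  · intro x y hxy
    have h := congrArg Subtype.val hxy
    simp only at h
    rw [S20_mk_colOne_eq_iff] at h
    simp only [S20_colOne_apply_zero_zero, S20_colOne_apply_one_zero] at h
    push_cast at h
    exact Subtype.ext (by simpa using h)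
  · rintro ⟨q, hq⟩
    obtain ⟨g, rfl⟩ := QuotientGroup.mk_surjective q
    rw [S20_ST_fixed_iff] at hq
    have hq' : (N : ℤ) ∣ (g 0 0) ^ 2 + (g 1 0) * (g 0 0 + g 1 0) := by
      have : (g 0 0) ^ 2 + (g 1 0) * (g 0 0 + g 1 0)
          = (g 0 0) ^ 2 + (g 0 0) * (g 1 0) + (g 1 0) ^ 2 := by ring
      rw [this]; exact hq
    obtain ⟨u, hu⟩ := S20_exists_inv_of_dvd N (S20_isCoprime_col g) hq'
    have hz : ((g 0 0 : ZMod N)) ^ 2 + (g 0 0 : ZMod N) * (g 1 0 : ZMod N)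
        + ((g 1 0 : ZMod N)) ^ 2 = 0 := by
      have := (ZMod.intCast_zmod_eq_zero_iff_dvd _ N).mpr hq
      push_cast at this
      exact this
    have hx : ((g 0 0 : ZMod N) * u) ^ 2 + (g 0 0 : ZMod N) * u + 1 = 0 := by
      have : ((g 0 0 : ZMod N) * u) ^ 2 + (g 0 0 : ZMod N) * u + 1
          = (((g 0 0 : ZMod N)) ^ 2 + (g 0 0 : ZMod N) * (g 1 0 : ZMod N)
              + ((g 1 0 : ZMod N)) ^ 2) * u ^ 2 := by
        have hu2 : (u * (g 1 0 : ZMod N)) ^ 2 = 1 := by rw [hu, one_pow]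
        calc ((g 0 0 : ZMod N) * u) ^ 2 + (g 0 0 : ZMod N) * u + 1
            = ((g 0 0 : ZMod N) * u) ^ 2 + (g 0 0 : ZMod N) * u * (u * (g 1 0 : ZMod N))
                + (u * (g 1 0 : ZMod N)) ^ 2 := by rw [hu2, hu, mul_one]
          _ = _ := by ring
      rw [this, hz, zero_mul]
    refine ⟨⟨(g 0 0 : ZMod N) * u, hx⟩, ?_⟩
    apply Subtype.ext
    simp only
    rw [S20_mk_colOne_eq_iff, mul_assoc, hu, mul_one]

end Fermat.Agent.S20
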