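import Mathlib
import Fermat.Prelude.Def_ModularCurve_GenusNumerics

set_option autoImplicit false

namespace Fermat.Agent.S20

open ModularCurve

theorem S20_dedekindPsi_prime_mul_of_dvd {p N : ℕ} (hp : p.Prime) (hN : N ≠ 0) (hpN : p ∣ N) :
    dedekindPsi (p * N) = p * dedekindPsi N := by
  unfold dedekindPsi
  have hset : (p * N).divisors.filter Squarefree = N.divisors.filter Squarefree := by
    ext d
    simp only [Finset.mem_filter, Nat.mem_divisors]
    constructor
    · rintro ⟨⟨hd, -⟩, hsq⟩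
      refine ⟨⟨?_, hN⟩, hsq⟩
      by_cases hpd : p ∣ d
      · obtain ⟨d', rfl⟩ := hpd
        have hd' : d' ∣ N := Nat.dvd_of_mul_dvd_mul_left hp.pos hd
        have hcop : Nat.Coprime p d' := by
          rw [Nat.Prime.coprime_iff_not_dvd hp]
          intro h
          obtain ⟨e, rfl⟩ := h
          have := hsq p ⟨e, by ring⟩
          exact hp.one_lt.ne' (Nat.isUnit_iff.mp this)
        exact hcop.mul_dvd_of_dvd_of_dvd hpN hd'
      · have hcop : Nat.Coprime d p := ((Nat.Prime.coprime_iff_not_dvd hp).mpr hpd).symm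
        exact hcop.dvd_of_dvd_mul_left hd
    · rintro ⟨⟨hd, -⟩, hsq⟩
      exact ⟨⟨hd.mul_left p, mul_ne_zero hp.ne_zero hN⟩, hsq⟩
  rw [hset, Finset.mul_sum]
  refine Finset.sum_congr rfl fun d hd => ?_
  simp only [Finset.mem_filter, Nat.mem_divisors] at hd
  exact Nat.mul_div_assoc p hd.1.1

theorem S20_dedekindPsi_prime_mul_of_not_dvd {p N : ℕ} (hp : p.Prime) (hN : N ≠ 0)
    (hpN : ¬ p ∣ N) :
    dedekindPsi (p * N) = (p + 1) * dedekindPsi N := by
  unfold dedekindPsi
  set A := N.divisors.filter Squarefree with hA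
  have hAmem : ∀ d, d ∈ A ↔ d ∣ N ∧ Squarefree d := by
    intro d
    simp [hA, hN]
  have hnotdvd : ∀ d ∈ A, ¬ p ∣ d := fun d hd h =>
    hpN (h.trans ((hAmem d).mp hd).1)
  have hinj : Function.Injective (fun d : ℕ => p * d) := fun a b h =>
    Nat.eq_of_mul_eq_mul_left hp.pos h
  have hdisj : Disjoint A (A.image (fun d => p * d)) := by
    rw [Finset.disjoint_left]
    intro d hd hd'
    rw [Finset.mem_image] at hd'
    obtain ⟨e, -, rfl⟩ := hd'
    exact hnotdvd _ hd (dvd_mul_right p e)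
  have hset : (p * N).divisors.filter Squarefree = A ∪ A.image (fun d => p * d) := by
    ext d
    simp only [Finset.mem_filter, Nat.mem_divisors, Finset.mem_union, Finset.mem_image, hAmem]
    constructor
    · rintro ⟨⟨hd, -⟩, hsq⟩
      by_cases hpd : p ∣ d
      · right
        obtain ⟨d', rfl⟩ := hpd
        exact ⟨d', ⟨Nat.dvd_of_mul_dvd_mul_left hp.pos hd, hsq.of_mul_right⟩, rfl⟩
      · left
        have hcop : Nat.Coprime d p := ((Nat.Prime.coprime_iff_not_dvd hp).mpr hpd).symm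
        exact ⟨hcop.dvd_of_dvd_mul_left hd, hsq⟩
    · rintro (⟨hd, hsq⟩ | ⟨e, ⟨he, hsq⟩, rfl⟩)
      · exact ⟨⟨hd.mul_left p, mul_ne_zero hp.ne_zero hN⟩, hsq⟩
      · refine ⟨⟨Nat.mul_dvd_mul_left p he, mul_ne_zero hp.ne_zero hN⟩, ?_⟩
        have hcop : Nat.Coprime p e := by
          rw [Nat.Prime.coprime_iff_not_dvd hp]
          exact fun h => hpN (h.trans he)
        exact (Nat.squarefree_mul hcop).mpr ⟨hp.squarefree, hsq⟩
  rw [hset, Finset.sum_union hdisj, Finset.sum_image (fun a _ b _ h => hinj h), add_mul, one_mul,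
    Finset.mul_sum]
  congr 1
  · refine Finset.sum_congr rfl fun d hd => ?_
    exact Nat.mul_div_assoc p ((hAmem d).mp hd).1
  · refine Finset.sum_congr rfl fun d hd => ?_
    exact Nat.mul_div_mul_left N d hp.pos

end Fermat.Agent.S20
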