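import Mathlib
import Fermat.Agent.S20.P1Basic
import Fermat.Agent.S20.PsiRec

set_option autoImplicit false

open Matrix MatrixGroups ModularGroup CongruenceSubgroup Matrix.SpecialLinearGroup

namespace Fermat.Agent.S20

theorem S20_mem_Gamma0_iff (N : ℕ) (g : SL(2, ℤ)) : g ∈ Gamma0 N ↔ (N : ℤ) ∣ g 1 0 := by
  rw [Gamma0_mem, ZMod.intCast_zmod_eq_zero_iff_dvd]

theorem S20_Gamma0_le (p N : ℕ) : Gamma0 (p * N) ≤ Gamma0 N := by
  intro g hg
  rw [S20_mem_Gamma0_iff] at hg ⊢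
  exact (Dvd.intro_left (p : ℤ) (by push_cast; ring)).trans hg

section RelIndex

variable (p N : ℕ) [hp : Fact p.Prime]

/-- The invariant classifying cosets of `Γ₀(pN)` in `Γ₀(N)`. -/
noncomputable def S20_F (g : SL(2, ℤ)) : Option (ZMod p) :=
  if ((g 0 0 : ℤ) : ZMod p) = 0 then none
  else some ((((g 1 0) / (N : ℤ) : ℤ) : ZMod p) * ((g 0 0 : ℤ) : ZMod p)⁻¹)

variable {p N}

theorem S20_F_nondeg {g : SL(2, ℤ)} (hg : g ∈ Gamma0 N)
    (h0 : ((g 0 0 : ℤ) : ZMod p) = 0) : (((g 1 0) / (N : ℤ) : ℤ) : ZMod p) ≠ 0 := by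
  intro h1
  rw [ZMod.intCast_zmod_eq_zero_iff_dvd] at h0 h1
  rw [S20_mem_Gamma0_iff] at hg
  have hc : (p : ℤ) ∣ g 1 0 := by
    have : g 1 0 = (N : ℤ) * (g 1 0 / (N : ℤ)) := (Int.mul_ediv_cancel' hg).symm
    rw [this]
    exact h1.mul_left _
  have hcop := S20_isCoprime_col g
  have : IsUnit (p : ℤ) := hcop.isUnit_of_dvd' h0 hc
  rw [Int.isUnit_iff] at this
  have hp1 := hp.out.one_lt
  omega

theorem S20_F_eq_iff (hN : N ≠ 0) {g₁ g₂ : SL(2, ℤ)} (h₁ : g₁ ∈ Gamma0 N) (h₂ : g₂ ∈ Gamma0 N) :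
    S20_F p N g₁ = S20_F p N g₂ ↔ g₁⁻¹ * g₂ ∈ Gamma0 (p * N) := by
  have hn1 := S20_F_nondeg (p := p) h₁
  have hn2 := S20_F_nondeg (p := p) h₂
  rw [S20_mem_Gamma0_iff, S20_inv_mul_apply_one_zero]
  rw [S20_mem_Gamma0_iff] at h₁ h₂
  have e1 : g₁ 1 0 = (N : ℤ) * (g₁ 1 0 / (N : ℤ)) := (Int.mul_ediv_cancel' h₁).symm
  have e2 : g₂ 1 0 = (N : ℤ) * (g₂ 1 0 / (N : ℤ)) := (Int.mul_ediv_cancel' h₂).symm
  set a₁ := g₁ 0 0
  set a₂ := g₂ 0 0
  set c₁ := g₁ 1 0 / (N : ℤ)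
  set c₂ := g₂ 1 0 / (N : ℤ)
  have hN' : (N : ℤ) ≠ 0 := by exact_mod_cast hN
  have key : ((p * N : ℕ) : ℤ) ∣ a₁ * g₂ 1 0 - g₁ 1 0 * a₂ ↔
      ((a₁ : ZMod p) * (c₂ : ZMod p) = (c₁ : ZMod p) * (a₂ : ZMod p)) := by
    rw [e1, e2]
    have : a₁ * ((N : ℤ) * c₂) - (N : ℤ) * c₁ * a₂ = (N : ℤ) * (a₁ * c₂ - c₁ * a₂) := by ring
    rw [this]
    push_cast
    rw [mul_comm (p : ℤ) (N : ℤ), mul_dvd_mul_iff_left hN', ← ZMod.intCast_zmod_eq_zero_iff_dvd]
    push_cast
    rw [sub_eq_zero]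
  rw [key]
  unfold S20_F
  by_cases ha1 : ((a₁ : ℤ) : ZMod p) = 0
  · by_cases ha2 : ((a₂ : ℤ) : ZMod p) = 0
    · simp [ha1, ha2, a₁, a₂]
    · have hc1 := hn1 ha1
      simp only [a₁, a₂] at ha1 ha2
      simp only [ha1, ha2, if_true, if_false, a₁, a₂, c₁, c₂, zero_mul]
      constructor
      · intro h; exact absurd h (by simp)
      · intro h
        exfalso
        rcases mul_eq_zero.mp h.symm with h' | h'
        · exact hc1 h'
        · exact ha2 h'
  · by_cases ha2 : ((a₂ : ℤ) : ZMod p) = 0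
    · have hc2 := hn2 ha2
      simp only [a₁, a₂] at ha1 ha2
      simp only [ha1, ha2, if_true, if_false, a₁, a₂, c₁, c₂, mul_zero]
      constructor
      · intro h; exact absurd h (by simp)
      · intro h
        exfalso
        rcases mul_eq_zero.mp h with h' | h'
        · exact ha1 h'
        · exact hc2 h'
    · simp only [a₁, a₂] at ha1 ha2
      simp only [ha1, ha2, if_false, a₁, a₂, c₁, c₂, Option.some.injEq]
      constructor
      · intro h
        field_simp at h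
        first | linear_combination h | linear_combination -h
      · intro h
        field_simp
        first | linear_combination h | linear_combination -h


variable (p N)

/-- The invariant on the coset space `Γ₀(N) ⧸ Γ₀(pN)`. -/
noncomputable def S20_F' (hN : N ≠ 0) :
    (Gamma0 N) ⧸ (Gamma0 (p * N)).subgroupOf (Gamma0 N) → Option (ZMod p) :=
  Quotient.lift (fun k : Gamma0 N => S20_F p N k.1) (by
    intro k₁ k₂ h
    have h' : k₁⁻¹ * k₂ ∈ (Gamma0 (p * N)).subgroupOf (Gamma0 N) :=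
      QuotientGroup.leftRel_apply.mp h
    rw [Subgroup.mem_subgroupOf] at h'
    exact (S20_F_eq_iff hN k₁.2 k₂.2).mpr h')

variable {p N}

theorem S20_F'_mk (hN : N ≠ 0) (k : Gamma0 N) :
    S20_F' p N hN (QuotientGroup.mk k) = S20_F p N k.1 := rfl

theorem S20_F'_injective (hN : N ≠ 0) : Function.Injective (S20_F' p N hN) := by
  intro q₁ q₂ h
  obtain ⟨k₁, rfl⟩ := QuotientGroup.mk_surjective q₁
  obtain ⟨k₂, rfl⟩ := QuotientGroup.mk_surjective q₂
  rw [S20_F'_mk, S20_F'_mk, S20_F_eq_iff hN k₁.2 k₂.2] at h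
  rw [QuotientGroup.eq, Subgroup.mem_subgroupOf]
  exact h

/-- lower unipotent matrix `[[1,0],[c,1]]` -/
def S20_lower (c : ℤ) : SL(2, ℤ) :=
  ⟨!![1, 0; c, 1], by simp [Matrix.det_fin_two_of]⟩

@[simp] theorem S20_lower_apply_zero_zero (c : ℤ) : S20_lower c 0 0 = 1 := rfl
@[simp] theorem S20_lower_apply_one_zero (c : ℤ) : S20_lower c 1 0 = c := rfl

theorem S20_F'_some (hN : N ≠ 0) (y : ZMod p) : ∃ q, S20_F' p N hN q = some y := by
  have hmem : S20_lower ((N : ℤ) * (y.cast : ℤ)) ∈ Gamma0 N := by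
    rw [S20_mem_Gamma0_iff]
    exact ⟨_, rfl⟩
  refine ⟨QuotientGroup.mk ⟨_, hmem⟩, ?_⟩
  rw [S20_F'_mk]
  unfold S20_F
  have hN' : (N : ℤ) ≠ 0 := by exact_mod_cast hN
  simp only [S20_lower_apply_zero_zero, S20_lower_apply_one_zero, Int.cast_one, one_ne_zero,
    if_false, inv_one, mul_one]
  rw [Int.mul_ediv_cancel_left _ hN']
  simp

theorem S20_F'_none (hN : N ≠ 0) (hpN : ¬ p ∣ N) : ∃ q, S20_F' p N hN q = none := by
  have hcop : IsCoprime (p : ℤ) (N : ℤ) := by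
    rw [Int.isCoprime_iff_gcd_eq_one, Int.gcd_natCast_natCast]
    exact (Nat.Prime.coprime_iff_not_dvd hp.out).mpr hpN
  obtain ⟨g, hg0, hg1⟩ := hcop.exists_SL2_col 0
  have hmem : g ∈ Gamma0 N := by
    rw [S20_mem_Gamma0_iff, hg1]
  refine ⟨QuotientGroup.mk ⟨g, hmem⟩, ?_⟩
  rw [S20_F'_mk]
  unfold S20_F
  simp [hg0]

theorem S20_F'_ne_none (hN : N ≠ 0) (hpN : p ∣ N) (q) : S20_F' p N hN q ≠ none := by
  obtain ⟨k, rfl⟩ := QuotientGroup.mk_surjective q
  rw [S20_F'_mk]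
  unfold S20_F
  have hk := k.2
  rw [S20_mem_Gamma0_iff] at hk
  have hne : ((k.1 0 0 : ℤ) : ZMod p) ≠ 0 := by
    intro h0
    rw [ZMod.intCast_zmod_eq_zero_iff_dvd] at h0
    have hc : (p : ℤ) ∣ k.1 1 0 := (Int.natCast_dvd_natCast.mpr hpN).trans hk
    have : IsUnit (p : ℤ) := (S20_isCoprime_col k.1).isUnit_of_dvd' h0 hc
    rw [Int.isUnit_iff] at this
    have hp1 := hp.out.one_lt
    omega
  simp [hne]

theorem S20_relIndex (hN : N ≠ 0) :
    (Gamma0 (p * N)).relIndex (Gamma0 N) = if p ∣ N then p else p + 1 := by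
  unfold Subgroup.relIndex Subgroup.index
  have : NeZero p := ⟨hp.out.ne_zero⟩
  split_ifs with hpN
  · -- `p ∣ N`
    have hbij : Function.Bijective (fun q => (S20_F' p N hN q).getD 0) := by
      constructor
      · intro q₁ q₂ h
        apply S20_F'_injective hN
        have h1 := S20_F'_ne_none hN hpN q₁
        have h2 := S20_F'_ne_none hN hpN q₂
        obtain ⟨y₁, hy₁⟩ := Option.ne_none_iff_exists'.mp h1
        obtain ⟨y₂, hy₂⟩ := Option.ne_none_iff_exists'.mp h2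
        simp only [hy₁, hy₂, Option.getD_some] at h
        rw [hy₁, hy₂, h]
      · intro y
        obtain ⟨q, hq⟩ := S20_F'_some hN y
        exact ⟨q, by simp [hq]⟩
    rw [Nat.card_congr (Equiv.ofBijective _ hbij), Nat.card_eq_fintype_card, ZMod.card]
  · -- `¬ p ∣ N`
    have hbij : Function.Bijective (S20_F' p N hN) := by
      refine ⟨S20_F'_injective hN, ?_⟩
      intro x
      cases x with
      | none => exact S20_F'_none hN hpN
      | some y => exact S20_F'_some hN y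
    rw [Nat.card_congr (Equiv.ofBijective _ hbij), Nat.card_eq_fintype_card, Fintype.card_option,
      ZMod.card]

end RelIndex

/-- **C1**: the index of `Γ₀(N)` in `SL(2,ℤ)` is `dedekindPsi N`. -/
theorem S20_index_Gamma0 (N : ℕ) (hN : N ≠ 0) : (Gamma0 N).index = ModularCurve.dedekindPsi N := by
  induction N using induction_on_primes with
  | zero => exact absurd rfl hN
  | one =>
    rw [ModularCurve.dedekindPsi_one]
    have : Gamma0 1 = ⊤ := by
      ext g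
      rw [S20_mem_Gamma0_iff]
      simp
    rw [this, Subgroup.index_top]
  | prime_mul p N hp ih =>
    have hN' : N ≠ 0 := fun h => hN (by rw [h, mul_zero])
    have : Fact p.Prime := ⟨hp⟩
    rw [← Subgroup.relIndex_mul_index (S20_Gamma0_le p N), S20_relIndex hN', ih hN']
    split_ifs with hpN
    · rw [S20_dedekindPsi_prime_mul_of_dvd hp hN' hpN]
    · rw [S20_dedekindPsi_prime_mul_of_not_dvd hp hN' hpN]

/-- **C1**, cardinality form. -/
theorem S20_card_Q (N : ℕ) [NeZero N] : Nat.card (S20_Q N) = ModularCurve.dedekindPsi N :=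
  S20_index_Gamma0 N (NeZero.ne N)

end Fermat.Agent.S20
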