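import Mathlib

/-!
# S20 package G, generic part: invariants of permutation operators

* `S20_finrank_eigenspace_one`: for a group element `γ` acting on a finite set `X` and the operator
  `P v x = v (γ⁻¹ • x)` on `X → ℂ`, `finrank (eigenspace P 1) = #(orbits of ⟨γ⟩)`.
* `S20_prime_mul_card_orbits`: Burnside for a permutation of prime order.
* `S20_prime_mul_finrank_eigenspace_one`: `p * finrank (eigenspace P 1) = |X| + (p-1) |Fix γ|`
  if `γ ^ p` acts trivially.
* generic Fourier projections for an operator with `P ^ N = 1`.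
-/

set_option autoImplicit false

namespace Fermat.Agent.S20

open Module

section Invariants

variable (G X : Type*) [Group G] [MulAction G X]

/-- The space of functions invariant under a group action. -/
def S20_invSubmodule : Submodule ℂ (X → ℂ) where
  carrier := {v | ∀ (g : G) (x : X), v (g • x) = v x}
  add_mem' := by
    intro a b ha hb g x
    simp only [Pi.add_apply, ha g x, hb g x]
  zero_mem' := by
    intro g x
    rfl
  smul_mem' := by
    intro c a ha g x
    simp only [Pi.smul_apply, ha g x]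

theorem S20_mem_invSubmodule (v : X → ℂ) :
    v ∈ S20_invSubmodule G X ↔ ∀ (g : G) (x : X), v (g • x) = v x := Iff.rfl

/-- Invariant functions are the functions on the orbit space. -/
noncomputable def S20_invEquiv :
    (MulAction.orbitRel.Quotient G X → ℂ) ≃ₗ[ℂ] S20_invSubmodule G X where
  toFun f := ⟨fun x => f (Quotient.mk'' x), fun g x => by
    show f (Quotient.mk'' (g • x)) = f (Quotient.mk'' x)
    congr 1
    apply Quotient.sound'
    exact MulAction.mem_orbit x g⟩
  map_add' := by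
    intro f g
    rfl
  map_smul' := by
    intro c f
    rfl
  invFun v := fun q => Quotient.liftOn' q v.1 (by
    intro a b hab
    obtain ⟨g, hg⟩ := hab
    rw [← hg]
    exact v.2 g b)
  left_inv := by
    intro f
    funext q
    induction q using Quotient.inductionOn' with
    | h x => rfl
  right_inv := by
    intro v
    rfl

theorem S20_finrank_invSubmodule [Finite X] :
    Module.finrank ℂ (S20_invSubmodule G X) = Nat.card (MulAction.orbitRel.Quotient G X) := by
  classical
  have : Fintype (MulAction.orbitRel.Quotient G X) := Fintype.ofFinite _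
  rw [← (S20_invEquiv G X).finrank_eq, Module.finrank_fintype_fun_eq_card,
    Nat.card_eq_fintype_card]

end Invariants

section Eigen

variable {G X : Type*} [Group G] [MulAction G X]

theorem S20_inv_zpowers_iff (γ : G) (v : X → ℂ) :
    (∀ (g : Subgroup.zpowers γ) (x : X), v (g • x) = v x) ↔ ∀ x, v (γ⁻¹ • x) = v x := by
  constructor
  · intro h x
    exact h ⟨γ⁻¹, Subgroup.inv_mem _ (Subgroup.mem_zpowers γ)⟩ x
  · intro h
    -- the stabiliser subgroup
    let H : Subgroup G :=
      { carrier := {g | ∀ x, v (g • x) = v x}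
        mul_mem' := by
          intro a b ha hb x
          rw [mul_smul, ha, hb]
        one_mem' := by
          intro x
          rw [one_smul]
        inv_mem' := by
          intro a ha x
          have := ha (a⁻¹ • x)
          rw [smul_inv_smul] at this
          exact this.symm }
    have hγ : γ ∈ H := by
      have : γ⁻¹ ∈ H := h
      simpa using H.inv_mem this
    have hle : Subgroup.zpowers γ ≤ H := by
      rw [Subgroup.zpowers_le]
      exact hγ
    intro g x
    exact hle g.2 x

theorem S20_eigenspace_one_eq (γ : G) (P : (X → ℂ) →ₗ[ℂ] (X → ℂ))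
    (hP : ∀ v x, P v x = v (γ⁻¹ • x)) :
    Module.End.eigenspace P 1 = S20_invSubmodule (Subgroup.zpowers γ) X := by
  ext v
  rw [Module.End.mem_eigenspace_iff, one_smul, S20_mem_invSubmodule, S20_inv_zpowers_iff]
  constructor
  · intro h x
    rw [← hP v x, h]
  · intro h
    funext x
    rw [hP, h]

theorem S20_finrank_eigenspace_one [Finite X] (γ : G) (P : (X → ℂ) →ₗ[ℂ] (X → ℂ))
    (hP : ∀ v x, P v x = v (γ⁻¹ • x)) :
    Module.finrank ℂ (Module.End.eigenspace P 1) =
      Nat.card (MulAction.orbitRel.Quotient (Subgroup.zpowers γ) X) := by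
  rw [S20_eigenspace_one_eq γ P hP, S20_finrank_invSubmodule]

end Eigen

section Burnside


theorem S20_fixedBy_pow_eq {X : Type*} (σ : Equiv.Perm X) (p : ℕ) (hp : p.Prime) (hσ : σ ^ p = 1)
    (i : ℕ) (hi : ¬ p ∣ i) (x : X) : (σ ^ i) x = x ↔ σ x = x := by
  constructor
  · intro h
    have hcop : Nat.Coprime i p := (Nat.Prime.coprime_iff_not_dvd hp).2 hi |>.symm
    -- Bezout: σ = (σ^i)^a * (σ^p)^b
    have hb := Nat.gcd_eq_gcd_ab i p
    rw [Nat.Coprime.gcd_eq_one hcop] at hb
    have h1 : σ = (σ ^ i) ^ (Nat.gcdA i p) * (σ ^ p) ^ (Nat.gcdB i p) := by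
      rw [← zpow_natCast σ i, ← zpow_natCast σ p, ← zpow_mul, ← zpow_mul, ← zpow_add]
      have : ((i : ℤ) * i.gcdA p + (p : ℤ) * i.gcdB p) = 1 := by
        rw [← hb]; rfl
      rw [this, zpow_one]
    rw [hσ, one_zpow, mul_one] at h1
    have h2 : ∀ n : ℤ, ((σ ^ i) ^ n) x = x := by
      intro n
      have hmem : (σ ^ i) ∈ MulAction.stabilizer (Equiv.Perm X) x := by
        rw [MulAction.mem_stabilizer_iff]
        exact h
      have := Subgroup.zpow_mem _ hmem n
      rw [MulAction.mem_stabilizer_iff] at this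
      exact this
    conv_lhs => rw [h1]
    exact h2 _
  · intro h
    have hmem : σ ∈ MulAction.stabilizer (Equiv.Perm X) x := by
      rw [MulAction.mem_stabilizer_iff]
      exact h
    have := Subgroup.pow_mem _ hmem i
    rw [MulAction.mem_stabilizer_iff] at this
    exact this

theorem S20_prime_mul_card_orbits {X : Type*} [Finite X] (σ : Equiv.Perm X) (p : ℕ)
    (hp : p.Prime) (hσ : σ ^ p = 1) :
    p * Nat.card (MulAction.orbitRel.Quotient (Subgroup.zpowers σ) X) =
      Nat.card X + (p - 1) * Nat.card {x : X // σ x = x} := by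
  classical
  have : Fintype X := Fintype.ofFinite X
  have : Fintype (MulAction.orbitRel.Quotient (Subgroup.zpowers σ) X) := Fintype.ofFinite _
  have hfin : IsOfFinOrder σ := isOfFinOrder_of_finite σ
  have : Fintype (Subgroup.zpowers σ) := Fintype.ofFinite _
  have hB := MulAction.sum_card_fixedBy_eq_card_orbits_mul_card_group (Subgroup.zpowers σ) X
  have hcardfix : ∀ g : Subgroup.zpowers σ,
      Fintype.card (MulAction.fixedBy X g) = Nat.card {x : X // (g : Equiv.Perm X) x = x} := by
    intro g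
    rw [Nat.card_eq_fintype_card]
    apply Fintype.card_congr
    exact Equiv.subtypeEquivRight (fun x => by rw [MulAction.mem_fixedBy]; rfl)
  simp_rw [hcardfix] at hB
  rw [← Fintype.sum_equiv (finEquivZPowers hfin)
    (fun i => Nat.card {x : X // (σ ^ (i : ℕ)) x = x})
    (fun g => Nat.card {x : X // (g : Equiv.Perm X) x = x})
    (fun i => by rw [finEquivZPowers_apply])] at hB
  rw [Fin.sum_univ_eq_sum_range (fun i => Nat.card {x : X // (σ ^ i) x = x}) (orderOf σ)] at hB
  rw [Nat.card_eq_fintype_card (α := MulAction.orbitRel.Quotient (Subgroup.zpowers σ) X)]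
  have hcardG : Fintype.card (Subgroup.zpowers σ) = orderOf σ := by
    rw [← Nat.card_eq_fintype_card, Nat.card_zpowers]
  rw [hcardG] at hB
  have hdvd : orderOf σ ∣ p := orderOf_dvd_of_pow_eq_one hσ
  rcases (Nat.dvd_prime hp).1 hdvd with h1 | h1
  · -- σ = 1
    rw [h1] at hB
    have hσ1 : σ = 1 := orderOf_eq_one_iff.1 h1
    simp only [Finset.range_one, Finset.sum_singleton, pow_zero, mul_one] at hB
    rw [← hB]
    subst hσ1
    simp only [Equiv.Perm.coe_one, id_eq]
    have e : Nat.card {x : X // True} = Nat.card X := Nat.card_congr (Equiv.subtypeUnivEquiv (fun _ => trivial))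
    rw [e]
    have hp1 := hp.one_le
    obtain ⟨k, rfl⟩ : ∃ k, p = k + 1 := ⟨p - 1, by omega⟩
    simp only [Nat.add_sub_cancel]
    ring
  · rw [h1] at hB
    rw [mul_comm, ← hB]
    have hp1 := hp.one_le
    obtain ⟨k, rfl⟩ : ∃ k, p = k + 1 := ⟨p - 1, by omega⟩
    rw [Finset.sum_range_succ']
    simp only [pow_zero, Equiv.Perm.coe_one, id_eq, Nat.add_sub_cancel]
    have e : Nat.card {x : X // True} = Nat.card X := Nat.card_congr (Equiv.subtypeUnivEquiv (fun _ => trivial))
    rw [e, add_comm]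
    congr 1
    rw [Finset.sum_congr rfl (g := fun _ => Nat.card {x : X // σ x = x})]
    · simp
    · intro i hi
      have hi' : i + 1 < k + 1 := by simpa using hi
      apply Nat.card_congr
      apply Equiv.subtypeEquivRight
      intro x
      apply S20_fixedBy_pow_eq σ (k+1) hp hσ
      intro hdiv
      have := Nat.le_of_dvd (by omega) hdiv
      omega


end Burnside

section Combined

variable {G X : Type*} [Group G] [MulAction G X]

/-- If `γ ^ p` acts trivially (`p` prime) then `p * dim(invariants) = |X| + (p - 1) |Fix γ|`. -/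
theorem S20_prime_mul_finrank_eigenspace_one [Finite X] (γ : G) (p : ℕ) (hp : p.Prime)
    (hγ : ∀ x : X, γ ^ p • x = x) (P : (X → ℂ) →ₗ[ℂ] (X → ℂ))
    (hP : ∀ v x, P v x = v (γ⁻¹ • x)) :
    p * Module.finrank ℂ (Module.End.eigenspace P 1) =
      Nat.card X + (p - 1) * Nat.card {x : X // γ • x = x} := by
  set σ : Equiv.Perm X := MulAction.toPerm γ with hσdef
  have hσ : σ ^ p = 1 := by
    ext x
    have h1 : σ ^ p = MulAction.toPerm (γ ^ p) := by
      rw [hσdef]
      exact (map_pow (MulAction.toPermHom G X) γ p).symm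
    rw [h1]
    simp only [MulAction.toPerm_apply, Equiv.Perm.coe_one, id_eq]
    exact hγ x
  have hP' : ∀ v x, P v x = v (σ⁻¹ • x) := by
    intro v x
    rw [hP]
    rfl
  rw [S20_finrank_eigenspace_one σ P hP', S20_prime_mul_card_orbits σ p hp hσ]
  rfl

end Combined


open Finset

section Fourier

variable {A : Type*} [Ring A] [Algebra ℂ A]

/-- Generic Fourier projection attached to an element `P` with `P ^ N = 1`. -/
noncomputable def S20_fproj (P : A) (ζ : ℂ) (N m : ℕ) : A :=
  (N : ℂ)⁻¹ • ∑ t ∈ range N, ζ ^ (-(m * t : ℤ)) • P ^ t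

theorem S20_fproj_eq (P : A) (ζ : ℂ) (N m : ℕ) :
    S20_fproj P ζ N m = (N : ℂ)⁻¹ • ∑ t ∈ range N, (ζ⁻¹) ^ (m * t) • P ^ t := by
  unfold S20_fproj
  congr 1
  apply Finset.sum_congr rfl
  intro t _
  congr 1
  rw [zpow_neg, ← Nat.cast_mul, zpow_natCast, inv_pow]

theorem S20_geom_sum_root {x : ℂ} {N : ℕ} (hx : x ^ N = 1) (hx1 : x ≠ 1) :
    ∑ t ∈ range N, x ^ t = 0 := by
  have h := geom_sum_mul x N
  rw [hx, sub_self] at h
  rcases mul_eq_zero.1 h with h | h
  · exact h
  · exact absurd (sub_eq_zero.1 h) hx1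

variable {P : A} {ζ : ℂ} {N : ℕ}

theorem S20_mul_fproj (hP : P ^ N = 1) (hζ : ζ ^ N = 1) (hζ0 : ζ ≠ 0) (m : ℕ) :
    P * S20_fproj P ζ N m = ζ ^ m • S20_fproj P ζ N m := by
  have key : P * ∑ t ∈ range N, (ζ⁻¹) ^ (m * t) • P ^ t =
      ζ ^ m • ∑ t ∈ range N, (ζ⁻¹) ^ (m * t) • P ^ t := by
    rw [Finset.mul_sum, Finset.smul_sum]
    set b : ℕ → A := fun t => (ζ ^ m * (ζ⁻¹) ^ (m * t)) • P ^ t with hb
    have hL : ∀ t, P * ((ζ⁻¹) ^ (m * t) • P ^ t) = b (t + 1) := by
      intro t
      simp only [hb]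
      have hc : ζ ^ m * (ζ⁻¹) ^ (m * (t + 1)) = (ζ⁻¹) ^ (m * t) := by
        rw [mul_add, mul_one, pow_add, mul_comm ((ζ⁻¹) ^ (m * t)), ← mul_assoc, ← mul_pow,
          mul_inv_cancel₀ hζ0, one_pow, one_mul]
      rw [hc, mul_smul_comm, ← pow_succ']
    have hR : ∀ t, ζ ^ m • ((ζ⁻¹) ^ (m * t) • P ^ t) = b t := by
      intro t
      rw [smul_smul]
    rw [Finset.sum_congr rfl (fun t _ => hL t), Finset.sum_congr rfl (fun t _ => hR t)]
    have h1 := Finset.sum_range_succ b N
    have h2 := Finset.sum_range_succ' b N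
    have h3 : b N = b 0 := by
      simp only [hb]
      rw [hP, mul_zero, pow_zero, pow_zero, mul_one, mul_comm m N, pow_mul, inv_pow, hζ, inv_one,
        one_pow, mul_one]
    rw [h2, h3] at h1
    exact add_right_cancel h1
  rw [S20_fproj_eq, mul_smul_comm, key, smul_comm]

theorem S20_pow_mul_fproj (hP : P ^ N = 1) (hζ : ζ ^ N = 1) (hζ0 : ζ ≠ 0) (m t : ℕ) :
    P ^ t * S20_fproj P ζ N m = ζ ^ (m * t) • S20_fproj P ζ N m := by
  induction t with
  | zero => simp
  | succ t ih =>
    rw [pow_succ', mul_assoc, ih, mul_smul_comm, S20_mul_fproj hP hζ hζ0, smul_smul, mul_add,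
      mul_one, pow_add]

theorem S20_sum_fproj (hN : N ≠ 0) (hζ : IsPrimitiveRoot ζ N) :
    ∑ m ∈ range N, S20_fproj P ζ N m = 1 := by
  simp_rw [S20_fproj_eq]
  rw [← Finset.smul_sum, Finset.sum_comm]
  have hterm : ∀ t ∈ range N, ∑ m ∈ range N, (ζ⁻¹) ^ (m * t) • P ^ t =
      if t = 0 then (N : ℂ) • (1 : A) else 0 := by
    intro t ht
    rw [← Finset.sum_smul]
    split_ifs with h0
    · subst h0
      simp
    · have hx : ((ζ⁻¹) ^ t) ^ N = 1 := by
        rw [← pow_mul, mul_comm, pow_mul, inv_pow, hζ.pow_eq_one, inv_one, one_pow]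
      have hx1 : (ζ⁻¹) ^ t ≠ 1 := by
        rw [inv_pow]
        intro h
        have h' : ζ ^ t = 1 := by
          rw [inv_eq_one] at h
          exact h
        exact hζ.pow_ne_one_of_pos_of_lt h0 (Finset.mem_range.1 ht) h'
      have := S20_geom_sum_root hx hx1
      simp_rw [← pow_mul, mul_comm t] at this
      rw [this, zero_smul]
  rw [Finset.sum_congr rfl hterm, Finset.sum_ite_eq' (range N) 0 (fun _ => (N : ℂ) • (1 : A))]
  have h0 : 0 ∈ range N := Finset.mem_range.2 (Nat.pos_of_ne_zero hN)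
  rw [if_pos h0, smul_smul, inv_mul_cancel₀ (Nat.cast_ne_zero.2 hN), one_smul]

theorem S20_fproj_mul_fproj (hN : N ≠ 0) (hP : P ^ N = 1) (hζ : IsPrimitiveRoot ζ N)
    {m m' : ℕ} (hm : m < N) (hm' : m' < N) :
    S20_fproj P ζ N m * S20_fproj P ζ N m' = if m = m' then S20_fproj P ζ N m else 0 := by
  have hζ0 : ζ ≠ 0 := hζ.ne_zero hN
  have hζN := hζ.pow_eq_one
  conv_lhs => rw [S20_fproj_eq P ζ N m]
  rw [smul_mul_assoc, Finset.sum_mul]
  have hterm : ∀ t ∈ range N, (ζ⁻¹) ^ (m * t) • P ^ t * S20_fproj P ζ N m' =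
      ((ζ⁻¹) ^ m * ζ ^ m') ^ t • S20_fproj P ζ N m' := by
    intro t _
    rw [smul_mul_assoc, S20_pow_mul_fproj hP hζN hζ0, smul_smul, mul_pow, pow_mul, pow_mul]
  rw [Finset.sum_congr rfl hterm, ← Finset.sum_smul]
  split_ifs with h
  · subst h
    rw [inv_pow, inv_mul_cancel₀ (pow_ne_zero _ hζ0)]
    simp only [one_pow, Finset.sum_const, Finset.card_range, nsmul_eq_mul, mul_one]
    rw [smul_smul, inv_mul_cancel₀ (Nat.cast_ne_zero.2 hN), one_smul]
  · have hx : ((ζ⁻¹) ^ m * ζ ^ m') ^ N = 1 := by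
      rw [mul_pow, ← pow_mul, ← pow_mul, mul_comm m, mul_comm m', pow_mul, pow_mul, inv_pow, hζN,
        inv_one, one_pow, one_pow, one_mul]
    have hx1 : (ζ⁻¹) ^ m * ζ ^ m' ≠ 1 := by
      intro h1
      rw [inv_pow, inv_mul_eq_one₀ (pow_ne_zero _ hζ0)] at h1
      exact h (hζ.pow_inj hm hm' h1)
    rw [S20_geom_sum_root hx hx1, zero_smul, smul_zero]

end Fourier

section FourierEnd

variable {V : Type*} [AddCommGroup V] [Module ℂ V] {P : Module.End ℂ V} {ζ : ℂ} {N : ℕ}

theorem S20_fproj_zero_apply_eq_iff (hN : N ≠ 0) (hP : P ^ N = 1) (hζ : ζ ^ N = 1) (hζ0 : ζ ≠ 0)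
    (v : V) : S20_fproj P ζ N 0 v = v ↔ P v = v := by
  constructor
  · intro h
    have h2 := S20_mul_fproj hP hζ hζ0 0
    rw [pow_zero, one_smul] at h2
    have h3 := congrArg (fun f : Module.End ℂ V => f v) h2
    simp only [Module.End.mul_apply] at h3
    rw [h] at h3
    exact h3
  · intro h
    have hpow : ∀ t : ℕ, (P ^ t) v = v := by
      intro t
      induction t with
      | zero => simp
      | succ t ih => rw [pow_succ, Module.End.mul_apply, h, ih]
    rw [S20_fproj_eq]
    simp only [zero_mul, pow_zero, one_smul, LinearMap.smul_apply, LinearMap.sum_apply, hpow,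
      Finset.sum_const, Finset.card_range]
    rw [← Nat.cast_smul_eq_nsmul ℂ, smul_smul, inv_mul_cancel₀ (Nat.cast_ne_zero.2 hN), one_smul]

end FourierEnd


end Fermat.Agent.S20
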