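import Fermat.Agent.S20.Perm
import Fermat.Agent.S20.PermGen
import Fermat.Agent.S20.P1Index
import Fermat.Agent.S20.P1Fixed
import Fermat.Agent.S20.P1Cusps

/-!
# S20 package G: permutation linear algebra on `Q N → ℂ`

* G1 `two_mul_finrank_eigenspace_permOp_S`
* G2 `three_mul_finrank_eigenspace_permOp_ST`
* G3 `finrank_eigenspace_permOp_T`
* G4 `zetaN`, `fourierProj`, `permOp_T_pow_level`, `sum_fourierProj`, `permOp_T_comp_fourierProj`,
  `fourierProj_comp_fourierProj`, `fourierProj_zero_apply_eq_iff`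
-/

set_option autoImplicit false
set_option linter.unusedSectionVars false

namespace Fermat.Agent.S20

open Matrix MatrixGroups ModularGroup CongruenceSubgroup Matrix.SpecialLinearGroup
open Module.End Finset

variable (N : ℕ) [NeZero N]

theorem S20_neg_one_smul (q : Q N) : (-1 : SL(2, ℤ)) • q = q := by
  induction q using QuotientGroup.induction_on with
  | H x =>
    rw [S20_smul_mk, S20_mk_eq_mk_iff]
    have h1 : ((-1 : SL(2, ℤ)) * x) 0 0 = - x 0 0 := by
      simp
    have h2 : ((-1 : SL(2, ℤ)) * x) 1 0 = - x 1 0 := by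
      simp
    rw [h1, h2]
    ring_nf
    exact dvd_zero _

theorem S20_S_sq : (S : SL(2, ℤ)) ^ 2 = -1 := by
  ext i j
  fin_cases i <;> fin_cases j <;> simp [pow_two, S, Matrix.mul_apply, Fin.sum_univ_two]

theorem S20_ST_cube : ((S : SL(2, ℤ)) * T) ^ 3 = -1 := by
  ext i j
  fin_cases i <;> fin_cases j <;>
    simp [pow_succ, S, T, Matrix.mul_apply, Fin.sum_univ_two]

/-- **G1** -/
theorem two_mul_finrank_eigenspace_permOp_S :
    2 * Module.finrank ℂ (eigenspace (permOp N S) 1) =
      ModularCurve.dedekindPsi N + ModularCurve.nuTwo N := by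
  have h := S20_prime_mul_finrank_eigenspace_one (X := Q N) (S : SL(2, ℤ)) 2 Nat.prime_two
    (fun x => by rw [S20_S_sq]; exact S20_neg_one_smul N x) (permOp N S) (fun v x => rfl)
  rw [h, S20_card_Q N, S20_card_fixed_S N]
  simp

/-- **G2** -/
theorem three_mul_finrank_eigenspace_permOp_ST :
    3 * Module.finrank ℂ (eigenspace (permOp N (S * T)) 1) =
      ModularCurve.dedekindPsi N + 2 * ModularCurve.nuThree N := by
  have h := S20_prime_mul_finrank_eigenspace_one (X := Q N) ((S : SL(2, ℤ)) * T) 3 Nat.prime_three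
    (fun x => by rw [S20_ST_cube]; exact S20_neg_one_smul N x) (permOp N (S * T)) (fun v x => rfl)
  rw [h, S20_card_Q N, S20_card_fixed_ST N]

/-- **G3** -/
theorem finrank_eigenspace_permOp_T :
    Module.finrank ℂ (eigenspace (permOp N T) 1) = ModularCurve.cuspCount N := by
  rw [S20_finrank_eigenspace_one (X := Q N) (T : SL(2, ℤ)) (permOp N T) (fun v x => rfl)]
  exact S20_card_T_orbits N

/-! ### G4: Fourier projections -/

/-- `exp (2 π i / N)`. -/
noncomputable def zetaN (N : ℕ) : ℂ := Complex.exp (2 * Real.pi * Complex.I / N)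

theorem zetaN_isPrimitiveRoot : IsPrimitiveRoot (zetaN N) N :=
  Complex.isPrimitiveRoot_exp N (NeZero.ne N)

theorem zetaN_pow : zetaN N ^ N = 1 := (zetaN_isPrimitiveRoot N).pow_eq_one

theorem zetaN_ne_zero : zetaN N ≠ 0 := Complex.exp_ne_zero _

/-- The Fourier projection onto the `ζ^m`-eigenspace of `permOp N T`. -/
noncomputable def fourierProj (N : ℕ) (m : ℕ) : (Q N → ℂ) →ₗ[ℂ] (Q N → ℂ) :=
  (N : ℂ)⁻¹ • ∑ t ∈ range N, (zetaN N) ^ (-(m * t : ℤ)) • (permOp N T) ^ t

theorem fourierProj_eq_fproj (m : ℕ) :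
    fourierProj N m = S20_fproj (permOp N T) (zetaN N) N m := rfl

theorem permOp_pow (γ : SL(2, ℤ)) (t : ℕ) : (permOp N γ) ^ t = permOp N (γ ^ t) := by
  induction t with
  | zero =>
    rw [pow_zero, pow_zero, permOp_one]
    rfl
  | succ t ih =>
    rw [pow_succ, pow_succ, permOp_mul, ih]
    rfl

theorem S20_T_pow_level_smul (q : Q N) : ((T : SL(2, ℤ)) ^ N) • q = q := by
  induction q using QuotientGroup.induction_on with
  | H x =>
    rw [S20_smul_mk, S20_mk_eq_mk_iff]
    have h := S20_T_zpow_mul_apply (N : ℤ) x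
    rw [zpow_natCast] at h
    rw [h.1, h.2]
    exact ⟨x 1 0 * x 1 0, by ring⟩

theorem permOp_T_pow_level : (permOp N T) ^ N = 1 := by
  rw [permOp_pow]
  apply LinearMap.ext
  intro v
  funext q
  simp only [permOp_apply, Module.End.one_apply]
  congr 1
  have h := S20_T_pow_level_smul N ((T ^ N)⁻¹ • q)
  rw [smul_inv_smul] at h
  exact h.symm

theorem sum_fourierProj : ∑ m ∈ range N, fourierProj N m = 1 := by
  simp_rw [fourierProj_eq_fproj]
  exact S20_sum_fproj (NeZero.ne N) (zetaN_isPrimitiveRoot N)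

theorem permOp_T_comp_fourierProj (m : ℕ) :
    permOp N T ∘ₗ fourierProj N m = zetaN N ^ m • fourierProj N m := by
  rw [fourierProj_eq_fproj]
  exact S20_mul_fproj (permOp_T_pow_level N) (zetaN_pow N) (zetaN_ne_zero N) m

theorem permOp_T_fourierProj_apply (m : ℕ) (v : Q N → ℂ) :
    permOp N T (fourierProj N m v) = zetaN N ^ m • fourierProj N m v := by
  have h := congrArg (fun f : (Q N → ℂ) →ₗ[ℂ] (Q N → ℂ) => f v) (permOp_T_comp_fourierProj N m)
  exact h

theorem fourierProj_comp_fourierProj {m m' : ℕ} (hm : m < N) (hm' : m' < N) :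
    fourierProj N m ∘ₗ fourierProj N m' = if m = m' then fourierProj N m else 0 := by
  rw [fourierProj_eq_fproj, fourierProj_eq_fproj]
  exact S20_fproj_mul_fproj (NeZero.ne N) (permOp_T_pow_level N) (zetaN_isPrimitiveRoot N) hm hm'

theorem fourierProj_zero_apply_eq_iff (v : Q N → ℂ) :
    fourierProj N 0 v = v ↔ permOp N T v = v := by
  rw [fourierProj_eq_fproj]
  exact S20_fproj_zero_apply_eq_iff (NeZero.ne N) (permOp_T_pow_level N) (zetaN_pow N)
    (zetaN_ne_zero N) v

/-- decomposition of a vector into its Fourier components -/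
theorem sum_fourierProj_apply (v : Q N → ℂ) : ∑ m ∈ range N, fourierProj N m v = v := by
  have h := congrArg (fun f : (Q N → ℂ) →ₗ[ℂ] (Q N → ℂ) => f v) (sum_fourierProj N)
  simpa using h

end Fermat.Agent.S20
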