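import Fermat.Agent.S20.LevelOne

/-!
# S20 package R: dimension count of free graded pieces

* `MF1sub m`: level one forms of weight `m`, as a submodule of functions;
* `finrank_MF1sub_values`: the dimensions in weights `0, 2, …, 14`;
* `finrank_eq_sum_of_free`: a space freely generated over level one forms by finitely many
  homogeneous generators has dimension the sum of the dimensions of the level one pieces.
-/

set_option autoImplicit false
set_option linter.unusedSectionVars false

namespace Fermat.Agent.S20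

open UpperHalfPlane ModularForm Matrix.SpecialLinearGroup Filter Topology
open scoped MatrixGroups ModularForm Manifold

/-- Level one forms of weight `m`, as a submodule of functions. -/
noncomputable def MF1sub (m : ℤ) : Submodule ℂ (ℍ → ℂ) where
  carrier := {f | IsMF1 m f}
  add_mem' hf hg := hf.add hg
  zero_mem' := isMF1_zero
  smul_mem' c _ hf := hf.smul c

@[simp] theorem mem_MF1sub {m : ℤ} {f : ℍ → ℂ} : f ∈ MF1sub m ↔ IsMF1 m f := Iff.rfl

/-- The coercion from level one forms to functions, as a linear map. -/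
noncomputable def coeLin1 (m : ℤ) : ModularForm 𝒮ℒ m →ₗ[ℂ] (ℍ → ℂ) where
  toFun f := ⇑f
  map_add' _ _ := rfl
  map_smul' _ _ := rfl

theorem coeLin1_injective (m : ℤ) : Function.Injective (coeLin1 m) := fun _ _ h =>
  DFunLike.coe_injective h

theorem MF1sub_eq_range (m : ℤ) : MF1sub m = LinearMap.range (coeLin1 m) := by
  ext f
  simp only [mem_MF1sub, LinearMap.mem_range]
  rfl

instance finiteDimensional_MF1sub (m : ℤ) : FiniteDimensional ℂ (MF1sub m) := by
  rw [MF1sub_eq_range]
  infer_instance

theorem finrank_MF1sub_eq (m : ℤ) :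
    Module.finrank ℂ (MF1sub m) = Module.finrank ℂ (ModularForm 𝒮ℒ m) := by
  rw [MF1sub_eq_range]
  exact LinearMap.finrank_range_of_inj (coeLin1_injective m)

/-- The dimension formula for level one forms of even weight, for `MF1sub`. -/
theorem finrank_MF1sub_nat (k : ℕ) (hk : Even k) :
    Module.finrank ℂ (MF1sub (k : ℤ)) = if k ≡ 2 [MOD 12] then k / 12 else k / 12 + 1 := by
  rw [finrank_MF1sub_eq]
  have h := ModularForm.dimension_level_one k hk
  split_ifs at h ⊢ with hc
  · exact Module.finrank_eq_of_rank_eq h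
  · exact Module.finrank_eq_of_rank_eq (n := k / 12 + 1) (by rw [h])

/-- Variant of `finrank_MF1sub_nat` with explicit values. -/
theorem finrank_MF1sub_of_nat (k : ℕ) (hk : Even k) (m : ℤ) (hm : m = k) (d : ℕ)
    (hd : d = if k % 12 = 2 then k / 12 else k / 12 + 1) :
    Module.finrank ℂ (MF1sub m) = d := by
  subst hm
  rw [finrank_MF1sub_nat k hk, hd]
  rfl

/-- **R1**: dimensions of the spaces of level one forms in weights `0, 2, …, 14`. -/
theorem finrank_MF1sub_values :
    Module.finrank ℂ (MF1sub 0) = 1 ∧ Module.finrank ℂ (MF1sub 2) = 0 ∧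
    Module.finrank ℂ (MF1sub 4) = 1 ∧ Module.finrank ℂ (MF1sub 6) = 1 ∧
    Module.finrank ℂ (MF1sub 8) = 1 ∧ Module.finrank ℂ (MF1sub 10) = 1 ∧
    Module.finrank ℂ (MF1sub 12) = 2 ∧ Module.finrank ℂ (MF1sub 14) = 1 :=
  ⟨finrank_MF1sub_of_nat 0 (by decide) 0 (by norm_num) 1 (by decide),
   finrank_MF1sub_of_nat 2 (by decide) 2 (by norm_num) 0 (by decide),
   finrank_MF1sub_of_nat 4 (by decide) 4 (by norm_num) 1 (by decide),
   finrank_MF1sub_of_nat 6 (by decide) 6 (by norm_num) 1 (by decide),
   finrank_MF1sub_of_nat 8 (by decide) 8 (by norm_num) 1 (by decide),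
   finrank_MF1sub_of_nat 10 (by decide) 10 (by norm_num) 1 (by decide),
   finrank_MF1sub_of_nat 12 (by decide) 12 (by norm_num) 2 (by decide),
   finrank_MF1sub_of_nat 14 (by decide) 14 (by norm_num) 1 (by decide)⟩

/-- The dimension of the space of level one forms of negative weight is `0`. -/
theorem finrank_MF1sub_neg {m : ℤ} (hm : m < 0) : Module.finrank ℂ (MF1sub m) = 0 := by
  rw [finrank_MF1sub_eq]
  exact Module.finrank_eq_zero_of_rank_eq_zero (ModularForm.levelOne_neg_weight_rank_zero hm)

/-- The dimension of the space of level one forms of odd weight is `0`. -/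
theorem finrank_MF1sub_odd {m : ℤ} (hm : Odd m) : Module.finrank ℂ (MF1sub m) = 0 := by
  rw [finrank_MF1sub_eq]
  exact Module.finrank_eq_zero_of_rank_eq_zero (ModularForm.levelOne_odd_weight_rank_zero hm)

/-- **R2**: a space freely generated over the level one forms by finitely many homogeneous
generators `e j` of weights `k j` has dimension `∑ j, dim M_{K - k j}(SL₂(ℤ))`. -/
theorem finrank_eq_sum_of_free {J : Type} [Fintype J] (K : ℤ) (W : Submodule ℂ (ℍ → ℂ))
    (k : J → ℤ) (e : J → ℍ → ℂ)
    (hmem : ∀ r : J → ℍ → ℂ, (∀ j, IsMF1 (K - k j) (r j)) → ∑ j, r j * e j ∈ W)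
    (hspan : ∀ f ∈ W, ∃ r : J → ℍ → ℂ, (∀ j, IsMF1 (K - k j) (r j)) ∧ f = ∑ j, r j * e j)
    (hind : ∀ r : J → ℍ → ℂ, (∀ j, IsMF1 (K - k j) (r j)) → ∑ j, r j * e j = 0 → ∀ j, r j = 0) :
    Module.finrank ℂ W = ∑ j, Module.finrank ℂ (MF1sub (K - k j)) := by
  classical
  let Φ : (∀ j, MF1sub (K - k j)) →ₗ[ℂ] W :=
    { toFun := fun r => ⟨∑ j, (r j : ℍ → ℂ) * e j, hmem (fun j => r j) (fun j => (r j).2)⟩
      map_add' := fun r s => by
        apply Subtype.ext
        simp only [Pi.add_apply, Submodule.coe_add, add_mul, Finset.sum_add_distrib]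
      map_smul' := fun c r => by
        apply Subtype.ext
        simp only [Pi.smul_apply, Submodule.coe_smul, RingHom.id_apply, Finset.smul_sum,
          smul_mul_assoc] }
  have hinj : Function.Injective Φ := by
    rw [← LinearMap.ker_eq_bot, LinearMap.ker_eq_bot']
    intro r hr
    have h0 : ∑ j, (r j : ℍ → ℂ) * e j = 0 := congrArg Subtype.val hr
    funext j
    exact Subtype.ext (hind (fun j => r j) (fun j => (r j).2) h0 j)
  have hsurj : Function.Surjective Φ := by
    rintro ⟨f, hf⟩
    obtain ⟨r, hr, rfl⟩ := hspan f hf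
    exact ⟨fun j => ⟨r j, hr j⟩, rfl⟩
  have heq := (LinearEquiv.ofBijective Φ ⟨hinj, hsurj⟩).finrank_eq
  rw [← heq, Module.finrank_pi_fintype]

end Fermat.Agent.S20
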