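import Fermat.Agent.S20.Count

/-!
# S20 helper: a frame = an enumeration of the graded basis by `Q N`
-/

set_option autoImplicit false
set_option linter.unusedSectionVars false

namespace Fermat.Agent.S20

open UpperHalfPlane ModularForm Matrix.SpecialLinearGroup Filter Topology
open scoped MatrixGroups ModularForm Manifold

variable {N : ℕ} [NeZero N]

variable (N) in
/-- An enumeration of the valid pairs by the cosets. -/
structure Frame where
  /-- the enumeration -/
  idx : Q N → ℕ × ℕ
  inj : Function.Injective idx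
  valid : ∀ j, (idx j).2 < nb N (idx j).1
  surj : ∀ p : ℕ × ℕ, p.2 < nb N p.1 → ∃ j, idx j = p

theorem exists_frame (hΦ : ∀ τ₀ : ℍ, PhiSpec τ₀) : Nonempty (Frame N) := by
  classical
  have : Finite (Q N) := inferInstance
  let _ : Fintype (Q N) := Fintype.ofFinite _
  have hfin := finite_valid (N := N) hΦ
  let VF : Finset (ℕ × ℕ) := hfin.toFinset
  have hVF : ∀ p, p ∈ VF ↔ p.2 < nb N p.1 := fun p => by
    simp [VF, Valid]
  obtain ⟨τ₀, h4, h6⟩ := exists_generic
  have hle : VF.card ≤ Nat.card (Q N) :=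
    card_le_of_indep VF (fun p => vecAt N p.1 (bf N p) τ₀)
      (local_indep_generic h4 h6 (hΦ τ₀) VF (fun p hp => (hVF p).mp hp))
  have hge : Nat.card (Q N) ≤ VF.card := card_ge VF hVF
  have hcard : Fintype.card (Q N) = Fintype.card VF := by
    rw [Fintype.card_coe, ← Nat.card_eq_fintype_card]
    omega
  let σ : Q N ≃ VF := Fintype.equivOfCardEq hcard
  exact ⟨{
    idx := fun j => (σ j : ℕ × ℕ)
    inj := fun a b h => σ.injective (Subtype.ext h)
    valid := fun j => (hVF _).mp (σ j).2
    surj := fun p hp => ⟨σ.symm ⟨p, (hVF p).mpr hp⟩, by simp⟩ }⟩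

namespace Frame

variable (B : Frame N)

/-- the weights -/
def k (j : Q N) : ℕ := (B.idx j).1

/-- the basis elements -/
noncomputable def e (j : Q N) : ℍ → ℂ := bf N (B.idx j)

theorem isMF (j : Q N) : IsMF N (B.k j) (B.e j) := bf_isMF _

theorem even (j : Q N) : Even (B.k j) := even_of_valid (B.valid j)

theorem notDec (j : Q N) : ¬ IsDec N (B.k j) (B.e j) := not_isDec_bfun (B.valid j)

theorem e_ne_zero (j : Q N) : B.e j ≠ 0 := bfun_ne_zero (B.valid j)

variable [Fintype (Q N)]

theorem mem_image (p : ℕ × ℕ) : p ∈ Finset.univ.image B.idx ↔ p.2 < nb N p.1 := by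
  classical
  constructor
  · intro h
    obtain ⟨j, -, rfl⟩ := Finset.mem_image.mp h
    exact B.valid j
  · intro h
    obtain ⟨j, rfl⟩ := B.surj p h
    exact Finset.mem_image_of_mem _ (Finset.mem_univ j)

theorem sum_image {M : Type*} [AddCommMonoid M] (s : Finset (Q N)) (g : ℕ × ℕ → M) :
    ∑ p ∈ s.image B.idx, g p = ∑ j ∈ s, g (B.idx j) := by
  classical
  exact Finset.sum_image (fun _ _ _ _ h => B.inj h)

/-- Every modular form is a combination of the frame with level one coefficients. -/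
theorem span (K : ℤ) (f : ℍ → ℂ) (hf : IsMF N K f) :
    ∃ r : Q N → ℍ → ℂ, (∀ j, IsMF1 (K - B.k j) (r j)) ∧ f = ∑ j, r j * B.e j := by
  classical
  obtain ⟨r, hr, hfr⟩ := span_finset (Finset.univ.image B.idx) B.mem_image K f hf
  refine ⟨fun j => r (B.idx j), fun j => hr _, ?_⟩
  rw [hfr, B.sum_image]
  rfl

/-- The frame is independent over the level one forms. -/
theorem indep (K : ℤ) (r : Q N → ℍ → ℂ) (hr : ∀ j, IsMF1 (K - B.k j) (r j))
    (h0 : ∑ j, r j * B.e j = 0) : ∀ j, r j = 0 := by
  classical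
  have hne : Nonempty (Q N) := ⟨((1 : SL(2, ℤ)) : Q N)⟩
  have hinv : ∀ j, Function.invFun B.idx (B.idx j) = j := Function.leftInverse_invFun B.inj
  have key := indep_finset (N := N) (Finset.univ.image B.idx)
    (fun p hp => (B.mem_image p).mp hp) K (fun p => r (Function.invFun B.idx p))
    (fun p hp => by
      obtain ⟨j, -, rfl⟩ := Finset.mem_image.mp hp
      rw [hinv]
      exact hr j)
    (by
      rw [B.sum_image]
      rw [← h0]
      refine Finset.sum_congr rfl fun j _ => ?_
      rw [hinv]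
      rfl)
  intro j
  have := key (B.idx j) (Finset.mem_image_of_mem _ (Finset.mem_univ j))
  rwa [hinv] at this

/-- Local independence, abstract form, for a frame. -/
theorem local_indep_aux {τ₀ : ℍ} (hΦ : PhiSpec τ₀)
    (s : Finset (Q N)) (K : ℤ) (ρ : Q N → ℍ → ℂ)
    (hρ : ∀ j ∈ s, IsMF1 (K - B.k j) (ρ j)) (hρ1 : ∀ j ∈ s, ρ j τ₀ = 1)
    (c : Q N → ℂ) (hc : ∑ j ∈ s, c j • vecAt N (B.k j) (B.e j) τ₀ = 0) :
    ∀ j ∈ s, c j = 0 := by
  classical
  obtain ⟨w, Φ, hΦ1, hΦ0, horb, hsimple, hlim⟩ := hΦ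
  have hne : Nonempty (Q N) := ⟨((1 : SL(2, ℤ)) : Q N)⟩
  have hinv : ∀ j, Function.invFun B.idx (B.idx j) = j := Function.leftInverse_invFun B.inj
  have key := Fermat.Agent.S20.local_indep_aux (N := N) hΦ1 hΦ0 horb hsimple hlim (s.image B.idx)
    (fun p hp => by
      obtain ⟨j, -, rfl⟩ := Finset.mem_image.mp hp
      exact B.valid j) K (fun p => ρ (Function.invFun B.idx p))
    (fun p hp => by
      obtain ⟨j, hj, rfl⟩ := Finset.mem_image.mp hp
      rw [hinv]
      exact hρ j hj)
    (fun p hp => by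
      obtain ⟨j, hj, rfl⟩ := Finset.mem_image.mp hp
      rw [hinv]
      exact hρ1 j hj)
    (fun p => c (Function.invFun B.idx p))
    (by
      rw [B.sum_image]
      rw [← hc]
      refine Finset.sum_congr rfl fun j _ => ?_
      rw [hinv]
      rfl)
  intro j hj
  have := key (B.idx j) (Finset.mem_image_of_mem _ hj)
  rwa [hinv] at this

end Frame

end Fermat.Agent.S20
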