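/-
S20 package Y (helper12): the final counting arithmetic, and the dimension of `MFsub N K`
in terms of a frame.

* `genus_arith`        : pure arithmetic (weights `k j ∈ {0,2,…,10}`) giving the genus formula
* `Frame.finrank_MFsub`: `dim M_K(Γ₀(N)) = ∑ j, dim M_{K - k_j}(SL₂(ℤ))`
-/
import Fermat.Agent.S20.DimCount
import Fermat.Agent.S20.Frame

set_option autoImplicit false
set_option linter.unusedSectionVars false

namespace Fermat.Agent.S20

open UpperHalfPlane ModularForm Matrix.SpecialLinearGroup Filter Topology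
open scoped MatrixGroups ModularForm Manifold

/-- The dimension of the space of level one forms of weight `m`, as a function of `m`. -/
noncomputable def dimMF1 (m : ℤ) : ℕ := Module.finrank ℂ (MF1sub m)

theorem dimMF1_def (m : ℤ) : Module.finrank ℂ (MF1sub m) = dimMF1 m := rfl

/-- The pointwise identity behind `genus_arith`. -/
theorem genus_arith_pointwise (k : ℕ) (heven : Even k) (hle : k ≤ 10) :
    2 * Module.finrank ℂ (MF1sub (2 - (12 - (k : ℤ)))) + (if 4 ∣ k then 1 else 0) +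
        (if 6 ∣ k then 1 else 0) + Module.finrank ℂ (MF1sub (14 - (k : ℤ))) =
      2 * (if k = 0 then 1 else 0) + 1 + Module.finrank ℂ (MF1sub (14 - (12 - (k : ℤ)))) := by
  obtain ⟨h0, h2, h4, h6, h8, h10, h12, h14⟩ := finrank_MF1sub_values
  have hn2 : Module.finrank ℂ (MF1sub (-2)) = 0 := finrank_MF1sub_neg (by norm_num)
  have hn4 : Module.finrank ℂ (MF1sub (-4)) = 0 := finrank_MF1sub_neg (by norm_num)
  have hn6 : Module.finrank ℂ (MF1sub (-6)) = 0 := finrank_MF1sub_neg (by norm_num)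
  have hn8 : Module.finrank ℂ (MF1sub (-8)) = 0 := finrank_MF1sub_neg (by norm_num)
  have hn10 : Module.finrank ℂ (MF1sub (-10)) = 0 := finrank_MF1sub_neg (by norm_num)
  simp only [dimMF1_def] at *
  interval_cases k
  · norm_num [h0, h2, h4, h6, h8, h10, h12, h14, hn2, hn4, hn6, hn8, hn10]
  · exact absurd heven (by decide)
  · norm_num [h0, h2, h4, h6, h8, h10, h12, h14, hn2, hn4, hn6, hn8, hn10]
  · exact absurd heven (by decide)
  · norm_num [h0, h2, h4, h6, h8, h10, h12, h14, hn2, hn4, hn6, hn8, hn10]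
  · exact absurd heven (by decide)
  · norm_num [h0, h2, h4, h6, h8, h10, h12, h14, hn2, hn4, hn6, hn8, hn10]
  · exact absurd heven (by decide)
  · norm_num [h0, h2, h4, h6, h8, h10, h12, h14, hn2, hn4, hn6, hn8, hn10]
  · exact absurd heven (by decide)
  · norm_num [h0, h2, h4, h6, h8, h10, h12, h14, hn2, hn4, hn6, hn8, hn10]

/-- **Y.** The final counting arithmetic of the dimension formula. -/
theorem genus_arith {J : Type*} [Fintype J] (k : J → ℕ) (μ ν₂ ν₃ c d₂ : ℕ)
    (heven : ∀ j, Even (k j)) (hle : ∀ j, k j ≤ 10) (hμ : Fintype.card J = μ)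
    (h0 : (Finset.univ.filter (fun j => k j = 0)).card = 1)
    (h4 : 2 * (Finset.univ.filter (fun j => 4 ∣ k j)).card = μ + ν₂)
    (h6 : 3 * (Finset.univ.filter (fun j => 6 ∣ k j)).card = μ + 2 * ν₃)
    (h14 : ∑ j, Module.finrank ℂ (MF1sub (14 - (k j : ℤ))) =
        ∑ j, Module.finrank ℂ (MF1sub (14 - (12 - (k j : ℤ)))) + c)
    (h2 : d₂ = ∑ j, Module.finrank ℂ (MF1sub (2 - (12 - (k j : ℤ))))) :
    (d₂ : ℚ) = 1 + (μ : ℚ) / 12 - (ν₂ : ℚ) / 4 - (ν₃ : ℚ) / 3 - (c : ℚ) / 2 := by
  classical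
  have hsum : ∑ j, (2 * Module.finrank ℂ (MF1sub (2 - (12 - (k j : ℤ)))) +
        (if 4 ∣ k j then 1 else 0) + (if 6 ∣ k j then 1 else 0) +
        Module.finrank ℂ (MF1sub (14 - (k j : ℤ)))) =
      ∑ j, (2 * (if k j = 0 then 1 else 0) + 1 +
        Module.finrank ℂ (MF1sub (14 - (12 - (k j : ℤ))))) :=
    Finset.sum_congr rfl fun j _ => genus_arith_pointwise (k j) (heven j) (hle j)
  simp only [Finset.sum_add_distrib, ← Finset.mul_sum, ← Finset.card_filter, Finset.sum_const,
    Finset.card_univ, smul_eq_mul, mul_one] at hsum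
  rw [← h2, h0, hμ, h14] at hsum
  -- now hsum : 2 d₂ + #4 + #6 + (Σb + c) = 2 + μ + Σb
  have e4 : (2 : ℚ) * ((Finset.univ.filter (fun j => 4 ∣ k j)).card : ℚ) = μ + ν₂ := by
    exact_mod_cast h4
  have e6 : (3 : ℚ) * ((Finset.univ.filter (fun j => 6 ∣ k j)).card : ℚ) = μ + 2 * ν₃ := by
    exact_mod_cast h6
  have es : (2 : ℚ) * d₂ + ((Finset.univ.filter (fun j => 4 ∣ k j)).card : ℚ) +
      ((Finset.univ.filter (fun j => 6 ∣ k j)).card : ℚ) +
      (((∑ j, Module.finrank ℂ (MF1sub (14 - (12 - (k j : ℤ)))) : ℕ) : ℚ) + c) =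
      2 + μ + ((∑ j, Module.finrank ℂ (MF1sub (14 - (12 - (k j : ℤ)))) : ℕ) : ℚ) := by
    exact_mod_cast hsum
  linarith

namespace Frame

variable {N : ℕ} [NeZero N]

/-- **Y'.** The dimension of the space of modular forms of weight `K` on `Γ₀(N)` in terms of
a frame. -/
theorem finrank_MFsub [Fintype (Q N)] (B : Frame N) (K : ℤ) :
    Module.finrank ℂ (MFsub N K) = ∑ j, Module.finrank ℂ (MF1sub (K - (B.k j : ℤ))) := by
  classical
  refine finrank_eq_sum_of_free K (MFsub N K) (fun j => (B.k j : ℤ)) B.e ?_ ?_ ?_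
  · intro r hr
    refine Submodule.sum_mem _ fun j _ => ?_
    rw [mem_MFsub]
    exact (hr j).isMF.mul' (B.isMF j) (by ring)
  · intro f hf
    exact B.span K f (mem_MFsub.mp hf)
  · intro r hr h0
    exact B.indep K r hr h0

end Frame

end Fermat.Agent.S20
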