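import Mathlib

/-!
# S20: abstract cusp analysis (jets)

Setting: a finite set `Q` with a permutation `π`, and a column `F : ℍ → (Q → ℂ)` whose entries are
holomorphic, bounded at `i∞`, with `F (τ + 1) q = F τ (π q)`.

* `periodic_limit`: a `1`-periodic holomorphic function `g` with `e^{2πiτ} g → 0` has a limit at
  `i∞`, with error `O(e^{-2π Im τ})`.
-/

set_option autoImplicit false
set_option linter.unusedSectionVars false

namespace Fermat.Agent.S20

open Filter Topology Complex Function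
open UpperHalfPlane hiding I
open scoped Manifold Real

/-- The function `τ ↦ exp (c τ)` on `ℍ` is holomorphic. -/
theorem mdiff_cexp_mul (c : ℂ) : MDiff (fun τ : ℍ => Complex.exp (c * (τ : ℂ))) := by
  have h : Differentiable ℂ (fun z : ℂ => Complex.exp (c * z)) := by fun_prop
  rw [UpperHalfPlane.mdifferentiable_iff]
  refine h.differentiableOn.congr fun z hz => ?_
  simp only [Function.comp_apply]
  rw [ofComplex_apply_of_im_pos hz]

theorem norm_cexp_mul_I (c : ℝ) (τ : ℍ) :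
    ‖Complex.exp (2 * π * I * c * (τ : ℂ))‖ = Real.exp (-2 * π * c * τ.im) := by
  rw [Complex.norm_exp]
  congr 1
  simp [Complex.mul_re, Complex.mul_im]

/-- `1`-periodicity on `ℍ` gives periodicity of `g ∘ ofComplex`. -/
theorem periodic_comp_ofComplex_of_vadd {g : ℍ → ℂ} (hper : ∀ τ : ℍ, g ((1 : ℝ) +ᵥ τ) = g τ) :
    Function.Periodic (g ∘ ofComplex) ((1 : ℝ) : ℂ) := by
  intro w
  by_cases hw : 0 < im w
  · have : 0 < im (w + (1 : ℝ)) := by simp [hw]
    simp only [comp_apply, ofComplex_apply_of_im_pos this, ofComplex_apply_of_im_pos hw]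
    rw [← hper ⟨w, hw⟩]
    congr 1
    ext
    simp [add_comm]
  · have hw' : im w ≤ 0 := not_lt.mp hw
    have : im (w + ((1 : ℝ) : ℂ)) ≤ 0 := by simpa using hw'
    show g (ofComplex (w + ((1 : ℝ) : ℂ))) = g (ofComplex w)
    rw [ofComplex_apply_of_im_nonpos this, ofComplex_apply_of_im_nonpos hw']

/-- **I0**. A `1`-periodic holomorphic function on `ℍ` of growth `o(e^{2π Im τ})` is bounded at
`i∞` and converges there, exponentially fast. -/
theorem periodic_limit (g : ℍ → ℂ) (hg : MDiff g) (hper : ∀ τ : ℍ, g ((1 : ℝ) +ᵥ τ) = g τ)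
    (hbd : Tendsto (fun τ : ℍ => Complex.exp (2 * π * I * τ) * g τ) atImInfty (𝓝 0)) :
    IsBoundedAtImInfty g ∧ Tendsto g atImInfty (𝓝 (valueAtInfty g)) ∧
      (fun τ => g τ - valueAtInfty g) =O[atImInfty] fun τ => Real.exp (-2 * π * τ.im) := by
  have hexp : MDiff (fun τ : ℍ => Complex.exp (2 * π * I * τ)) := mdiff_cexp_mul (2 * π * I)
  have hexp_per : ∀ τ : ℍ, Complex.exp (2 * π * I * (((1 : ℝ) +ᵥ τ : ℍ) : ℂ)) =
      Complex.exp (2 * π * I * τ) := by
    intro τ
    rw [UpperHalfPlane.coe_vadd, mul_add, Complex.exp_add]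
    simp
  -- step 1: `e^{2πiτ} g` decays exponentially
  set G₁ : ℍ → ℂ := fun τ => Complex.exp (2 * π * I * τ) * g τ with hG₁
  have hG₁_mdiff : MDiff G₁ := hexp.mul hg
  have hG₁_per : ∀ τ : ℍ, G₁ ((1 : ℝ) +ᵥ τ) = G₁ τ := fun τ => by
    simp only [hG₁, hexp_per, hper]
  have hG₁_zero : IsZeroAtImInfty G₁ := hbd
  have h1 : G₁ =O[atImInfty] fun τ => Real.exp (-2 * π * τ.im / 1) :=
    hG₁_zero.exp_decay_atImInfty one_pos (periodic_comp_ofComplex_of_vadd hG₁_per) hG₁_mdiff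
      hG₁_zero.isBoundedAtImInfty
  -- step 2: `g` is bounded
  have hb : IsBoundedAtImInfty g := by
    obtain ⟨C, hC⟩ := h1.bound
    refine Asymptotics.IsBigO.of_bound C ?_
    filter_upwards [hC] with τ hτ
    have hn : ‖Complex.exp (2 * π * I * (τ : ℂ))‖ = Real.exp (-2 * π * τ.im) := by
      have := norm_cexp_mul_I 1 τ
      simpa using this
    simp only [hG₁, norm_mul, hn, div_one, Real.norm_eq_abs, abs_of_pos (Real.exp_pos _)] at hτ
    have hpos := Real.exp_pos (-2 * π * τ.im)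
    simp only [Pi.one_apply, norm_one, mul_one]
    rw [mul_comm] at hτ
    exact le_of_mul_le_mul_right hτ hpos
  -- step 3: conclude
  have h3 := UpperHalfPlane.exp_decay_sub_atImInfty one_pos (periodic_comp_ofComplex_of_vadd hper)
    hg hb
  simp only [div_one] at h3
  refine ⟨hb, ?_, h3⟩
  have hexp0 : Tendsto (fun τ : ℍ => Real.exp (-2 * π * τ.im)) atImInfty (𝓝 0) := by
    have : Tendsto (fun τ : ℍ => -2 * π * τ.im) atImInfty atBot := by
      have him : Tendsto UpperHalfPlane.im atImInfty atTop := tendsto_comap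
      exact him.const_mul_atTop_of_neg (show (-2 * π : ℝ) < 0 by nlinarith [Real.pi_pos])
    exact Real.tendsto_exp_atBot.comp this
  have h4 := h3.trans_tendsto hexp0
  have h5 := h4.add_const (valueAtInfty g)
  simpa using h5

/-! ### Roots of unity and the isotypic projectors of a permutation -/

theorem geom_sum_of_pow_eq_one {w : ℂ} {M : ℕ} (hw : w ^ M = 1) (h1 : w ≠ 1) :
    ∑ k ∈ Finset.range M, w ^ k = 0 := by
  have h := geom_sum_mul w M
  rw [hw, sub_self] at h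
  exact (mul_eq_zero.mp h).resolve_right (sub_ne_zero.mpr h1)

section perm

variable {Q : Type*} [Finite Q] (σ : Equiv.Perm Q)

omit [Finite Q] in
/-- The order of the permutation. -/
noncomputable def cuspOrd : ℕ := orderOf σ

theorem cuspOrd_pos : 0 < cuspOrd σ := orderOf_pos σ

theorem cuspOrd_ne_zero : (cuspOrd σ : ℂ) ≠ 0 := Nat.cast_ne_zero.mpr (cuspOrd_pos σ).ne'

theorem pow_cuspOrd : σ ^ cuspOrd σ = 1 := pow_orderOf_eq_one σ

omit [Finite Q] in
/-- The primitive root of unity `exp (2πi / M)`, `M` the order of `σ`. -/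
noncomputable def cuspZeta : ℂ := Complex.exp (2 * π * I / (cuspOrd σ : ℂ))

theorem cuspZeta_isPrimitiveRoot : IsPrimitiveRoot (cuspZeta σ) (cuspOrd σ) :=
  Complex.isPrimitiveRoot_exp _ (cuspOrd_pos σ).ne'

theorem cuspZeta_ne_zero : cuspZeta σ ≠ 0 := Complex.exp_ne_zero _

theorem cuspZeta_pow_ord : cuspZeta σ ^ cuspOrd σ = 1 := (cuspZeta_isPrimitiveRoot σ).pow_eq_one

theorem cuspZeta_pow_eq_one_iff {k : ℕ} (hk : k < cuspOrd σ) : cuspZeta σ ^ k = 1 ↔ k = 0 := by
  rw [(cuspZeta_isPrimitiveRoot σ).pow_eq_one_iff_dvd]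
  constructor
  · intro h
    exact Nat.eq_zero_of_dvd_of_lt h hk
  · rintro rfl
    exact dvd_zero _

omit [Finite Q] in
/-- The isotypic projector onto the `ζ^s`-eigenspace of the shift `v ↦ v ∘ σ`. -/
noncomputable def cuspProj (s : ℕ) : (Q → ℂ) →ₗ[ℂ] (Q → ℂ) where
  toFun v q := (cuspOrd σ : ℂ)⁻¹ *
    ∑ k ∈ Finset.range (cuspOrd σ), ((cuspZeta σ ^ s)⁻¹) ^ k * v ((σ ^ k) q)
  map_add' v w := by
    funext q
    simp only [Pi.add_apply, mul_add, Finset.sum_add_distrib]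
  map_smul' c v := by
    funext q
    simp only [Pi.smul_apply, smul_eq_mul, RingHom.id_apply, Finset.mul_sum]
    refine Finset.sum_congr rfl fun k _ => ?_
    ring

theorem cuspProj_apply (s : ℕ) (v : Q → ℂ) (q : Q) :
    cuspProj σ s v q = (cuspOrd σ : ℂ)⁻¹ *
      ∑ k ∈ Finset.range (cuspOrd σ), ((cuspZeta σ ^ s)⁻¹) ^ k * v ((σ ^ k) q) := rfl

/-- eigen-property of the projector -/
theorem cuspProj_apply_perm (s : ℕ) (v : Q → ℂ) (q : Q) :
    cuspProj σ s v (σ q) = cuspZeta σ ^ s * cuspProj σ s v q := by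
  rw [cuspProj_apply, cuspProj_apply]
  set w : ℂ := (cuspZeta σ ^ s)⁻¹ with hw
  have hw0 : w ≠ 0 := inv_ne_zero (pow_ne_zero _ (cuspZeta_ne_zero σ))
  have hwM : w ^ cuspOrd σ = 1 := by
    rw [hw, inv_pow, ← pow_mul, mul_comm, pow_mul, cuspZeta_pow_ord, one_pow, inv_one]
  have hzw : cuspZeta σ ^ s = w⁻¹ := by rw [hw, inv_inv]
  set b : ℕ → ℂ := fun k => w ^ k * v ((σ ^ k) q) with hb
  have hbM : b (cuspOrd σ) = b 0 := by
    simp only [hb, hwM, pow_cuspOrd, pow_zero]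
  have h1 : ∑ k ∈ Finset.range (cuspOrd σ), b (k + 1) = ∑ k ∈ Finset.range (cuspOrd σ), b k := by
    have e1 := Finset.sum_range_succ b (cuspOrd σ)
    have e2 := Finset.sum_range_succ' b (cuspOrd σ)
    rw [e1, hbM] at e2
    exact (add_right_cancel e2).symm
  have h2 : ∀ k, w ^ k * v ((σ ^ k) (σ q)) = w⁻¹ * b (k + 1) := by
    intro k
    simp only [hb]
    rw [pow_succ σ k, Equiv.Perm.mul_apply, pow_succ w k]
    field_simp
  simp only [h2]
  rw [← Finset.mul_sum, h1, hzw]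
  ring

theorem cuspProj_apply_perm_pow (s : ℕ) (v : Q → ℂ) (q : Q) (k : ℕ) :
    cuspProj σ s v ((σ ^ k) q) = (cuspZeta σ ^ s) ^ k * cuspProj σ s v q := by
  induction k with
  | zero => simp
  | succ k ih =>
    rw [pow_succ' σ k, Equiv.Perm.mul_apply, cuspProj_apply_perm, ih, pow_succ]
    ring

/-- the projectors commute with the shift -/
theorem cuspProj_comp_perm (s : ℕ) (v : Q → ℂ) :
    cuspProj σ s (fun q => v (σ q)) = cuspZeta σ ^ s • cuspProj σ s v := by
  funext q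
  rw [Pi.smul_apply, smul_eq_mul, ← cuspProj_apply_perm, cuspProj_apply, cuspProj_apply]
  congr 1
  refine Finset.sum_congr rfl fun k _ => ?_
  congr 2
  rw [← Equiv.Perm.mul_apply, ← Equiv.Perm.mul_apply, ← pow_succ, ← pow_succ']

/-- the projectors sum to the identity -/
theorem cuspProj_sum (v : Q → ℂ) : ∑ s ∈ Finset.range (cuspOrd σ), cuspProj σ s v = v := by
  funext q
  rw [Finset.sum_apply]
  simp only [cuspProj_apply]
  rw [← Finset.mul_sum, Finset.sum_comm]
  have key : ∀ k ∈ Finset.range (cuspOrd σ),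
      ∑ s ∈ Finset.range (cuspOrd σ), ((cuspZeta σ ^ s)⁻¹) ^ k * v ((σ ^ k) q) =
        if k = 0 then (cuspOrd σ : ℂ) * v q else 0 := by
    intro k hk
    rw [Finset.mem_range] at hk
    rw [← Finset.sum_mul]
    have hrw : ∀ s, ((cuspZeta σ ^ s)⁻¹) ^ k = ((cuspZeta σ ^ k)⁻¹) ^ s := by
      intro s
      rw [inv_pow, inv_pow, ← pow_mul, ← pow_mul, mul_comm]
    simp only [hrw]
    split_ifs with h0
    · subst h0
      simp
    · have hne : (cuspZeta σ ^ k)⁻¹ ≠ 1 := by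
        intro h
        rw [inv_eq_one] at h
        exact h0 ((cuspZeta_pow_eq_one_iff σ hk).mp h)
      have hpow : ((cuspZeta σ ^ k)⁻¹) ^ cuspOrd σ = 1 := by
        rw [inv_pow, ← pow_mul, mul_comm, pow_mul, cuspZeta_pow_ord, one_pow, inv_one]
      rw [geom_sum_of_pow_eq_one hpow hne, zero_mul]
  rw [Finset.sum_congr rfl key, Finset.sum_ite_eq' (Finset.range (cuspOrd σ)) 0,
    if_pos (Finset.mem_range.mpr (cuspOrd_pos σ))]
  field_simp [cuspOrd_ne_zero σ]

/-- orthogonality of the projectors -/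
theorem cuspProj_cuspProj {s t : ℕ} (hs : s < cuspOrd σ) (ht : t < cuspOrd σ) (v : Q → ℂ) :
    cuspProj σ s (cuspProj σ t v) = if s = t then cuspProj σ t v else 0 := by
  funext q
  rw [cuspProj_apply]
  simp only [cuspProj_apply_perm_pow, ← mul_assoc]
  rw [← Finset.sum_mul]
  have hrw : ∀ k, ((cuspZeta σ ^ s)⁻¹) ^ k * (cuspZeta σ ^ t) ^ k =
      ((cuspZeta σ ^ s)⁻¹ * cuspZeta σ ^ t) ^ k := fun k => (mul_pow _ _ _).symm
  simp only [hrw]
  have hs0 : cuspZeta σ ^ s ≠ 0 := pow_ne_zero _ (cuspZeta_ne_zero σ)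
  split_ifs with hst
  · subst hst
    rw [inv_mul_cancel₀ hs0]
    simp only [one_pow, Finset.sum_const, Finset.card_range, nsmul_eq_mul, mul_one]
    rw [← mul_assoc, inv_mul_cancel₀ (cuspOrd_ne_zero σ), one_mul]
  · have hne : (cuspZeta σ ^ s)⁻¹ * cuspZeta σ ^ t ≠ 1 := by
      intro h
      have h' : cuspZeta σ ^ t = cuspZeta σ ^ s := by
        field_simp at h
        exact h
      exact hst ((cuspZeta_isPrimitiveRoot σ).pow_inj hs ht h'.symm)
    have hpow : ((cuspZeta σ ^ s)⁻¹ * cuspZeta σ ^ t) ^ cuspOrd σ = 1 := by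
      rw [mul_pow, inv_pow, ← pow_mul, ← pow_mul, mul_comm s, mul_comm t, pow_mul, pow_mul,
        cuspZeta_pow_ord, one_pow, one_pow, inv_one, one_mul]
    rw [geom_sum_of_pow_eq_one hpow hne]
    simp

/-- `Π_0` fixes the `σ`-invariant vectors -/
theorem cuspProj_zero_of_invariant {v : Q → ℂ} (hv : ∀ q, v (σ q) = v q) :
    cuspProj σ 0 v = v := by
  funext q
  rw [cuspProj_apply]
  have h : ∀ k : ℕ, v ((σ ^ k) q) = v q := by
    intro k
    induction k with
    | zero => simp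
    | succ k ih => rw [pow_succ' σ k, Equiv.Perm.mul_apply, hv, ih]
  simp only [h, pow_zero, inv_one, one_pow, one_mul, Finset.sum_const, Finset.card_range,
    nsmul_eq_mul]
  rw [← mul_assoc, inv_mul_cancel₀ (cuspOrd_ne_zero σ), one_mul]

/-- `Π_0 v` is `σ`-invariant -/
theorem cuspProj_zero_invariant (v : Q → ℂ) (q : Q) :
    cuspProj σ 0 v (σ q) = cuspProj σ 0 v q := by
  rw [cuspProj_apply_perm, pow_zero, one_mul]

end perm

/-! ### Generalities on holomorphic functions on `ℍ` -/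

theorem mdiff_finset_sum {ι : Type*} (s : Finset ι) (f : ι → ℍ → ℂ)
    (h : ∀ i ∈ s, MDiff (f i)) : MDiff (fun τ => ∑ i ∈ s, f i τ) := by
  classical
  induction s using Finset.induction_on with
  | empty =>
    simp only [Finset.sum_empty]
    exact mdifferentiable_const
  | insert a s ha ih =>
    simp only [Finset.sum_insert ha]
    exact (h a (Finset.mem_insert_self a s)).add
      (ih fun i hi => h i (Finset.mem_insert_of_mem hi))

theorem mdiff_const_mul (c : ℂ) {f : ℍ → ℂ} (hf : MDiff f) : MDiff (fun τ => c * f τ) :=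
  (mdifferentiable_const (c := c)).mul hf

/-! ### Columns, untwisting and jets -/

section col

variable {Q : Type*} [Finite Q] (σ : Equiv.Perm Q)

omit [Finite Q] in
/-- The hypotheses on a column `F : ℍ → (Q → ℂ)`: holomorphic and bounded entries, and the
shift rule `F (τ + 1) q = F τ (σ q)`. -/
structure CuspCol (F : ℍ → Q → ℂ) : Prop where
  mdiff : ∀ q, MDiff (fun τ => F τ q)
  bdd : ∀ q, IsBoundedAtImInfty (fun τ => F τ q)
  shift : ∀ τ q, F ((1 : ℝ) +ᵥ τ) q = F τ (σ q)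

omit [Finite Q] in
/-- The character `τ ↦ exp (2πi (s / M) τ)`. -/
noncomputable def cuspChar (s : ℕ) (τ : ℍ) : ℂ :=
  Complex.exp (2 * π * I * ((s : ℂ) / (cuspOrd σ : ℂ)) * (τ : ℂ))

theorem cuspChar_ne_zero (s : ℕ) (τ : ℍ) : cuspChar σ s τ ≠ 0 := Complex.exp_ne_zero _

theorem cuspChar_zero (τ : ℍ) : cuspChar σ 0 τ = 1 := by
  simp [cuspChar]

theorem cuspChar_vadd (s : ℕ) (τ : ℍ) :
    cuspChar σ s ((1 : ℝ) +ᵥ τ) = cuspZeta σ ^ s * cuspChar σ s τ := by
  unfold cuspChar cuspZeta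
  rw [UpperHalfPlane.coe_vadd, ← Complex.exp_nat_mul, ← Complex.exp_add]
  congr 1
  push_cast
  ring

theorem norm_cuspChar (s : ℕ) (τ : ℍ) :
    ‖cuspChar σ s τ‖ = Real.exp (-2 * π * ((s : ℝ) / (cuspOrd σ : ℝ)) * τ.im) := by
  unfold cuspChar
  have h := norm_cexp_mul_I ((s : ℝ) / (cuspOrd σ : ℝ)) τ
  push_cast at h
  exact h

theorem norm_cuspChar_le_one (s : ℕ) (τ : ℍ) : ‖cuspChar σ s τ‖ ≤ 1 := by
  rw [norm_cuspChar, Real.exp_le_one_iff]
  have h1 : 0 ≤ (s : ℝ) / (cuspOrd σ : ℝ) := by positivity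
  have h2 := τ.im_pos
  have h3 : 0 ≤ 2 * π * ((s : ℝ) / (cuspOrd σ : ℝ)) * τ.im := by positivity
  linarith

theorem mdiff_cuspChar (s : ℕ) : MDiff (cuspChar σ s) :=
  mdiff_cexp_mul (2 * π * I * ((s : ℂ) / (cuspOrd σ : ℂ)))

theorem cuspChar_inv (s : ℕ) (τ : ℍ) :
    (cuspChar σ s τ)⁻¹ = Complex.exp (-(2 * π * I * ((s : ℂ) / (cuspOrd σ : ℂ))) * (τ : ℂ)) := by
  unfold cuspChar
  rw [← Complex.exp_neg]
  congr 1
  ring

theorem mdiff_cuspChar_inv (s : ℕ) : MDiff (fun τ => (cuspChar σ s τ)⁻¹) := by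
  simp only [cuspChar_inv]
  exact mdiff_cexp_mul _

omit [Finite Q] in
/-- The untwisted column: `∑_s e^{-2πi (s/M) τ} Π_s (F τ)`. -/
noncomputable def cuspUntwist (F : ℍ → Q → ℂ) (τ : ℍ) : Q → ℂ :=
  ∑ s ∈ Finset.range (cuspOrd σ), (cuspChar σ s τ)⁻¹ • cuspProj σ s (F τ)

theorem cuspUntwist_apply (F : ℍ → Q → ℂ) (τ : ℍ) (q : Q) :
    cuspUntwist σ F τ q =
      ∑ s ∈ Finset.range (cuspOrd σ), (cuspChar σ s τ)⁻¹ * cuspProj σ s (F τ) q := by
  simp [cuspUntwist, Finset.sum_apply]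

variable {σ} {F G : ℍ → Q → ℂ}

theorem CuspCol.shift_eq (hF : CuspCol σ F) (τ : ℍ) :
    F ((1 : ℝ) +ᵥ τ) = fun q => F τ (σ q) := funext fun q => hF.shift τ q

/-- The untwisted column is `1`-periodic. -/
theorem CuspCol.untwist_vadd (hF : CuspCol σ F) (τ : ℍ) :
    cuspUntwist σ F ((1 : ℝ) +ᵥ τ) = cuspUntwist σ F τ := by
  unfold cuspUntwist
  refine Finset.sum_congr rfl fun s _ => ?_
  rw [hF.shift_eq, cuspProj_comp_perm, cuspChar_vadd, smul_smul]
  congr 1
  have h1 : cuspZeta σ ^ s ≠ 0 := pow_ne_zero _ (cuspZeta_ne_zero σ)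
  have h2 := cuspChar_ne_zero σ s τ
  field_simp

theorem cuspProj_untwist (F : ℍ → Q → ℂ) (τ : ℍ) {s : ℕ} (hs : s < cuspOrd σ) :
    cuspProj σ s (cuspUntwist σ F τ) = (cuspChar σ s τ)⁻¹ • cuspProj σ s (F τ) := by
  unfold cuspUntwist
  rw [map_sum]
  have : ∀ t ∈ Finset.range (cuspOrd σ),
      cuspProj σ s ((cuspChar σ t τ)⁻¹ • cuspProj σ t (F τ)) =
        if s = t then (cuspChar σ t τ)⁻¹ • cuspProj σ t (F τ) else 0 := by
    intro t ht
    rw [map_smul, cuspProj_cuspProj σ hs (Finset.mem_range.mp ht)]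
    split_ifs <;> simp
  rw [Finset.sum_congr rfl this, Finset.sum_ite_eq (Finset.range (cuspOrd σ)) s,
    if_pos (Finset.mem_range.mpr hs)]

/-- Reconstruction of the column from the untwisted column. -/
theorem cusp_reconstruct (F : ℍ → Q → ℂ) (τ : ℍ) :
    F τ = ∑ s ∈ Finset.range (cuspOrd σ), cuspChar σ s τ • cuspProj σ s (cuspUntwist σ F τ) := by
  conv_lhs => rw [← cuspProj_sum σ (F τ)]
  refine Finset.sum_congr rfl fun s hs => ?_
  rw [cuspProj_untwist F τ (Finset.mem_range.mp hs), smul_smul,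
    mul_inv_cancel₀ (cuspChar_ne_zero σ s τ), one_smul]

theorem CuspCol.mdiff_proj (hF : CuspCol σ F) (s : ℕ) (q : Q) :
    MDiff (fun τ => cuspProj σ s (F τ) q) := by
  simp only [cuspProj_apply]
  exact mdiff_const_mul _ (mdiff_finset_sum _ _ fun k _ => mdiff_const_mul _ (hF.mdiff _))

theorem CuspCol.mdiff_untwist (hF : CuspCol σ F) (q : Q) :
    MDiff (fun τ => cuspUntwist σ F τ q) := by
  simp only [cuspUntwist_apply]
  exact mdiff_finset_sum _ _ fun s _ => (mdiff_cuspChar_inv σ s).mul (hF.mdiff_proj s q)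

theorem CuspCol.bdd_proj (hF : CuspCol σ F) (s : ℕ) (q : Q) :
    IsBoundedAtImInfty (fun τ => cuspProj σ s (F τ) q) := by
  simp only [cuspProj_apply]
  have h : ∀ k : ℕ, (fun τ => F τ ((σ ^ k) q)) =O[atImInfty] (1 : ℍ → ℝ) := fun k => hF.bdd _
  show (fun τ => (cuspOrd σ : ℂ)⁻¹ * ∑ k ∈ Finset.range (cuspOrd σ),
    ((cuspZeta σ ^ s)⁻¹) ^ k * F τ ((σ ^ k) q)) =O[atImInfty] (1 : ℍ → ℝ)
  refine Asymptotics.IsBigO.const_mul_left ?_ _
  refine Asymptotics.IsBigO.fun_sum fun k _ => ?_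
  exact Asymptotics.IsBigO.const_mul_left (h k) _

theorem tendsto_rexp_neg_mul_im {c : ℝ} (hc : 0 < c) :
    Tendsto (fun τ : ℍ => Real.exp (-c * τ.im)) atImInfty (𝓝 0) := by
  have him : Tendsto UpperHalfPlane.im atImInfty atTop := tendsto_comap
  exact Real.tendsto_exp_atBot.comp (him.const_mul_atTop_of_neg (neg_lt_zero.mpr hc))

theorem tendsto_rexp_neg_two_pi_im :
    Tendsto (fun τ : ℍ => Real.exp (-2 * π * τ.im)) atImInfty (𝓝 0) := by
  have h := tendsto_rexp_neg_mul_im (c := 2 * π) (by positivity)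
  refine h.congr fun τ => ?_
  ring_nf

theorem tendsto_cuspChar_zero {s : ℕ} (hs : 0 < s) :
    Tendsto (cuspChar σ s) atImInfty (𝓝 0) := by
  rw [tendsto_zero_iff_norm_tendsto_zero]
  simp only [norm_cuspChar]
  have hc : 0 < 2 * π * ((s : ℝ) / (cuspOrd σ : ℝ)) := by
    have h1 : (0 : ℝ) < cuspOrd σ := Nat.cast_pos.mpr (cuspOrd_pos σ)
    have h2 : (0 : ℝ) < s := Nat.cast_pos.mpr hs
    positivity
  refine (tendsto_rexp_neg_mul_im hc).congr fun τ => ?_
  ring_nf

theorem tendsto_cexp_mul_cuspChar_inv {s : ℕ} (hs : s < cuspOrd σ) :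
    Tendsto (fun τ : ℍ => Complex.exp (2 * π * I * τ) * (cuspChar σ s τ)⁻¹) atImInfty (𝓝 0) := by
  rw [tendsto_zero_iff_norm_tendsto_zero]
  have hM : (0 : ℝ) < cuspOrd σ := Nat.cast_pos.mpr (cuspOrd_pos σ)
  have hc : 0 < 2 * π * (1 - (s : ℝ) / (cuspOrd σ : ℝ)) := by
    have h1 : (s : ℝ) / (cuspOrd σ : ℝ) < 1 := by
      rw [div_lt_one hM]
      exact_mod_cast hs
    have h2 : 0 < 1 - (s : ℝ) / (cuspOrd σ : ℝ) := by linarith
    positivity
  refine (tendsto_rexp_neg_mul_im hc).congr fun τ => ?_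
  have hn : ‖Complex.exp (2 * π * I * (τ : ℂ))‖ = Real.exp (-2 * π * τ.im) := by
    have := norm_cexp_mul_I 1 τ
    simpa using this
  rw [norm_mul, norm_inv, norm_cuspChar, hn, ← Real.exp_neg, ← Real.exp_add]
  congr 1
  ring

/-- The growth hypothesis of `periodic_limit` for the untwisted column. -/
theorem CuspCol.tendsto_cexp_mul_untwist (hF : CuspCol σ F) (q : Q) :
    Tendsto (fun τ : ℍ => Complex.exp (2 * π * I * τ) * cuspUntwist σ F τ q) atImInfty (𝓝 0) := by
  simp only [cuspUntwist_apply, Finset.mul_sum]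
  have h : ∀ s ∈ Finset.range (cuspOrd σ),
      Tendsto (fun τ : ℍ => Complex.exp (2 * π * I * τ) *
        ((cuspChar σ s τ)⁻¹ * cuspProj σ s (F τ) q)) atImInfty (𝓝 0) := by
    intro s hs
    have h1 : IsZeroAtImInfty (fun τ : ℍ => Complex.exp (2 * π * I * τ) * (cuspChar σ s τ)⁻¹) :=
      tendsto_cexp_mul_cuspChar_inv (Finset.mem_range.mp hs)
    have h2 := hF.bdd_proj s q
    have h3 : IsZeroAtImInfty ((fun τ : ℍ => Complex.exp (2 * π * I * τ) * (cuspChar σ s τ)⁻¹) *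
        fun τ => cuspProj σ s (F τ) q) := h1.mul_boundedAtFilter h2
    refine Tendsto.congr (fun τ => ?_) h3
    simp only [Pi.mul_apply]
    ring
  have h' := tendsto_finsetSum (Finset.range (cuspOrd σ)) h
  simpa using h'

omit [Finite Q] in
variable (σ) in
/-- The jet of a column at `i∞`: the limit of the untwisted column. -/
noncomputable def cuspJet (F : ℍ → Q → ℂ) : Q → ℂ :=
  fun q => valueAtInfty (fun τ => cuspUntwist σ F τ q)

theorem CuspCol.untwist_apply_vadd (hF : CuspCol σ F) (q : Q) (τ : ℍ) :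
    cuspUntwist σ F ((1 : ℝ) +ᵥ τ) q = cuspUntwist σ F τ q := by
  rw [hF.untwist_vadd]

theorem CuspCol.bdd_untwist (hF : CuspCol σ F) (q : Q) :
    IsBoundedAtImInfty (fun τ => cuspUntwist σ F τ q) :=
  (periodic_limit _ (hF.mdiff_untwist q) (hF.untwist_apply_vadd q)
    (hF.tendsto_cexp_mul_untwist q)).1

/-- The untwisted column tends to the jet. -/
theorem CuspCol.tendsto_untwist (hF : CuspCol σ F) (q : Q) :
    Tendsto (fun τ => cuspUntwist σ F τ q) atImInfty (𝓝 (cuspJet σ F q)) :=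
  (periodic_limit _ (hF.mdiff_untwist q) (hF.untwist_apply_vadd q)
    (hF.tendsto_cexp_mul_untwist q)).2.1

/-- The untwisted column tends to the jet exponentially fast. -/
theorem CuspCol.untwist_sub_jet_isBigO (hF : CuspCol σ F) (q : Q) :
    (fun τ => cuspUntwist σ F τ q - cuspJet σ F q) =O[atImInfty]
      fun τ => Real.exp (-2 * π * τ.im) :=
  (periodic_limit _ (hF.mdiff_untwist q) (hF.untwist_apply_vadd q)
    (hF.tendsto_cexp_mul_untwist q)).2.2

theorem cuspJet_eq_of_tendsto {v : Q → ℂ}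
    (h : ∀ q, Tendsto (fun τ => cuspUntwist σ F τ q) atImInfty (𝓝 (v q))) : cuspJet σ F = v :=
  funext fun q => (h q).limUnder_eq

/-- The jet lies in the span of the images of the projectors, componentwise. -/
theorem CuspCol.cuspProj_jet (hF : CuspCol σ F) {s : ℕ} (hs : s < cuspOrd σ) (q : Q) :
    Tendsto (fun τ => (cuspChar σ s τ)⁻¹ * cuspProj σ s (F τ) q) atImInfty
      (𝓝 (cuspProj σ s (cuspJet σ F) q)) := by
  have h1 : ∀ τ, (cuspChar σ s τ)⁻¹ * cuspProj σ s (F τ) q =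
      cuspProj σ s (cuspUntwist σ F τ) q := by
    intro τ
    rw [cuspProj_untwist F τ hs]
    rfl
  have h2 : Tendsto (fun τ => cuspProj σ s (cuspUntwist σ F τ) q) atImInfty
      (𝓝 (cuspProj σ s (cuspJet σ F) q)) := by
    simp only [cuspProj_apply]
    refine Tendsto.const_mul _ (tendsto_finsetSum _ fun k _ => ?_)
    exact Tendsto.const_mul _ (hF.tendsto_untwist _)
  exact h2.congr fun τ => (h1 τ).symm

/-- **Main expansion**: `F τ = ∑_s e^{2πi (s/M) τ} Π_s (jet F) + O(e^{-2π Im τ})`. -/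
theorem CuspCol.sub_isBigO (hF : CuspCol σ F) (q : Q) :
    (fun τ => F τ q -
        ∑ s ∈ Finset.range (cuspOrd σ), cuspChar σ s τ * cuspProj σ s (cuspJet σ F) q)
      =O[atImInfty] fun τ => Real.exp (-2 * π * τ.im) := by
  have h1 : ∀ τ, F τ q -
      ∑ s ∈ Finset.range (cuspOrd σ), cuspChar σ s τ * cuspProj σ s (cuspJet σ F) q =
      ∑ s ∈ Finset.range (cuspOrd σ), cuspChar σ s τ * ((cuspOrd σ : ℂ)⁻¹ *
        ∑ k ∈ Finset.range (cuspOrd σ), ((cuspZeta σ ^ s)⁻¹) ^ k *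
          (cuspUntwist σ F τ ((σ ^ k) q) - cuspJet σ F ((σ ^ k) q))) := by
    intro τ
    conv_lhs => rw [cusp_reconstruct (σ := σ) F τ]
    rw [Finset.sum_apply, ← Finset.sum_sub_distrib]
    refine Finset.sum_congr rfl fun s _ => ?_
    rw [Pi.smul_apply, smul_eq_mul, ← mul_sub, cuspProj_apply, cuspProj_apply, ← mul_sub,
      ← Finset.sum_sub_distrib]
    congr 2
    refine Finset.sum_congr rfl fun k _ => ?_
    ring
  simp only [h1]
  refine Asymptotics.IsBigO.fun_sum fun s _ => ?_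
  have h2 : (fun τ => (cuspOrd σ : ℂ)⁻¹ *
        ∑ k ∈ Finset.range (cuspOrd σ), ((cuspZeta σ ^ s)⁻¹) ^ k *
          (cuspUntwist σ F τ ((σ ^ k) q) - cuspJet σ F ((σ ^ k) q)))
      =O[atImInfty] fun τ => Real.exp (-2 * π * τ.im) := by
    refine Asymptotics.IsBigO.const_mul_left ?_ _
    refine Asymptotics.IsBigO.fun_sum fun k _ => ?_
    exact Asymptotics.IsBigO.const_mul_left (hF.untwist_sub_jet_isBigO _) _
  have h3 : (cuspChar σ s) =O[atImInfty] (fun _ : ℍ => (1 : ℝ)) :=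
    Asymptotics.isBigO_of_le _ fun τ => by
      simpa using norm_cuspChar_le_one σ s τ
  have h4 := h3.mul h2
  simpa using h4

/-- **F2**: if the jet vanishes, then all entries are `O(e^{-2π Im τ})`. -/
theorem CuspCol.isBigO_of_jet_eq_zero (hF : CuspCol σ F) (h0 : cuspJet σ F = 0) (q : Q) :
    (fun τ => F τ q) =O[atImInfty] fun τ => Real.exp (-2 * π * τ.im) := by
  have h := hF.sub_isBigO q
  simpa [h0] using h

/-- **F5** (general form): the column tends to `Π_0 (jet F)`. -/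
theorem CuspCol.tendsto_proj_zero (hF : CuspCol σ F) (q : Q) :
    Tendsto (fun τ => F τ q) atImInfty (𝓝 (cuspProj σ 0 (cuspJet σ F) q)) := by
  have h1 : Tendsto (fun τ => F τ q -
        ∑ s ∈ Finset.range (cuspOrd σ), cuspChar σ s τ * cuspProj σ s (cuspJet σ F) q)
      atImInfty (𝓝 0) := (hF.sub_isBigO q).trans_tendsto tendsto_rexp_neg_two_pi_im
  have h2 : Tendsto (fun τ => ∑ s ∈ Finset.range (cuspOrd σ),
        cuspChar σ s τ * cuspProj σ s (cuspJet σ F) q) atImInfty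
      (𝓝 (∑ s ∈ Finset.range (cuspOrd σ),
        if s = 0 then cuspProj σ 0 (cuspJet σ F) q else 0)) := by
    refine tendsto_finsetSum _ fun s _ => ?_
    split_ifs with hs
    · subst hs
      simp only [cuspChar_zero, one_mul]
      exact tendsto_const_nhds
    · have := (tendsto_cuspChar_zero (σ := σ) (Nat.pos_of_ne_zero hs)).mul_const
        (cuspProj σ s (cuspJet σ F) q)
      simpa using this
  rw [Finset.sum_ite_eq' (Finset.range (cuspOrd σ)) 0,
    if_pos (Finset.mem_range.mpr (cuspOrd_pos σ))] at h2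
  have h3 := h1.add h2
  simpa using h3

/-- **F5**: if the jet is `σ`-invariant, the column tends to its jet. -/
theorem CuspCol.tendsto_of_jet_invariant (hF : CuspCol σ F)
    (hinv : ∀ q, cuspJet σ F (σ q) = cuspJet σ F q) (q : Q) :
    Tendsto (fun τ => F τ q) atImInfty (𝓝 (cuspJet σ F q)) := by
  have h := hF.tendsto_proj_zero q
  rwa [cuspProj_zero_of_invariant σ hinv] at h

/-- The column tends to `0` iff `Π_0 (jet F) = 0`. -/
theorem CuspCol.tendsto_zero_iff (hF : CuspCol σ F) :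
    (∀ q, Tendsto (fun τ => F τ q) atImInfty (𝓝 0)) ↔ cuspProj σ 0 (cuspJet σ F) = 0 := by
  constructor
  · intro h
    funext q
    exact tendsto_nhds_unique (hF.tendsto_proj_zero q) (h q)
  · intro h q
    have := hF.tendsto_proj_zero q
    rwa [h] at this

/-! ### F1: linearity of the jet -/

theorem cuspUntwist_add (F G : ℍ → Q → ℂ) (τ : ℍ) :
    cuspUntwist σ (F + G) τ = cuspUntwist σ F τ + cuspUntwist σ G τ := by
  unfold cuspUntwist
  rw [← Finset.sum_add_distrib]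
  refine Finset.sum_congr rfl fun s _ => ?_
  rw [Pi.add_apply, map_add, smul_add]

theorem cuspUntwist_fun_smul (A : ℍ → ℂ) (F : ℍ → Q → ℂ) (τ : ℍ) :
    cuspUntwist σ (fun τ => A τ • F τ) τ = A τ • cuspUntwist σ F τ := by
  unfold cuspUntwist
  rw [Finset.smul_sum]
  refine Finset.sum_congr rfl fun s _ => ?_
  rw [map_smul, smul_comm]

theorem cuspUntwist_zero (τ : ℍ) : cuspUntwist σ (0 : ℍ → Q → ℂ) τ = 0 := by
  unfold cuspUntwist
  simp

theorem cuspCol_zero : CuspCol σ (0 : ℍ → Q → ℂ) where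
  mdiff _ := mdifferentiable_const
  bdd _ := zero_form_isBoundedAtImInfty
  shift _ _ := rfl

theorem CuspCol.add (hF : CuspCol σ F) (hG : CuspCol σ G) : CuspCol σ (F + G) where
  mdiff q := (hF.mdiff q).add (hG.mdiff q)
  bdd q := (hF.bdd q).add (hG.bdd q)
  shift τ q := by
    simp only [Pi.add_apply, hF.shift, hG.shift]

theorem CuspCol.fun_smul {A : ℍ → ℂ} (hA : MDiff A) (hAb : IsBoundedAtImInfty A)
    (hAp : ∀ τ : ℍ, A ((1 : ℝ) +ᵥ τ) = A τ) (hF : CuspCol σ F) :
    CuspCol σ (fun τ => A τ • F τ) where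
  mdiff q := hA.mul (hF.mdiff q)
  bdd q := hAb.mul (hF.bdd q)
  shift τ q := by
    simp only [Pi.smul_apply, hF.shift, hAp]

theorem CuspCol.const_smul (c : ℂ) (hF : CuspCol σ F) : CuspCol σ (fun τ => c • F τ) :=
  hF.fun_smul (A := fun _ => c) mdifferentiable_const (const_boundedAtFilter _ c) fun _ => rfl

theorem cuspJet_zero : cuspJet σ (0 : ℍ → Q → ℂ) = 0 :=
  cuspJet_eq_of_tendsto fun q => by
    simp only [cuspUntwist_zero, Pi.zero_apply]
    exact tendsto_const_nhds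

theorem CuspCol.jet_add (hF : CuspCol σ F) (hG : CuspCol σ G) :
    cuspJet σ (F + G) = cuspJet σ F + cuspJet σ G :=
  cuspJet_eq_of_tendsto fun q => by
    simp only [cuspUntwist_add, Pi.add_apply]
    exact (hF.tendsto_untwist q).add (hG.tendsto_untwist q)

/-- **F1**: `jet (A • F) = A(∞) • jet F`. -/
theorem CuspCol.jet_fun_smul {A : ℍ → ℂ} {a : ℂ} (hA : Tendsto A atImInfty (𝓝 a))
    (hF : CuspCol σ F) : cuspJet σ (fun τ => A τ • F τ) = a • cuspJet σ F :=
  cuspJet_eq_of_tendsto fun q => by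
    simp only [cuspUntwist_fun_smul, Pi.smul_apply, smul_eq_mul]
    exact hA.mul (hF.tendsto_untwist q)

theorem CuspCol.jet_const_smul (c : ℂ) (hF : CuspCol σ F) :
    cuspJet σ (fun τ => c • F τ) = c • cuspJet σ F :=
  hF.jet_fun_smul (A := fun _ => c) tendsto_const_nhds

theorem CuspCol.sum {ι : Type*} (s : Finset ι) {F : ι → ℍ → Q → ℂ}
    (hF : ∀ i ∈ s, CuspCol σ (F i)) : CuspCol σ (∑ i ∈ s, F i) := by
  classical
  induction s using Finset.induction_on with
  | empty =>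
    simp only [Finset.sum_empty]
    exact cuspCol_zero
  | insert a s ha ih =>
    rw [Finset.sum_insert ha]
    exact (hF a (Finset.mem_insert_self a s)).add
      (ih fun i hi => hF i (Finset.mem_insert_of_mem hi))

theorem CuspCol.jet_sum {ι : Type*} (s : Finset ι) {F : ι → ℍ → Q → ℂ}
    (hF : ∀ i ∈ s, CuspCol σ (F i)) : cuspJet σ (∑ i ∈ s, F i) = ∑ i ∈ s, cuspJet σ (F i) := by
  classical
  induction s using Finset.induction_on with
  | empty =>
    simp only [Finset.sum_empty]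
    exact cuspJet_zero
  | insert a s ha ih =>
    rw [Finset.sum_insert ha, Finset.sum_insert ha,
      (hF a (Finset.mem_insert_self a s)).jet_add
        (CuspCol.sum s fun i hi => hF i (Finset.mem_insert_of_mem hi)),
      ih fun i hi => hF i (Finset.mem_insert_of_mem hi)]

end col

end Fermat.Agent.S20
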