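import Fermat.Agent.S20.Vec

/-!
# S20 helper: the permutation action on `Q N → ℂ` and the vector of components
-/

set_option autoImplicit false
set_option linter.unusedSectionVars false

namespace Fermat.Agent.S20

open UpperHalfPlane ModularForm Matrix.SpecialLinearGroup Filter Topology
open scoped MatrixGroups ModularForm Manifold

/-- The permutation action of `SL(2,ℤ)` on `Q N → ℂ`: `(permOp N γ v) q = v (γ⁻¹ • q)`. -/
noncomputable def permOp (N : ℕ) (γ : SL(2, ℤ)) : (Q N → ℂ) →ₗ[ℂ] (Q N → ℂ) where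
  toFun v q := v (γ⁻¹ • q)
  map_add' _ _ := rfl
  map_smul' _ _ := rfl

/-- The vector of components of `f` at `τ`. -/
noncomputable def vecAt (N : ℕ) (k : ℤ) (f : ℍ → ℂ) (τ : ℍ) : Q N → ℂ := fun q => vec N k f q τ

variable {N : ℕ} {k l : ℤ} {f g : ℍ → ℂ}

@[simp] theorem permOp_apply (γ : SL(2, ℤ)) (v : Q N → ℂ) (q : Q N) :
    permOp N γ v q = v (γ⁻¹ • q) := rfl

@[simp] theorem vecAt_apply (τ : ℍ) (q : Q N) : vecAt N k f τ q = vec N k f q τ := rfl

theorem permOp_one : permOp N 1 = LinearMap.id := by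
  ext v q
  simp

theorem permOp_mul (γ δ : SL(2, ℤ)) : permOp N (γ * δ) = permOp N γ ∘ₗ permOp N δ := by
  apply LinearMap.ext
  intro v
  funext q
  simp only [permOp_apply, LinearMap.comp_apply, mul_inv_rev, mul_smul]

theorem permOp_mul_apply (γ δ : SL(2, ℤ)) (v : Q N → ℂ) :
    permOp N (γ * δ) v = permOp N γ (permOp N δ v) := by
  rw [permOp_mul]
  rfl

theorem permOp_inv_apply (γ : SL(2, ℤ)) (v : Q N → ℂ) : permOp N γ⁻¹ (permOp N γ v) = v := by
  rw [← permOp_mul_apply, inv_mul_cancel, permOp_one]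
  rfl

theorem permOp_apply_inv (γ : SL(2, ℤ)) (v : Q N → ℂ) : permOp N γ (permOp N γ⁻¹ v) = v := by
  rw [← permOp_mul_apply, mul_inv_cancel, permOp_one]
  rfl

theorem permOp_injective (γ : SL(2, ℤ)) : Function.Injective (permOp N γ) :=
  Function.LeftInverse.injective (permOp_inv_apply γ)

theorem permOp_neg_one [NeZero N] (v : Q N → ℂ) : permOp N (-1) v = v := by
  funext q
  simp only [permOp_apply]
  congr 1
  induction q using QuotientGroup.induction_on with
  | H x =>
    rw [MulAction.Quotient.smul_mk]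
    rw [QuotientGroup.eq]
    have : (((-1 : SL(2, ℤ))⁻¹ • x)⁻¹ * x) = -1 := by
      simp
    rw [this]
    exact neg_one_mem_Gamma0

/-- The transformation rule of the vector of components. -/
theorem vecAt_smul (hf : Inv N k f) (γ : SL(2, ℤ)) (τ : ℍ) :
    vecAt N k f (γ • τ) = (denom γ τ) ^ k • permOp N γ (vecAt N k f τ) := by
  funext q
  simp only [vecAt_apply, Pi.smul_apply, permOp_apply, smul_eq_mul]
  rw [← vec_slash hf q γ, SL_slash_apply]
  have hd : denom γ τ ≠ 0 := denom_ne_zero γ τ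
  rw [mul_comm, mul_assoc, ← zpow_add₀ hd]
  simp

theorem vecAt_add (τ : ℍ) : vecAt N k (f + g) τ = vecAt N k f τ + vecAt N k g τ := by
  funext q
  simp [vec_add]

theorem vecAt_smul_fun (c : ℂ) (τ : ℍ) : vecAt N k (c • f) τ = c • vecAt N k f τ := by
  funext q
  simp [vec_smul]

theorem vecAt_zero (τ : ℍ) : vecAt N k (0 : ℍ → ℂ) τ = 0 := by
  funext q
  simp [vec_zero]

end Fermat.Agent.S20
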