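import Fermat.Agent.S20.FinDim
import Fermat.Agent.S20.Perm
import Fermat.Agent.S20.CuspJets

/-!
# S20 package T: the constant term map

`exists_constTerm`: the map sending a modular form on `Γ₀(N)` to the vector of the limits at `i∞`
of its components; its kernel is the space of cusp forms and its image consists of `T`-invariant
vectors.  `finrank_MFsub_eq_of_surj`: the resulting rank formula.
-/

set_option autoImplicit false
set_option linter.unusedSectionVars false

namespace Fermat.Agent.S20

open UpperHalfPlane ModularForm Matrix.SpecialLinearGroup Filter Topology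
open scoped MatrixGroups ModularForm Manifold

variable {N : ℕ} [NeZero N] {k : ℤ} {f : ℍ → ℂ}

theorem denom_T_eq_one (τ : ℍ) :
    denom (toGL ((Matrix.SpecialLinearGroup.map (Int.castRingHom ℝ)) ModularGroup.T)) τ = 1 := by
  simp [denom]

/-- The shift rule for the components. -/
theorem vec_vadd_one (hf : Inv N k f) (q : Q N) (τ : ℍ) :
    vec N k f q ((1 : ℝ) +ᵥ τ) = vec N k f ((ModularGroup.T)⁻¹ • q) τ := by
  have := vec_apply_smul hf q ModularGroup.T τ
  rw [denom_T_eq_one, one_zpow, mul_one, modular_T_smul] at this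
  exact this

/-- Translation by `1` tends to `i∞` at `i∞`. -/
theorem tendsto_vadd_one_atImInfty :
    Tendsto (fun τ : ℍ => (1 : ℝ) +ᵥ τ) atImInfty atImInfty := by
  rw [atImInfty, tendsto_comap_iff]
  have : (im ∘ fun τ : ℍ => (1 : ℝ) +ᵥ τ) = im := by
    funext τ
    simp [vadd_im]
  rw [this]
  exact tendsto_comap

/-- The components of a modular form on `Γ₀(N)` form a cusp column for the permutation `T⁻¹`. -/
theorem IsMF.cuspCol [Fintype (Q N)] [DecidableEq (Q N)] (hf : IsMF N k f) :
    CuspCol (MulAction.toPerm (ModularGroup.T⁻¹ : SL(2, ℤ)) : Equiv.Perm (Q N))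
      (fun τ q => vec N k f q τ) where
  mdiff q := vec_mdiff hf.mdiff q
  bdd q := hf.vec_bdd q
  shift τ q := vec_vadd_one hf.inv q τ

/-- Every component of a modular form on `Γ₀(N)` has a limit at `i∞`. -/
theorem IsMF.exists_tendsto_vec (hf : IsMF N k f) (q : Q N) :
    ∃ c : ℂ, Tendsto (vec N k f q) atImInfty (𝓝 c) := by
  classical
  have : Finite (Q N) := inferInstance
  have : Fintype (Q N) := Fintype.ofFinite _
  exact ⟨_, (hf.cuspCol).tendsto_proj_zero q⟩

/-- The limit of the components. -/
theorem IsMF.tendsto_vec_valueAtInfty (hf : IsMF N k f) (q : Q N) :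
    Tendsto (vec N k f q) atImInfty (𝓝 (valueAtInfty (vec N k f q))) := by
  obtain ⟨c, hc⟩ := hf.exists_tendsto_vec q
  have h := hc.limUnder_eq
  rw [valueAtInfty, h]
  exact hc

variable (N) in
/-- The constant term map. -/
noncomputable def constTerm (K : ℤ) : (MFsub N K) →ₗ[ℂ] (Q N → ℂ) where
  toFun f q := valueAtInfty (vec N K (f : ℍ → ℂ) q)
  map_add' f g := by
    funext q
    have hf := (f.2 : IsMF N K f).tendsto_vec_valueAtInfty q
    have hg := (g.2 : IsMF N K g).tendsto_vec_valueAtInfty q
    have hfg := hf.add hg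
    have h2 : (fun x => vec N K (f : ℍ → ℂ) q x + vec N K (g : ℍ → ℂ) q x) =
        vec N K ((f + g : MFsub N K) : ℍ → ℂ) q := by
      rw [Submodule.coe_add, vec_add]
      rfl
    rw [h2] at hfg
    exact hfg.limUnder_eq
  map_smul' c f := by
    funext q
    have hf := (f.2 : IsMF N K f).tendsto_vec_valueAtInfty q
    have hcf := hf.const_smul c
    have h2 : (fun x => c • vec N K (f : ℍ → ℂ) q x) =
        vec N K ((c • f : MFsub N K) : ℍ → ℂ) q := by
      rw [Submodule.coe_smul, vec_smul]
      rfl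
    rw [h2] at hcf
    exact hcf.limUnder_eq

theorem constTerm_apply (K : ℤ) (f : MFsub N K) (q : Q N) :
    constTerm N K f q = valueAtInfty (vec N K (f : ℍ → ℂ) q) := rfl

theorem tendsto_constTerm (K : ℤ) (f : MFsub N K) (q : Q N) :
    Tendsto (vec N K (f : ℍ → ℂ) q) atImInfty (𝓝 (constTerm N K f q)) :=
  (f.2 : IsMF N K f).tendsto_vec_valueAtInfty q

theorem constTerm_eq_zero_iff (K : ℤ) (f : MFsub N K) :
    constTerm N K f = 0 ↔ IsCF N K (f : ℍ → ℂ) := by
  have hf : IsMF N K f := f.2
  constructor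
  · intro h
    rw [isCF_iff]
    refine ⟨hf.mdiff, fun γ hγ => hf.slash_eq hγ, fun γ => ?_⟩
    have h1 := tendsto_constTerm K f ((γ⁻¹ : SL(2, ℤ)) : Q N)
    rw [h, Pi.zero_apply, vec_mk hf.inv, inv_inv] at h1
    exact h1
  · intro h
    funext q
    exact tendsto_nhds_unique (tendsto_constTerm K f q) (h.vec_zero_at q)

theorem permOp_T_constTerm (K : ℤ) (f : MFsub N K) :
    permOp N ModularGroup.T (constTerm N K f) = constTerm N K f := by
  have hf : IsMF N K f := f.2
  funext q
  rw [permOp_apply]
  have h1 := tendsto_constTerm K f (ModularGroup.T⁻¹ • q)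
  have h2 := (tendsto_constTerm K f q).comp tendsto_vadd_one_atImInfty
  have h3 : (vec N K (f : ℍ → ℂ) q ∘ fun τ : ℍ => (1 : ℝ) +ᵥ τ) =
      vec N K (f : ℍ → ℂ) (ModularGroup.T⁻¹ • q) := by
    funext τ
    exact vec_vadd_one hf.inv q τ
  rw [h3] at h2
  exact tendsto_nhds_unique h1 h2

variable (N) in
/-- **T1**: the constant term map. -/
theorem exists_constTerm (K : ℤ) : ∃ C : (MFsub N K) →ₗ[ℂ] (Q N → ℂ),
    (∀ (f : MFsub N K) (q : Q N), Tendsto (vec N K (f : ℍ → ℂ) q) atImInfty (𝓝 (C f q))) ∧
    (∀ f : MFsub N K, C f = 0 ↔ IsCF N K (f : ℍ → ℂ)) ∧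
    (∀ f : MFsub N K, permOp N ModularGroup.T (C f) = C f) :=
  ⟨constTerm N K, tendsto_constTerm K, constTerm_eq_zero_iff K, permOp_T_constTerm K⟩

variable (N) in
/-- **T2**: the rank formula, if every `T`-invariant vector is a vector of constant terms. -/
theorem finrank_MFsub_eq_of_surj (K : ℤ)
    (hsurj : ∀ v : Q N → ℂ, permOp N ModularGroup.T v = v →
       ∃ f, IsMF N K f ∧ ∀ q, Tendsto (vec N K f q) atImInfty (𝓝 (v q))) :
    Module.finrank ℂ (MFsub N K) =
      Module.finrank ℂ (CFsub N K) +
        Module.finrank ℂ (Module.End.eigenspace (permOp N ModularGroup.T) 1) := by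
  have hker : (LinearMap.ker (constTerm N K)).map (MFsub N K).subtype = CFsub N K := by
    ext f
    simp only [Submodule.mem_map, LinearMap.mem_ker, Submodule.subtype_apply, mem_CFsub]
    constructor
    · rintro ⟨g, hg, rfl⟩
      exact (constTerm_eq_zero_iff K g).mp hg
    · intro hf
      exact ⟨⟨f, hf.isMF⟩, (constTerm_eq_zero_iff K _).mpr hf, rfl⟩
  have hrange : LinearMap.range (constTerm N K) =
      Module.End.eigenspace (permOp N ModularGroup.T) 1 := by
    ext v
    rw [Module.End.mem_eigenspace_iff, one_smul, LinearMap.mem_range]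
    constructor
    · rintro ⟨f, rfl⟩
      exact permOp_T_constTerm K f
    · intro hv
      obtain ⟨f, hf, hlim⟩ := hsurj v hv
      refine ⟨⟨f, hf⟩, ?_⟩
      funext q
      exact tendsto_nhds_unique (tendsto_constTerm K ⟨f, hf⟩ q) (hlim q)
  have h1 := LinearMap.finrank_range_add_finrank_ker (constTerm N K)
  have h2 : Module.finrank ℂ (LinearMap.ker (constTerm N K)) = Module.finrank ℂ (CFsub N K) := by
    rw [← hker]
    exact (Submodule.finrank_map_subtype_eq _ _).symm
  rw [← h1, h2, hrange, add_comm]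

end Fermat.Agent.S20
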