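import Fermat.Agent.S20.Jets
import Fermat.Agent.S20.Arith
import Fermat.Agent.S20.ConstTerm
import Fermat.Agent.S20.PermInv

/-!
# S20 helper: assembly of the dimension formula from the counts
-/

set_option autoImplicit false
set_option linter.unusedSectionVars false

namespace Fermat.Agent.S20

open UpperHalfPlane ModularForm Matrix.SpecialLinearGroup Filter Topology
open scoped MatrixGroups ModularForm Manifold

variable {N : ℕ} [NeZero N]

namespace Frame

variable (B : Frame N) [Fintype (Q N)] [DecidableEq (Q N)]

/-- The dimension formula, from the counts. -/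
theorem genus_of (hk : ∀ j, B.k j ≤ 10)
    (hCF : ∀ K : ℤ, Module.finrank ℂ (CFsub N K) =
      ∑ j, Module.finrank ℂ (MF1sub (K - (12 - (B.k j : ℤ)))))
    (h0 : (Finset.univ.filter (fun j => B.k j = 0)).card = 1)
    (h4 : 2 * (Finset.univ.filter (fun j => 4 ∣ B.k j)).card =
      ModularCurve.dedekindPsi N + ModularCurve.nuTwo N)
    (h6 : 3 * (Finset.univ.filter (fun j => 6 ∣ B.k j)).card =
      ModularCurve.dedekindPsi N + 2 * ModularCurve.nuThree N) :
    (Module.finrank ℂ (CFsub N 2) : ℚ) = ModularCurve.genusFormula N := by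
  have h14 := finrank_MFsub_eq_of_surj (N := N) 14 (B.exists_form_of_invariant hk)
  rw [B.finrank_MFsub 14, hCF 14, finrank_eigenspace_permOp_T] at h14
  have hμ : Fintype.card (Q N) = ModularCurve.dedekindPsi N := by
    rw [← Nat.card_eq_fintype_card]
    exact S20_card_Q N
  have := genus_arith B.k _ _ _ _ _ B.even hk hμ h0 h4 h6 h14 (hCF 2)
  rw [this]
  rfl

end Frame

end Fermat.Agent.S20
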