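import Fermat.Agent.S20.Vec
import Mathlib.Analysis.Complex.RemovableSingularity

/-!
# S20 helper: division lemmas
-/

set_option autoImplicit false
set_option linter.unusedSectionVars false

namespace Fermat.Agent.S20

open UpperHalfPlane ModularForm Matrix.SpecialLinearGroup Filter Topology
open scoped MatrixGroups ModularForm Manifold

variable {N : ℕ} {k l : ℤ} {f g : ℍ → ℂ}

/-- A level one modular form tends to the constant term of its `q`-expansion at `i∞`. -/
theorem tendsto_atImInfty_of_levelOne (F : ModularForm 𝒮ℒ k) :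
    Tendsto F atImInfty (𝓝 ((qExpansion 1 F).coeff 0)) := by
  have hper : Function.Periodic (⇑F ∘ ofComplex) 1 :=
    SlashInvariantFormClass.periodic_comp_ofComplex F one_mem_strictPeriods_SL
  have hbdd : IsBoundedAtImInfty F := ModularFormClass.bdd_at_infty F
  have han : AnalyticAt ℂ (cuspFunction 1 F) 0 :=
    analyticAt_cuspFunction_zero one_pos hper F.holo' hbdd
  have h0 : (qExpansion 1 F).coeff 0 = cuspFunction 1 F 0 := by
    rw [qExpansion_coeff_zero one_pos han hper, cuspFunction_apply_zero one_pos han hper]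
  rw [h0]
  have : (cuspFunction 1 F ∘ fun τ ↦ Function.Periodic.qParam 1 τ : ℍ → ℂ) = F := by
    funext τ
    simpa using eq_cuspFunction τ one_ne_zero hper
  simpa [this] using han.continuousAt.tendsto.comp (qParam_tendsto_atImInfty one_pos)

theorem tendsto_E4 : Tendsto E₄ atImInfty (𝓝 1) := by
  have := tendsto_atImInfty_of_levelOne E₄
  rwa [EisensteinSeries.E_qExpansion_coeff_zero _ ⟨2, rfl⟩] at this

theorem tendsto_E6 : Tendsto E₆ atImInfty (𝓝 1) := by
  have := tendsto_atImInfty_of_levelOne E₆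
  rwa [EisensteinSeries.E_qExpansion_coeff_zero _ ⟨3, rfl⟩] at this

theorem isMF1_E4 : IsMF1 4 E₄ := ⟨E₄, rfl⟩

theorem isMF1_E6 : IsMF1 6 E₆ := ⟨E₆, rfl⟩

theorem isCF1_Delta : IsCF1 12 discriminant := ⟨CuspForm.discriminant, rfl⟩

theorem isMF1_Delta : IsMF1 12 discriminant := isCF1_Delta.isMF1

theorem E4_E6_not_both_zero (τ : ℍ) : E₄ τ ≠ 0 ∨ E₆ τ ≠ 0 := by
  by_contra h
  push Not at h
  have := discriminant_eq_E₄_cube_sub_E₆_sq τ
  rw [h.1, h.2] at this
  exact discriminant_ne_zero τ (by simpa using this)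

/-- A function tending to a nonzero limit at `i∞` is eventually bounded below. -/
theorem eventually_norm_ge_of_tendsto {Φ : ℍ → ℂ} {c : ℂ} (hc : c ≠ 0)
    (h : Tendsto Φ atImInfty (𝓝 c)) : ∀ᶠ τ in atImInfty, ‖c‖ / 2 ≤ ‖Φ τ‖ := by
  have h2 : Tendsto (fun τ => ‖Φ τ‖) atImInfty (𝓝 ‖c‖) := h.norm
  have hpos : ‖c‖ / 2 < ‖c‖ := by
    have : 0 < ‖c‖ := norm_pos_iff.mpr hc
    linarith
  exact (h2.eventually (lt_mem_nhds hpos)).mono fun τ hτ => hτ.le

/-- Quotient of a bounded function by a function which is bounded below is bounded. -/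
theorem isBoundedAtImInfty_of_mul_eq {Φ h F : ℍ → ℂ} {c : ℝ} (hc : 0 < c)
    (hΦ : ∀ᶠ τ in atImInfty, c ≤ ‖Φ τ‖) (hF : IsBoundedAtImInfty F)
    (hmul : ∀ τ, Φ τ * h τ = F τ) : IsBoundedAtImInfty h := by
  rw [IsBoundedAtImInfty, BoundedAtFilter, Asymptotics.isBigO_iff] at hF ⊢
  obtain ⟨M, hM⟩ := hF
  refine ⟨M / c, ?_⟩
  filter_upwards [hΦ, hM] with τ h1 h2
  have h3 : ‖Φ τ‖ * ‖h τ‖ = ‖F τ‖ := by rw [← norm_mul, hmul]
  simp only [Pi.one_apply, norm_one, mul_one] at h2 ⊢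
  rw [le_div_iff₀ hc]
  calc ‖h τ‖ * c ≤ ‖h τ‖ * ‖Φ τ‖ := by gcongr
    _ = ‖F τ‖ := by rw [mul_comm, h3]
    _ ≤ M := h2

/-- **Koszul exactness**: `E₄` and `E₆` form a regular sequence on modular forms. -/
theorem koszul [NeZero N] {A B : ℍ → ℂ} (hA : IsMF N (k - 4) A) (hB : IsMF N (k - 6) B)
    (h : (E₄ : ℍ → ℂ) * A + (E₆ : ℍ → ℂ) * B = 0) :
    ∃ C : ℍ → ℂ, IsMF N (k - 10) C ∧ A = (E₆ : ℍ → ℂ) * C ∧ B = -((E₄ : ℍ → ℂ) * C) := by
  classical
  have hpt : ∀ τ, E₄ τ * A τ + E₆ τ * B τ = 0 := fun τ => by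
    have := congrFun h τ
    simpa using this
  let C : ℍ → ℂ := fun τ => if E₆ τ ≠ 0 then A τ / E₆ τ else -(B τ / E₄ τ)
  have hC6 : ∀ τ, E₆ τ * C τ = A τ := by
    intro τ
    by_cases h6 : E₆ τ ≠ 0
    · simp only [C, if_pos h6]
      field_simp
    · simp only [C, if_neg h6]
      push Not at h6
      have h4 : E₄ τ ≠ 0 := (E4_E6_not_both_zero τ).resolve_right (by simpa using h6)
      have := hpt τ
      rw [h6, zero_mul, add_zero] at this
      rw [h6, zero_mul]
      exact ((mul_eq_zero.mp this).resolve_left h4).symm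
  have hC4 : ∀ τ, E₄ τ * C τ = -B τ := by
    intro τ
    by_cases h6 : E₆ τ ≠ 0
    · simp only [C, if_pos h6]
      have := hpt τ
      field_simp
      linear_combination this
    · simp only [C, if_neg h6]
      push Not at h6
      have h4 : E₄ τ ≠ 0 := (E4_E6_not_both_zero τ).resolve_right (by simpa using h6)
      field_simp
  have hCeq4 : ∀ τ, E₄ τ ≠ 0 → C τ = -(B τ / E₄ τ) := by
    intro τ h4
    have := hC4 τ
    field_simp
    linear_combination this
  have hCeq6 : ∀ τ, E₆ τ ≠ 0 → C τ = A τ / E₆ τ := by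
    intro τ h6
    simp only [C, if_pos h6]
  have hmd : MDiff C := by
    intro τ
    rcases E4_E6_not_both_zero τ with h4 | h6
    · have hev : ∀ᶠ z in 𝓝 τ, E₄ z ≠ 0 :=
        (E₄.holo'.continuous.continuousAt (x := τ)).eventually_ne h4
      have hd : MDiffAt (fun z => -(B z / E₄ z)) τ := by
        have h1 : MDiffAt (fun z => B z / E₄ z) τ :=
          (hB.mdiff τ).div (E₄.holo' τ) h4
        exact h1.neg
      refine hd.congr_of_eventuallyEq ?_
      filter_upwards [hev] with z hz using hCeq4 z hz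
    · have hev : ∀ᶠ z in 𝓝 τ, E₆ z ≠ 0 :=
        (E₆.holo'.continuous.continuousAt (x := τ)).eventually_ne h6
      have hd : MDiffAt (fun z => A z / E₆ z) τ :=
        (hA.mdiff τ).div (E₆.holo' τ) h6
      refine hd.congr_of_eventuallyEq ?_
      filter_upwards [hev] with z hz using hCeq6 z hz
  have hC6' : (E₆ : ℍ → ℂ) * C = A := funext hC6
  have hC4' : (E₄ : ℍ → ℂ) * C = -B := funext hC4
  have hslash : ∀ γ : SL(2, ℤ), ∀ (A' B' : ℍ → ℂ), A ∣[k - 4] γ = A' → B ∣[k - 6] γ = B' →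
      ∀ τ, E₆ τ * (C ∣[k - 10] γ) τ = A' τ ∧ E₄ τ * (C ∣[k - 10] γ) τ = -B' τ := by
    intro γ A' B' hA' hB' τ
    constructor
    · have : ((E₆ : ℍ → ℂ) * C) ∣[(6 : ℤ) + (k - 10)] γ = A ∣[k - 4] γ := by
        rw [hC6']
        congr 1
        ring
      rw [mul_slash_SL2, isMF1_E6.slash_eq, hA'] at this
      exact congrFun this τ
    · have : ((E₄ : ℍ → ℂ) * C) ∣[(4 : ℤ) + (k - 10)] γ = (-B) ∣[k - 6] γ := by
        rw [hC4']
        congr 1
        ring
      rw [mul_slash_SL2, isMF1_E4.slash_eq, SlashAction.neg_slash, hB'] at this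
      exact congrFun this τ
  refine ⟨C, isMF_iff.mpr ⟨hmd, fun γ hγ => ?_, fun γ => ?_⟩, hC6'.symm, ?_⟩
  · funext τ
    obtain ⟨h1, h2⟩ := hslash γ A B (hA.slash_eq hγ) (hB.slash_eq hγ) τ
    rcases E4_E6_not_both_zero τ with h4 | h6
    · exact mul_left_cancel₀ h4 (h2.trans (hC4 τ).symm)
    · exact mul_left_cancel₀ h6 (h1.trans (hC6 τ).symm)
  · have hb := (hB.bdd γ).neg
    refine isBoundedAtImInfty_of_mul_eq (Φ := E₄) (c := ‖(1 : ℂ)‖ / 2) (by simp)
      (eventually_norm_ge_of_tendsto one_ne_zero tendsto_E4) hb fun τ => ?_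
    exact (hslash γ _ _ rfl rfl τ).2
  · rw [hC4', neg_neg]


/-! ### Division by a holomorphic function with simple zeros -/

/-- If `Φ` has only simple zeros and `f` vanishes at all zeros of `Φ`, then `f / Φ` is
holomorphic. -/
theorem exists_mdiff_div {Φ f : ℍ → ℂ} (hΦ : MDiff Φ) (hf : MDiff f)
    (hz : ∀ τ : ℍ, Φ τ = 0 → f τ = 0 ∧ deriv (Φ ∘ ofComplex) τ ≠ 0) :
    ∃ h : ℍ → ℂ, MDiff h ∧ f = Φ * h := by
  classical
  set P : ℂ → ℂ := Φ ∘ ofComplex with hP
  set F : ℂ → ℂ := f ∘ ofComplex with hF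
  have hU : IsOpen {z : ℂ | 0 < z.im} := isOpen_upperHalfPlaneSet
  have hPd : DifferentiableOn ℂ P {z : ℂ | 0 < z.im} := UpperHalfPlane.mdifferentiable_iff.mp hΦ
  have hFd : DifferentiableOn ℂ F {z : ℂ | 0 < z.im} := UpperHalfPlane.mdifferentiable_iff.mp hf
  have hPτ : ∀ τ : ℍ, P τ = Φ τ := fun τ => by simp [hP]
  have hFτ : ∀ τ : ℍ, F τ = f τ := fun τ => by simp [hF]
  let H : ℂ → ℂ := fun z => if P z = 0 then deriv F z / deriv P z else F z / P z
  have hHd : DifferentiableOn ℂ H {z : ℂ | 0 < z.im} := by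
    intro z₀ hz₀
    refine DifferentiableAt.differentiableWithinAt ?_
    have hUn : {z : ℂ | 0 < z.im} ∈ 𝓝 z₀ := hU.mem_nhds hz₀
    have hPat : DifferentiableAt ℂ P z₀ := hPd.differentiableAt hUn
    have hFat : DifferentiableAt ℂ F z₀ := hFd.differentiableAt hUn
    by_cases hP0 : P z₀ = 0
    · obtain ⟨hf0, hd0⟩ := hz ⟨z₀, hz₀⟩ (by rw [← hPτ]; exact hP0)
      have hF0 : F z₀ = 0 := by rw [← hf0, ← hFτ]
      have hd0' : deriv P z₀ ≠ 0 := hd0
      have hA : DifferentiableAt ℂ (dslope F z₀) z₀ :=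
        ((Complex.differentiableOn_dslope hUn).mpr hFd).differentiableAt hUn
      have hB : DifferentiableAt ℂ (dslope P z₀) z₀ :=
        ((Complex.differentiableOn_dslope hUn).mpr hPd).differentiableAt hUn
      have hB0 : dslope P z₀ z₀ ≠ 0 := by rwa [dslope_same]
      have hev : ∀ᶠ z in 𝓝 z₀, dslope P z₀ z ≠ 0 := hB.continuousAt.eventually_ne hB0
      have hAB : DifferentiableAt ℂ (fun z => dslope F z₀ z / dslope P z₀ z) z₀ :=
        hA.div hB hB0
      refine hAB.congr_of_eventuallyEq ?_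
      filter_upwards [hev] with z hz
      by_cases hzz : z = z₀
      · subst hzz
        simp only [H, if_pos hP0, dslope_same]
      · have hPz : P z = (z - z₀) * dslope P z₀ z := by
          have := sub_smul_dslope P z₀ z
          rw [hP0, sub_zero, smul_eq_mul] at this
          exact this.symm
        have hFz : F z = (z - z₀) * dslope F z₀ z := by
          have := sub_smul_dslope F z₀ z
          rw [hF0, sub_zero, smul_eq_mul] at this
          exact this.symm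
        have hne : z - z₀ ≠ 0 := sub_ne_zero.mpr hzz
        have hPz0 : P z ≠ 0 := by rw [hPz]; exact mul_ne_zero hne hz
        simp only [H, if_neg hPz0]
        rw [hPz, hFz]
        field_simp
    · have hev : ∀ᶠ z in 𝓝 z₀, P z ≠ 0 := hPat.continuousAt.eventually_ne hP0
      have hFP : DifferentiableAt ℂ (fun z => F z / P z) z₀ := hFat.div hPat hP0
      refine hFP.congr_of_eventuallyEq ?_
      filter_upwards [hev] with z hz
      simp only [H, if_neg hz]
  refine ⟨fun τ => H τ, ?_, ?_⟩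
  · rw [UpperHalfPlane.mdifferentiable_iff]
    refine hHd.congr fun z hz => ?_
    simp only [Function.comp_apply]
    rw [ofComplex_apply_of_im_pos hz]
  · funext τ
    simp only [Pi.mul_apply, H]
    by_cases h0 : P τ = 0
    · rw [if_pos h0]
      have : Φ τ = 0 := by rw [← hPτ]; exact h0
      rw [this, zero_mul]
      exact (hz τ this).1
    · rw [if_neg h0, hPτ, hFτ]
      have : Φ τ ≠ 0 := by rw [← hPτ]; exact h0
      field_simp

/-- Division of a form on `Γ₀(N)` by a level one form with simple zeros. -/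
theorem IsMF.exists_div [NeZero N] {w : ℤ} {Φ : ℍ → ℂ} (hΦ : IsMF1 w Φ) (hf : IsMF N k f)
    (hz : ∀ τ : ℍ, Φ τ = 0 → f τ = 0 ∧ deriv (Φ ∘ ofComplex) τ ≠ 0)
    {c : ℂ} (hc : c ≠ 0) (hlim : Tendsto Φ atImInfty (𝓝 c)) :
    ∃ h : ℍ → ℂ, IsMF N (k - w) h ∧ f = Φ * h := by
  obtain ⟨h, hh, hfh⟩ := exists_mdiff_div hΦ.mdiff hf.mdiff hz
  -- uniqueness: a holomorphic `d` with `Φ * d = 0` vanishes
  have huniq : ∀ d : ℍ → ℂ, MDiff d → (∀ τ, Φ τ * d τ = 0) → d = 0 := by
    intro d hd hΦd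
    funext τ
    by_contra hτ
    have hev : ∀ᶠ z in 𝓝 τ, d z ≠ 0 := hd.continuous.continuousAt.eventually_ne hτ
    have hΦ0 : ∀ᶠ z in 𝓝 τ, Φ z = 0 := by
      filter_upwards [hev] with z hz
      exact (mul_eq_zero.mp (hΦd z)).resolve_right hz
    have hΦτ : Φ τ = 0 := hΦ0.self_of_nhds
    have hP0 : ∀ᶠ z in 𝓝 (τ : ℂ), (Φ ∘ ofComplex) z = 0 := by
      have hcont : ContinuousAt ofComplex (τ : ℂ) :=
        (UpperHalfPlane.contMDiffAt_ofComplex (n := 0) τ.2).continuousAt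
      have := hcont.eventually (by simpa using hΦ0)
      exact this
    have hderiv : deriv (Φ ∘ ofComplex) τ = 0 := by
      have h1 : (Φ ∘ ofComplex) =ᶠ[𝓝 (τ : ℂ)] fun _ => (0 : ℂ) := hP0
      rw [h1.deriv_eq]
      simp
    exact (hz τ hΦτ).2 hderiv
  have hmul : ∀ γ : SL(2, ℤ), ∀ τ, Φ τ * (h ∣[k - w] γ) τ = (f ∣[k] γ) τ := by
    intro γ τ
    have : (Φ * h) ∣[w + (k - w)] γ = f ∣[k] γ := by
      rw [← hfh]
      congr 1
      ring
    rw [mul_slash_SL2, hΦ.slash_eq] at this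
    exact congrFun this τ
  refine ⟨h, isMF_iff.mpr ⟨hh, fun γ hγ => ?_, fun γ => ?_⟩, hfh⟩
  · have hd : h ∣[k - w] γ - h = 0 := by
      refine huniq _ ?_ fun τ => ?_
      · exact MDifferentiable.sub (by rw [SL_slash]; exact hh.slash _ _) hh
      · simp only [Pi.sub_apply, mul_sub]
        rw [hmul γ τ, hf.slash_eq hγ, hfh]
        simp
    exact sub_eq_zero.mp hd
  · exact isBoundedAtImInfty_of_mul_eq (Φ := Φ) (c := ‖c‖ / 2)
      (by have := norm_pos_iff.mpr hc; linarith)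
      (eventually_norm_ge_of_tendsto hc hlim) (hf.bdd γ) (hmul γ)

/-! ### Division by `Δ` -/

/-- If all components of `f` are `O(exp (-2π Im τ))`, then `f / Δ` is a modular form. -/
theorem IsMF.exists_div_Delta [NeZero N] (hf : IsMF N k f)
    (hdecay : ∀ γ : SL(2, ℤ),
      (f ∣[k] γ) =O[atImInfty] fun τ => Real.exp (-2 * Real.pi * τ.im)) :
    ∃ h : ℍ → ℂ, IsMF N (k - 12) h ∧ f = discriminant * h := by
  refine ⟨f / discriminant, isMF_iff.mpr ⟨?_, fun γ hγ => ?_, fun γ => ?_⟩, ?_⟩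
  · exact fun τ => (hf.mdiff τ).div (isMF1_Delta.mdiff τ) (discriminant_ne_zero τ)
  · rw [div_slash_SL2, hf.slash_eq hγ, isMF1_Delta.slash_eq]
  · rw [div_slash_SL2, isMF1_Delta.slash_eq]
    have h1 := (hdecay γ).trans exp_isBigO_discriminant
    rw [IsBoundedAtImInfty, BoundedAtFilter]
    rw [Asymptotics.isBigO_iff] at h1 ⊢
    obtain ⟨C, hC⟩ := h1
    refine ⟨C, ?_⟩
    filter_upwards [hC] with τ hτ
    simp only [Pi.div_apply, Pi.one_apply, norm_one, mul_one, norm_div]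
    rw [div_le_iff₀ (norm_pos_iff.mpr (discriminant_ne_zero τ))]
    exact hτ
  · funext τ
    simp only [Pi.mul_apply, Pi.div_apply]
    field_simp [discriminant_ne_zero τ]

end Fermat.Agent.S20
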