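import Fermat.Agent.S20.Perm
import Fermat.Agent.S20.Div

/-!
# S20 Package Q: the dual family

Given a family `e j` (`j : Q N`) of modular forms of weights `k j` on `Γ₀(N)` whose evaluation
matrix `E τ = (vec (e j) q τ)_{q,j}` is everywhere invertible, the functions
`h j τ = Δ τ * (E τ)⁻¹ j 1` are holomorphic, `Γ₀(N)`-invariant of weight `12 - k j`, and their
components are `vec (h j) q τ = Δ τ * (E τ)⁻¹ j q`.
-/

set_option autoImplicit false
set_option linter.unusedSectionVars false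

namespace Fermat.Agent.S20

open UpperHalfPlane ModularForm Matrix.SpecialLinearGroup
open scoped MatrixGroups ModularForm Manifold

/-! ### Holomorphy of determinants and inverses -/

section holo

theorem dual_mdiff_sum {ι : Type} (s : Finset ι) (F : ι → ℍ → ℂ) (hF : ∀ i ∈ s, MDiff (F i)) :
    MDiff (fun τ => ∑ i ∈ s, F i τ) := by
  classical
  induction s using Finset.induction_on with
  | empty =>
    simp only [Finset.sum_empty]
    exact mdifferentiable_const
  | insert i s hi IH =>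
    simp only [Finset.sum_insert hi]
    exact (hF i (Finset.mem_insert_self i s)).add
      (IH fun j hj => hF j (Finset.mem_insert_of_mem hj))

theorem dual_mdiff_prod {ι : Type} (s : Finset ι) (F : ι → ℍ → ℂ) (hF : ∀ i ∈ s, MDiff (F i)) :
    MDiff (fun τ => ∏ i ∈ s, F i τ) := by
  have h := MDifferentiable.prod (I := 𝓘(ℂ)) (𝕜 := ℂ) (t := s) (f := F) hF
  have he : (∏ i ∈ s, F i) = fun τ => ∏ i ∈ s, F i τ := by
    funext τ
    rw [Finset.prod_apply]
  rwa [he] at h

variable {n : Type} [Fintype n] [DecidableEq n]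

theorem dual_mdiff_det (A : ℍ → Matrix n n ℂ) (hA : ∀ i j, MDiff (fun τ => A τ i j)) :
    MDiff (fun τ => (A τ).det) := by
  simp only [Matrix.det_apply']
  refine dual_mdiff_sum _ _ fun σ _ => ?_
  exact (mdifferentiable_const (c := ((Equiv.Perm.sign σ : ℤ) : ℂ))).mul
    (dual_mdiff_prod _ _ fun i _ => hA (σ i) i)

theorem dual_mdiff_adjugate (A : ℍ → Matrix n n ℂ) (hA : ∀ i j, MDiff (fun τ => A τ i j))
    (i j : n) : MDiff (fun τ => (A τ).adjugate i j) := by
  simp only [Matrix.adjugate_apply]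
  refine dual_mdiff_det _ fun a b => ?_
  by_cases ha : a = j
  · subst ha
    simp only [Matrix.updateRow_self]
    exact mdifferentiable_const
  · simp only [Matrix.updateRow_ne ha]
    exact hA a b

theorem dual_mdiff_inv (A : ℍ → Matrix n n ℂ) (hA : ∀ i j, MDiff (fun τ => A τ i j))
    (hdet : ∀ τ, (A τ).det ≠ 0) (i j : n) : MDiff (fun τ => (A τ)⁻¹ i j) := by
  have h1 : (fun τ => (A τ)⁻¹ i j) =
      (fun τ => (A τ).det)⁻¹ * fun τ => (A τ).adjugate i j := by
    funext τ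
    rw [Matrix.inv_def, Ring.inverse_eq_inv']
    simp
  rw [h1]
  exact ((dual_mdiff_det A hA).inv hdet).mul (dual_mdiff_adjugate A hA i j)

end holo

/-! ### The evaluation matrix and its transformation rule -/

section main

variable {N : ℕ} [Fintype (Q N)] [DecidableEq (Q N)]

/-- The evaluation matrix `E τ = (vec (e j) q τ)_{q,j}`. -/
noncomputable def dualE (k : Q N → ℤ) (e : Q N → ℍ → ℂ) (τ : ℍ) : Matrix (Q N) (Q N) ℂ :=
  Matrix.of fun q j => vecAt N (k j) (e j) τ q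

theorem dualE_apply (k : Q N → ℤ) (e : Q N → ℍ → ℂ) (τ : ℍ) (q j : Q N) :
    dualE k e τ q j = vec N (k j) (e j) q τ := rfl

theorem dualE_smul (k : Q N → ℤ) (e : Q N → ℍ → ℂ) (he : ∀ j, Inv N (k j) (e j))
    (γ : SL(2, ℤ)) (τ : ℍ) :
    dualE k e (γ • τ) =
      (dualE k e τ).submatrix (MulAction.toPerm γ⁻¹ : Equiv.Perm (Q N)) (Equiv.refl (Q N)) *
        Matrix.diagonal fun j => denom (toGL ((map (Int.castRingHom ℝ)) γ)) τ ^ (k j) := by
  ext q j
  rw [Matrix.mul_diagonal, Matrix.submatrix_apply, dualE_apply, dualE_apply,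
    vec_apply_smul (he j)]
  rfl

theorem dualE_inv_smul (k : Q N → ℤ) (e : Q N → ℍ → ℂ) (he : ∀ j, Inv N (k j) (e j))
    (γ : SL(2, ℤ)) (τ : ℍ) (j q : Q N) :
    (dualE k e (γ • τ))⁻¹ j q =
      denom (toGL ((map (Int.castRingHom ℝ)) γ)) τ ^ (-(k j)) * (dualE k e τ)⁻¹ j (γ⁻¹ • q) := by
  have hd : denom (toGL ((map (Int.castRingHom ℝ)) γ)) τ ≠ 0 := denom_ne_zero _ τ
  have hdiag : (Matrix.diagonal fun j : Q N =>
      denom (toGL ((map (Int.castRingHom ℝ)) γ)) τ ^ (k j))⁻¹ =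
      Matrix.diagonal fun j : Q N => denom (toGL ((map (Int.castRingHom ℝ)) γ)) τ ^ (-(k j)) := by
    apply Matrix.inv_eq_right_inv
    rw [Matrix.diagonal_mul_diagonal, ← Matrix.diagonal_one]
    congr 1
    funext j
    rw [← zpow_add₀ hd, add_neg_cancel, zpow_zero]
  rw [dualE_smul k e he, Matrix.mul_inv_rev, hdiag, Matrix.inv_submatrix_equiv,
    Matrix.diagonal_mul, Matrix.submatrix_apply]
  rfl

/-- The candidate functions `H j q τ = Δ τ * (E τ)⁻¹ j q`. -/
noncomputable def dualH (k : Q N → ℤ) (e : Q N → ℍ → ℂ) (j q : Q N) : ℍ → ℂ :=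
  fun τ => discriminant τ * (dualE k e τ)⁻¹ j q

theorem dualH_slash (k : Q N → ℤ) (e : Q N → ℍ → ℂ) (he : ∀ j, Inv N (k j) (e j))
    (j q : Q N) (γ : SL(2, ℤ)) :
    (dualH k e j q) ∣[12 - k j] γ = dualH k e j (γ⁻¹ • q) := by
  funext τ
  have hd : denom (toGL ((map (Int.castRingHom ℝ)) γ)) τ ≠ 0 := denom_ne_zero _ τ
  rw [SL_slash_apply]
  unfold dualH
  rw [dualE_inv_smul k e he, slash_apply_smul (k := 12) discriminant γ τ, isMF1_Delta.slash_eq]
  have h1 : denom (toGL ((map (Int.castRingHom ℝ)) γ)) (τ : ℂ) ^ (12 : ℤ) *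
      denom (toGL ((map (Int.castRingHom ℝ)) γ)) τ ^ (-(k j)) *
      denom (toGL ((map (Int.castRingHom ℝ)) γ)) τ ^ (-(12 - k j)) = 1 := by
    rw [← zpow_add₀ hd, ← zpow_add₀ hd]
    have : (12 : ℤ) + -(k j) + -(12 - k j) = 0 := by ring
    rw [this, zpow_zero]
  calc discriminant τ * denom (toGL ((map (Int.castRingHom ℝ)) γ)) (τ : ℂ) ^ (12 : ℤ) *
        (denom (toGL ((map (Int.castRingHom ℝ)) γ)) τ ^ (-(k j)) *
          (dualE k e τ)⁻¹ j (γ⁻¹ • q)) *
        denom (toGL ((map (Int.castRingHom ℝ)) γ)) τ ^ (-(12 - k j))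
      = discriminant τ * (dualE k e τ)⁻¹ j (γ⁻¹ • q) *
        (denom (toGL ((map (Int.castRingHom ℝ)) γ)) (τ : ℂ) ^ (12 : ℤ) *
          denom (toGL ((map (Int.castRingHom ℝ)) γ)) τ ^ (-(k j)) *
          denom (toGL ((map (Int.castRingHom ℝ)) γ)) τ ^ (-(12 - k j))) := by ring
    _ = discriminant τ * (dualE k e τ)⁻¹ j (γ⁻¹ • q) := by rw [h1, mul_one]

/-- **Package Q**: the dual family. -/
theorem dual_exists [NeZero N] (k : Q N → ℤ) (e : Q N → ℍ → ℂ) (he : ∀ j, IsMF N (k j) (e j))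
    (hdet : ∀ τ : ℍ, (Matrix.of fun q j => vecAt N (k j) (e j) τ q).det ≠ 0) :
    ∃ h : Q N → ℍ → ℂ, (∀ j, MDiff (h j)) ∧ (∀ j, Inv N (12 - k j) (h j)) ∧
      (∀ j q τ, vec N (12 - k j) (h j) q τ =
         discriminant τ * (Matrix.of fun q j => vecAt N (k j) (e j) τ q)⁻¹ j q) := by
  have hinv : ∀ j, Inv N (k j) (e j) := fun j => (he j).inv
  have hmd : ∀ j q, MDiff (dualH k e j q) := by
    intro j q
    refine isMF1_Delta.mdiff.mul (dual_mdiff_inv (dualE k e) (fun a b => ?_) hdet j q)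
    exact vec_mdiff (he b).mdiff a
  have hI : ∀ j, Inv N (12 - k j) (dualH k e j ((1 : SL(2, ℤ)) : Q N)) := by
    intro j γ hγ
    rw [dualH_slash k e hinv]
    congr 1
    rw [MulAction.Quotient.smul_mk, QuotientGroup.eq]
    simpa using hγ
  refine ⟨fun j => dualH k e j ((1 : SL(2, ℤ)) : Q N), fun j => hmd j _, hI, fun j q τ => ?_⟩
  show vec N (12 - k j) (dualH k e j ((1 : SL(2, ℤ)) : Q N)) q τ = dualH k e j q τ
  have hq : vec N (12 - k j) (dualH k e j ((1 : SL(2, ℤ)) : Q N)) q = dualH k e j q := by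
    unfold vec
    rw [dualH_slash k e hinv, inv_inv, MulAction.Quotient.smul_mk]
    congr 1
    simp
  rw [hq]

end main

end Fermat.Agent.S20
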