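import Fermat.Agent.S20.LevelOne
import Fermat.Prelude.Thm_ModularForm_sturm_bound_Gamma0

/-!
# S20 helper: finite-dimensionality of spaces of modular forms on `Γ₀(N)`
-/

set_option autoImplicit false
set_option linter.unusedSectionVars false

namespace Fermat.Agent.S20

open UpperHalfPlane ModularForm Matrix.SpecialLinearGroup Filter Topology
open scoped MatrixGroups ModularForm Manifold

variable (N : ℕ) [NeZero N] (k : ℤ)

theorem one_mem_strictPeriods :
    (1 : ℝ) ∈ (CongruenceSubgroup.Gamma0 N : Subgroup (GL (Fin 2) ℝ)).strictPeriods := by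
  simp [CongruenceSubgroup.strictPeriods_Gamma0]

/-- The first few `q`-expansion coefficients, as a linear map. -/
noncomputable def coeffMap (B : ℕ) :
    ModularForm (CongruenceSubgroup.Gamma0 N) k →ₗ[ℂ] (Fin (B + 1) → ℂ) where
  toFun f n := (qExpansion 1 f).coeff n
  map_add' f g := by
    funext n
    simp only [Pi.add_apply]
    rw [show (⇑(f + g) : ℍ → ℂ) = ⇑f + ⇑g from rfl,
      ModularForm.qExpansion_add one_pos (one_mem_strictPeriods N) f g]
    simp
  map_smul' c f := by
    funext n
    simp only [Pi.smul_apply, RingHom.id_apply]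
    rw [show (⇑(c • f) : ℍ → ℂ) = c • ⇑f from rfl,
      ModularForm.qExpansion_smul one_pos (one_mem_strictPeriods N) c f]
    simp

theorem coeffMap_injective :
    Function.Injective (coeffMap N k ((k * (CongruenceSubgroup.Gamma0 N).index).toNat / 12)) := by
  rw [← LinearMap.ker_eq_bot, LinearMap.ker_eq_bot']
  intro f hf
  apply ModularForm.sturm_bound_Gamma0 N f
  intro n hn
  have := congrFun hf ⟨n, Nat.lt_succ_of_le hn⟩
  simpa [coeffMap] using this

instance finiteDimensional_modularForm :
    FiniteDimensional ℂ (ModularForm (CongruenceSubgroup.Gamma0 N) k) :=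
  Module.Finite.of_injective _ (coeffMap_injective N k)

/-- The space of weight `k` modular forms on `Γ₀(N)`, as a space of functions. -/
noncomputable def MFsub : Submodule ℂ (ℍ → ℂ) where
  carrier := {f | IsMF N k f}
  add_mem' hf hg := hf.add hg
  zero_mem' := isMF_zero
  smul_mem' c _ hf := hf.smul c

/-- The space of weight `k` cusp forms on `Γ₀(N)`, as a space of functions. -/
noncomputable def CFsub : Submodule ℂ (ℍ → ℂ) where
  carrier := {f | IsCF N k f}
  add_mem' hf hg := hf.add hg
  zero_mem' := isCF_zero
  smul_mem' c _ hf := hf.smul c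

variable {N k}

@[simp] theorem mem_MFsub {f : ℍ → ℂ} : f ∈ MFsub N k ↔ IsMF N k f := Iff.rfl

@[simp] theorem mem_CFsub {f : ℍ → ℂ} : f ∈ CFsub N k ↔ IsCF N k f := Iff.rfl

variable (N k)

/-- The coercion to functions, as a linear map. -/
noncomputable def coeLin : ModularForm (CongruenceSubgroup.Gamma0 N) k →ₗ[ℂ] (ℍ → ℂ) where
  toFun f := ⇑f
  map_add' _ _ := rfl
  map_smul' _ _ := rfl

theorem MFsub_eq_range : MFsub N k = LinearMap.range (coeLin N k) := by
  ext f
  simp only [mem_MFsub, LinearMap.mem_range]
  rfl

instance finiteDimensional_MFsub : FiniteDimensional ℂ (MFsub N k) := by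
  rw [MFsub_eq_range]
  infer_instance

theorem CFsub_le_MFsub : CFsub N k ≤ MFsub N k := fun _ hf => IsCF.isMF hf

instance finiteDimensional_CFsub : FiniteDimensional ℂ (CFsub N k) :=
  Submodule.finiteDimensional_of_le (CFsub_le_MFsub N k)

/-- The coercion from cusp forms to functions, as a linear map. -/
noncomputable def coeLinCF : CuspForm (CongruenceSubgroup.Gamma0 N) k →ₗ[ℂ] (ℍ → ℂ) where
  toFun f := ⇑f
  map_add' _ _ := rfl
  map_smul' _ _ := rfl

theorem coeLinCF_injective : Function.Injective (coeLinCF N k) := fun _ _ h =>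
  DFunLike.coe_injective h

theorem CFsub_eq_range : CFsub N k = LinearMap.range (coeLinCF N k) := by
  ext f
  simp only [mem_CFsub, LinearMap.mem_range]
  rfl

/-- The dimension of the space of cusp forms equals the dimension of `CFsub`. -/
theorem finrank_cuspForm_eq :
    Module.finrank ℂ (CuspForm (CongruenceSubgroup.Gamma0 N) k) = Module.finrank ℂ (CFsub N k) := by
  rw [CFsub_eq_range]
  exact (LinearMap.finrank_range_of_inj (coeLinCF_injective N k)).symm

end Fermat.Agent.S20
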