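import Fermat.Agent.S20.Frame
import Fermat.Agent.S20.Dual
import Fermat.Agent.S20.DimCount
import Fermat.Agent.S20.FinDim

/-!
# S20 package X: the dual frame and the structure of cusp forms

If the evaluation matrix `E τ` of a frame is everywhere invertible and `Δ · E⁻¹ → 0` at `i∞`, then
the dual family `h_j = Δ · (E⁻¹)_{j,1}` consists of cusp forms of weight `12 - k_j`, so `k_j ≤ 10`,
and the cusp forms of weight `K` are freely generated over the level one forms by the `h_j`.
-/

set_option autoImplicit false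
set_option linter.unusedSectionVars false

namespace Fermat.Agent.S20

open UpperHalfPlane ModularForm Matrix.SpecialLinearGroup Filter Topology
open scoped MatrixGroups ModularForm Manifold

variable {N : ℕ} [NeZero N]

/-- The trace of a cusp form on `Γ₀(N)` is a cusp form of level one. -/
theorem IsCF.trace_isCF1 [Fintype (Q N)] {w : ℤ} {g : ℍ → ℂ} (hg : IsCF N w g) :
    IsCF1 w (∑ q : Q N, vec N w g q) := by
  classical
  have hinv : Inv N w g := hg.isMF.inv
  refine isCF1_iff.mpr ⟨?_, fun γ => ?_, ?_⟩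
  · have h := dual_mdiff_sum (Finset.univ : Finset (Q N)) (fun q => vec N w g q)
      (fun q _ => vec_mdiff hg.isMF.mdiff q)
    have he : (∑ q : Q N, vec N w g q) = fun τ => ∑ q : Q N, vec N w g q τ := by
      funext τ
      rw [Finset.sum_apply]
    rw [he]
    exact h
  · rw [SlashAction.sum_slash]
    simp only [vec_slash hinv]
    exact Equiv.sum_comp (MulAction.toPerm (γ⁻¹ : SL(2, ℤ)) : Equiv.Perm (Q N))
      (fun q => vec N w g q)
  · have h : ∀ s : Finset (Q N), IsZeroAtImInfty (∑ q ∈ s, vec N w g q) := by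
      intro s
      induction s using Finset.induction_on with
      | empty =>
        simp only [Finset.sum_empty]
        exact zero_zeroAtFilter _
      | insert a s ha ih =>
        rw [Finset.sum_insert ha]
        exact (hg.vec_zero_at a).add ih
    exact h _

namespace Frame

variable [Fintype (Q N)] [DecidableEq (Q N)] (B : Frame N)

/-- The dual family of a frame: cusp forms `h j` of weight `12 - k j` with components
`Δ · (E⁻¹) j q`. -/
theorem exists_dual
    (hdet : ∀ τ : ℍ, (Matrix.of fun q j => vecAt N (B.k j) (B.e j) τ q).det ≠ 0)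
    (hcusp : ∀ j q, Tendsto (fun τ : ℍ => discriminant τ *
        (Matrix.of fun q j => vecAt N (B.k j) (B.e j) τ q)⁻¹ j q) atImInfty (𝓝 0)) :
    ∃ h : Q N → ℍ → ℂ, (∀ j, IsCF N (12 - (B.k j : ℤ)) (h j)) ∧
      (∀ j q τ, vec N (12 - (B.k j : ℤ)) (h j) q τ =
         discriminant τ * (Matrix.of fun q j => vecAt N (B.k j) (B.e j) τ q)⁻¹ j q) := by
  obtain ⟨h, hmd, hinv, hvec⟩ := dual_exists (fun j => (B.k j : ℤ)) B.e B.isMF hdet
  refine ⟨h, fun j => ?_, hvec⟩
  refine isCF_iff.mpr ⟨hmd j, hinv j, fun γ => ?_⟩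
  have h1 : h j ∣[12 - (B.k j : ℤ)] γ =
      vec N (12 - (B.k j : ℤ)) (h j) ((γ⁻¹ : SL(2, ℤ)) : Q N) := by
    rw [vec_mk (hinv j), inv_inv]
  have h2 : vec N (12 - (B.k j : ℤ)) (h j) ((γ⁻¹ : SL(2, ℤ)) : Q N) =
      fun τ : ℍ => discriminant τ *
        (Matrix.of fun q j => vecAt N (B.k j) (B.e j) τ q)⁻¹ j ((γ⁻¹ : SL(2, ℤ)) : Q N) := by
    funext τ
    exact hvec j _ τ
  rw [h1, h2]
  exact hcusp j _

/-- **X1**: the weights of a frame are at most `10`. -/
theorem k_le_ten
    (hdet : ∀ τ : ℍ, (Matrix.of fun q j => vecAt N (B.k j) (B.e j) τ q).det ≠ 0)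
    (hcusp : ∀ j q, Tendsto (fun τ : ℍ => discriminant τ *
        (Matrix.of fun q j => vecAt N (B.k j) (B.e j) τ q)⁻¹ j q) atImInfty (𝓝 0)) (j : Q N) :
    B.k j ≤ 10 := by
  obtain ⟨h, hcf, hvec⟩ := B.exists_dual hdet hcusp
  have hne : h j ≠ 0 := by
    intro h0
    set E : Matrix (Q N) (Q N) ℂ :=
      Matrix.of fun q j => vecAt N (B.k j) (B.e j) UpperHalfPlane.I q with hE
    have hrow : ∀ q, E⁻¹ j q = 0 := by
      intro q
      have h1 := hvec j q UpperHalfPlane.I
      rw [h0, vec_zero] at h1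
      have hΔ := discriminant_ne_zero UpperHalfPlane.I
      have h2 : discriminant UpperHalfPlane.I * E⁻¹ j q = 0 := h1.symm
      exact (mul_eq_zero.mp h2).resolve_left hΔ
    have hmul : E⁻¹ * E = 1 := Matrix.nonsing_inv_mul _ (isUnit_iff_ne_zero.mpr (hdet _))
    have h3 : (E⁻¹ * E) j j = 1 := by rw [hmul, Matrix.one_apply_eq]
    rw [Matrix.mul_apply] at h3
    simp only [hrow, zero_mul, Finset.sum_const_zero] at h3
    exact zero_ne_one h3
  have hpos : 0 < 12 - (B.k j : ℤ) := by
    by_contra hle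
    exact hne ((hcf j).eq_zero_of_nonpos (not_lt.mp hle))
  obtain ⟨t, ht⟩ := B.even j
  omega

/-- **X2**: the cusp forms of weight `K` are freely generated by the dual frame. -/
theorem finrank_CFsub
    (hdet : ∀ τ : ℍ, (Matrix.of fun q j => vecAt N (B.k j) (B.e j) τ q).det ≠ 0)
    (hcusp : ∀ j q, Tendsto (fun τ : ℍ => discriminant τ *
        (Matrix.of fun q j => vecAt N (B.k j) (B.e j) τ q)⁻¹ j q) atImInfty (𝓝 0)) (K : ℤ) :
    Module.finrank ℂ (CFsub N K) = ∑ j, Module.finrank ℂ (MF1sub (K - (12 - (B.k j : ℤ)))) := by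
  obtain ⟨h, hcf, hvec⟩ := B.exists_dual hdet hcusp
  have hmulE : ∀ τ : ℍ, (Matrix.of fun q j => vecAt N (B.k j) (B.e j) τ q) *
      (Matrix.of fun q j => vecAt N (B.k j) (B.e j) τ q)⁻¹ = 1 := fun τ =>
    Matrix.mul_nonsing_inv _ (isUnit_iff_ne_zero.mpr (hdet τ))
  have hEmul : ∀ τ : ℍ, (Matrix.of fun q j => vecAt N (B.k j) (B.e j) τ q)⁻¹ *
      (Matrix.of fun q j => vecAt N (B.k j) (B.e j) τ q) = 1 := fun τ =>
    Matrix.nonsing_inv_mul _ (isUnit_iff_ne_zero.mpr (hdet τ))
  refine finrank_eq_sum_of_free K (CFsub N K) (fun j => 12 - (B.k j : ℤ)) h ?_ ?_ ?_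
  · -- membership
    intro r hr
    refine Submodule.sum_mem _ fun j _ => ?_
    have h1 := (hr j).isMF (N := N) |>.mul_isCF (hcf j)
    have hw : K - (12 - (B.k j : ℤ)) + (12 - (B.k j : ℤ)) = K := by ring
    rw [hw] at h1
    exact h1
  · -- spanning
    intro f hf
    have hf' : IsCF N K f := hf
    have htr : ∀ j, ∃ a : ℍ → ℂ, IsMF1 (K - (12 - (B.k j : ℤ))) a ∧
        (∑ q : Q N, vec N ((B.k j : ℤ) + K) (B.e j * f) q) = discriminant * a := by
      intro j
      have h1 : IsCF N ((B.k j : ℤ) + K) (B.e j * f) := (B.isMF j).mul_isCF hf'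
      obtain ⟨a, ha, hta⟩ := h1.trace_isCF1.exists_eq_Delta_mul
      have hw : (B.k j : ℤ) + K - 12 = K - (12 - (B.k j : ℤ)) := by ring
      rw [hw] at ha
      exact ⟨a, ha, hta⟩
    choose a ha hta using htr
    refine ⟨a, ha, ?_⟩
    funext τ
    set E : Matrix (Q N) (Q N) ℂ := Matrix.of fun q j => vecAt N (B.k j) (B.e j) τ q with hE
    have hsum : ∀ j, ∑ q : Q N, E q j * vec N K f q τ = discriminant τ * a j τ := by
      intro j
      have h1 := congrFun (hta j) τ
      rw [Finset.sum_apply] at h1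
      rw [Pi.mul_apply] at h1
      rw [← h1]
      refine Finset.sum_congr rfl fun q _ => ?_
      rw [vec_mul, Pi.mul_apply]
      rfl
    have hone : vec N K f ((1 : SL(2, ℤ)) : Q N) τ = f τ := by
      rw [vec_one hf'.isMF.inv]
    have hh : ∀ j, h j τ = discriminant τ * E⁻¹ j ((1 : SL(2, ℤ)) : Q N) := by
      intro j
      rw [← hvec j _ τ, vec_one (hcf j).isMF.inv]
    rw [Finset.sum_apply]
    simp only [Pi.mul_apply, hh]
    have hcalc : ∑ j, a j τ * (discriminant τ * E⁻¹ j ((1 : SL(2, ℤ)) : Q N)) =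
        ∑ q : Q N, vec N K f q τ * (E * E⁻¹) q ((1 : SL(2, ℤ)) : Q N) := by
      calc ∑ j, a j τ * (discriminant τ * E⁻¹ j ((1 : SL(2, ℤ)) : Q N))
          = ∑ j, (∑ q : Q N, E q j * vec N K f q τ) * E⁻¹ j ((1 : SL(2, ℤ)) : Q N) := by
            refine Finset.sum_congr rfl fun j _ => ?_
            rw [hsum j]
            ring
        _ = ∑ j, ∑ q : Q N, vec N K f q τ * (E q j * E⁻¹ j ((1 : SL(2, ℤ)) : Q N)) := by
            refine Finset.sum_congr rfl fun j _ => ?_
            rw [Finset.sum_mul]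
            refine Finset.sum_congr rfl fun q _ => ?_
            ring
        _ = ∑ q : Q N, ∑ j, vec N K f q τ * (E q j * E⁻¹ j ((1 : SL(2, ℤ)) : Q N)) :=
            Finset.sum_comm
        _ = ∑ q : Q N, vec N K f q τ * (E * E⁻¹) q ((1 : SL(2, ℤ)) : Q N) := by
            refine Finset.sum_congr rfl fun q _ => ?_
            rw [Matrix.mul_apply, Finset.mul_sum]
    rw [hcalc, hmulE τ]
    simp only [Matrix.one_apply, mul_ite, mul_one, mul_zero, Finset.sum_ite_eq',
      Finset.mem_univ, if_true]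
    exact hone.symm
  · -- independence
    intro r hr h0 j'
    funext τ
    set E : Matrix (Q N) (Q N) ℂ := Matrix.of fun q j => vecAt N (B.k j) (B.e j) τ q with hE
    have hq : ∀ q : Q N, ∑ j, r j τ * E⁻¹ j q = 0 := by
      intro q
      have h1 : vec N K (∑ j, r j * h j) q τ = 0 := by
        rw [h0, vec_zero]
        rfl
      rw [vec_sum, Finset.sum_apply] at h1
      have h2 : ∀ j, vec N K (r j * h j) q τ = discriminant τ * (r j τ * E⁻¹ j q) := by
        intro j
        have hw : K = K - (12 - (B.k j : ℤ)) + (12 - (B.k j : ℤ)) := by ring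
        rw [vec_mul' hw, Pi.mul_apply, vec_of_isMF1 (hr j), hvec j q τ]
        ring
      simp only [h2] at h1
      rw [← Finset.mul_sum] at h1
      exact (mul_eq_zero.mp h1).resolve_left (discriminant_ne_zero τ)
    have h3 : ∑ q : Q N, (∑ j, r j τ * E⁻¹ j q) * E q j' = 0 := by
      simp only [hq, zero_mul, Finset.sum_const_zero]
    have h4 : ∑ q : Q N, (∑ j, r j τ * E⁻¹ j q) * E q j' = ∑ j, r j τ * (E⁻¹ * E) j j' := by
      calc ∑ q : Q N, (∑ j, r j τ * E⁻¹ j q) * E q j'
          = ∑ q : Q N, ∑ j, r j τ * (E⁻¹ j q * E q j') := by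
            refine Finset.sum_congr rfl fun q _ => ?_
            rw [Finset.sum_mul]
            refine Finset.sum_congr rfl fun j _ => ?_
            ring
        _ = ∑ j, ∑ q : Q N, r j τ * (E⁻¹ j q * E q j') := Finset.sum_comm
        _ = ∑ j, r j τ * (E⁻¹ * E) j j' := by
            refine Finset.sum_congr rfl fun j _ => ?_
            rw [Matrix.mul_apply, Finset.mul_sum]
    rw [h4, hEmul τ] at h3
    simp only [Matrix.one_apply, mul_ite, mul_one, mul_zero, Finset.sum_ite_eq',
      Finset.mem_univ, if_true] at h3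
    exact h3

end Frame

end Fermat.Agent.S20
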