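import Mathlib.LinearAlgebra.Eigenspace.Basic
import Mathlib.LinearAlgebra.DFinsupp
import Mathlib.LinearAlgebra.FiniteDimensional.Lemmas
import Mathlib.LinearAlgebra.Dimension.Constructions
import Mathlib.Analysis.Complex.Basic

/-!
# S20 package U: eigen-split independence (pure linear algebra)

* `indep_of_eigen_classes`: a family of eigenvectors is linearly independent as soon as each
  class of vectors with a common eigenvalue is.
* `card_filter_eq_finrank_eigenspace`: for a basis of eigenvectors, the number of basis vectors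
  with eigenvalue `μ` is the dimension of the `μ`-eigenspace.
-/

set_option autoImplicit false
set_option linter.unusedSectionVars false

namespace Fermat.Agent.S20

open Module

/-- **U1**: eigenvectors are independent if each eigenvalue class is. -/
theorem indep_of_eigen_classes {V : Type*} [AddCommGroup V] [Module ℂ V] (P : V →ₗ[ℂ] V)
    {ι : Type*} [DecidableEq ι] (s : Finset ι) (v : ι → V) (lam : ι → ℂ)
    (hP : ∀ p ∈ s, P (v p) = lam p • v p)
    (hcls : ∀ μ : ℂ, ∀ c : ι → ℂ, ∑ p ∈ s with lam p = μ, c p • v p = 0 →
      ∀ p ∈ s, lam p = μ → c p = 0)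
    (c : ι → ℂ) (h : ∑ p ∈ s, c p • v p = 0) : ∀ p ∈ s, c p = 0 := by
  classical
  have hwmem : ∀ μ ∈ s.image lam,
      (∑ p ∈ s with lam p = μ, c p • v p) ∈ Module.End.eigenspace P μ := by
    intro μ _
    rw [Module.End.mem_eigenspace_iff, map_sum, Finset.smul_sum]
    refine Finset.sum_congr rfl fun p hp => ?_
    rw [Finset.mem_filter] at hp
    rw [map_smul, hP p hp.1, hp.2, smul_comm]
  have hsum : ∑ μ ∈ s.image lam, (∑ p ∈ s with lam p = μ, c p • v p) = 0 := by
    rw [← h]
    exact Finset.sum_fiberwise_of_maps_to (fun p hp => Finset.mem_image_of_mem lam hp) _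
  have hw0 := (iSupIndep_iff_finsetSum_eq_zero_imp_eq_zero _).mp
    (Module.End.eigenspaces_iSupIndep P) (s.image lam)
    (fun μ => ∑ p ∈ s with lam p = μ, c p • v p) hwmem hsum
  intro p hp
  exact hcls (lam p) c (hw0 (lam p) (Finset.mem_image_of_mem lam hp)) p hp rfl

/-- A subfamily of an independent family (in the `Finset`-sum formulation) is linearly
independent. -/
theorem li_subfamily {V : Type*} [AddCommGroup V] [Module ℂ V]
    {ι : Type*} [DecidableEq ι] (s : Finset ι) (v : ι → V)
    (hind : ∀ c : ι → ℂ, ∑ p ∈ s, c p • v p = 0 → ∀ p ∈ s, c p = 0)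
    (t : Finset ι) (ht : t ⊆ s) : LinearIndependent ℂ (fun i : t => v i) := by
  classical
  rw [Fintype.linearIndependent_iff]
  intro g hg i
  let c : ι → ℂ := fun p => if h : p ∈ t then g ⟨p, h⟩ else 0
  have hc : ∀ j : t, c j = g j := fun j => by simp [c, j.2]
  have hsum : ∑ p ∈ s, c p • v p = 0 := by
    rw [← Finset.sum_subset ht (f := fun p => c p • v p)]
    · rw [← Finset.sum_coe_sort t (fun p => c p • v p), ← hg]
      exact Finset.sum_congr rfl fun j _ => by rw [hc]
    · intro p _ hpt
      simp [c, hpt]
  have := hind c hsum i (ht i.2)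
  rwa [hc] at this

/-- **U2**: for a basis of eigenvectors, the number of basis vectors with eigenvalue `μ` is the
dimension of the `μ`-eigenspace. -/
theorem card_filter_eq_finrank_eigenspace {V : Type*} [AddCommGroup V] [Module ℂ V]
    [FiniteDimensional ℂ V]
    (P : V →ₗ[ℂ] V) {ι : Type*} [DecidableEq ι] (s : Finset ι) (v : ι → V) (lam : ι → ℂ)
    (hP : ∀ p ∈ s, P (v p) = lam p • v p)
    (hind : ∀ c : ι → ℂ, ∑ p ∈ s, c p • v p = 0 → ∀ p ∈ s, c p = 0)
    (hcard : s.card = Module.finrank ℂ V) (μ : ℂ) :
    (s.filter (fun p => lam p = μ)).card = Module.finrank ℂ (Module.End.eigenspace P μ) := by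
  classical
  set t := s.filter (fun p => lam p = μ) with ht
  have hts : t ⊆ s := Finset.filter_subset _ _
  have hli_t : LinearIndependent ℂ (fun i : t => v i) := li_subfamily s v hind t hts
  have hli_s : LinearIndependent ℂ (fun i : s => v i) := li_subfamily s v hind s (subset_refl _)
  have htop : Submodule.span ℂ (Set.range (fun i : s => v i)) = ⊤ :=
    hli_s.span_eq_top_of_card_eq_finrank' (by rw [Fintype.card_coe, hcard])
  have hE : Module.End.eigenspace P μ = Submodule.span ℂ (Set.range (fun i : t => v i)) := by
    apply le_antisymm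
    · intro x hx
      have hx' : x ∈ Submodule.span ℂ (Set.range (fun i : s => v i)) := by
        rw [htop]; exact Submodule.mem_top
      obtain ⟨a, rfl⟩ := (Submodule.mem_span_range_iff_exists_fun ℂ).mp hx'
      rw [Module.End.mem_eigenspace_iff, map_sum, Finset.smul_sum] at hx
      have h0 : ∑ i : s, (a i * (lam i - μ)) • v i = 0 := by
        have : ∀ i : s, (a i * (lam i - μ)) • v i = P (a i • v i) - μ • a i • v i := by
          intro i
          rw [map_smul, hP i i.2, smul_smul, smul_smul, ← sub_smul]
          congr 1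
          ring
        simp only [this, Finset.sum_sub_distrib, hx, sub_self]
      have h1 := Fintype.linearIndependent_iff.mp hli_s _ h0
      refine Submodule.sum_mem _ fun i _ => ?_
      by_cases hi : lam i = μ
      · exact Submodule.smul_mem _ _
          (Submodule.subset_span ⟨⟨i, Finset.mem_filter.mpr ⟨i.2, hi⟩⟩, rfl⟩)
      · have := h1 i
        rw [mul_eq_zero, sub_eq_zero] at this
        rw [this.resolve_right hi, zero_smul]
        exact Submodule.zero_mem _
    · rw [Submodule.span_le]
      rintro _ ⟨i, rfl⟩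
      have hi := Finset.mem_filter.mp i.2
      rw [SetLike.mem_coe, Module.End.mem_eigenspace_iff, hP i hi.1, hi.2]
  rw [hE, finrank_span_eq_card hli_t, Fintype.card_coe]

end Fermat.Agent.S20
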