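import Fermat.Agent.S20.Phi

/-!
# S20 package F1 + F2 (elliptic points)

All of package F (F1, F2 and F3) lives in `Fermat/Agent/S20/Phi.lean`; this module only re-exports
it under the name announced in `NOTES/items/19_packages2.md`:

* F1: `rho`, `rho_sq`, `rho_cube`, `rho_add_one_sq`, `rho_add_one_cube`, `rho_add_one_pow_six`,
  `S_smul_I`, `ST_smul_rho`, `denom_S_I`, `denom_ST_rho`, `E6_I`, `E4_rho`
* F2: `exists_smul_I_of_E6_eq_zero`, `exists_smul_rho_of_E4_eq_zero`
* F3: `exists_Phi`
* transformation rule: `IsMF1.apply_smul`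
-/
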