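import Fermat.Agent.S20.Frame
import Fermat.Agent.S20.PermInv
import Fermat.Agent.S20.EigenSplit
import Fermat.Agent.S20.Elliptic

/-!
# S20 packages V + W: local independence at all points and the elliptic counts

* `Frame.local_indep` (V1): the component vectors of a frame are linearly independent at every
  point of `ℍ` (including the elliptic points).
* `Frame.two_mul_card_four`, `Frame.three_mul_card_six` (V2): the number of frame elements of
  weight divisible by `4` resp. `6`.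
* `Frame.card_zero` (W): exactly one frame element has weight `0`.
-/

set_option autoImplicit false
set_option linter.unusedSectionVars false

namespace Fermat.Agent.S20

open UpperHalfPlane ModularForm Matrix.SpecialLinearGroup Filter Topology ModularGroup
open scoped MatrixGroups ModularForm Manifold

variable {N : ℕ} [NeZero N]

/-- The eigenvector relation for the component vector at a fixed point. -/
theorem permOp_vecAt_of_fixed {k : ℤ} {f : ℍ → ℂ} (hf : Inv N k f) {γ : SL(2, ℤ)} {τ : ℍ}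
    (hfix : γ • τ = τ) :
    permOp N γ (vecAt N k f τ) = (denom γ τ ^ (-k)) • vecAt N k f τ := by
  have h := vecAt_smul hf γ τ
  rw [hfix] at h
  have hd : denom γ τ ≠ 0 := denom_ne_zero γ τ
  conv_rhs => rw [h]
  rw [smul_smul, ← zpow_add₀ hd, neg_add_cancel, zpow_zero, one_smul]

/-- `ρ + 1` is a primitive sixth root of unity. -/
theorem isPrimitiveRoot_rho_add_one : IsPrimitiveRoot ((rho : ℂ) + 1) 6 := by
  have hr := rho_sq
  have him : ∀ a b : ℝ, (a : ℂ) * (rho : ℂ) = (b : ℂ) → a = 0 := by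
    intro a b h
    have h1 := congrArg Complex.im h
    rw [coe_rho, Complex.mul_im] at h1
    simp only [Complex.ofReal_re, Complex.ofReal_im, zero_mul, add_zero] at h1
    have h3 : (0 : ℝ) < Real.sqrt 3 := Real.sqrt_pos.mpr (by norm_num)
    have h4 : Real.sqrt 3 / 2 ≠ 0 := by positivity
    exact (mul_eq_zero.mp h1).resolve_right h4
  refine IsPrimitiveRoot.mk_of_lt _ (by norm_num) rho_add_one_pow_six ?_
  intro l hl0 hl6 h
  interval_cases l
  · -- `ρ + 1 = 1`
    have : ((1 : ℝ) : ℂ) * (rho : ℂ) = ((0 : ℝ) : ℂ) := by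
      push_cast
      linear_combination h
    exact one_ne_zero (him 1 0 this)
  · -- `(ρ + 1) ^ 2 = ρ = 1`
    rw [rho_add_one_sq] at h
    exact rho_ne_one h
  · rw [rho_add_one_cube] at h
    norm_num at h
  · -- `(ρ + 1) ^ 4 = ρ ^ 2 = -ρ - 1`
    have : ((1 : ℝ) : ℂ) * (rho : ℂ) = ((-2 : ℝ) : ℂ) := by
      push_cast
      linear_combination -h + ((rho : ℂ) ^ 2 + 3 * rho + 2) * hr
    exact one_ne_zero (him 1 (-2) this)
  · -- `(ρ + 1) ^ 5 = -ρ`
    have : ((1 : ℝ) : ℂ) * (rho : ℂ) = ((-1 : ℝ) : ℂ) := by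
      push_cast
      linear_combination -h + ((rho : ℂ) ^ 3 + 4 * (rho : ℂ) ^ 2 + 5 * rho + 1) * hr
    exact one_ne_zero (him 1 (-1) this)

namespace Frame

variable (B : Frame N) [Fintype (Q N)]

/-- Local independence on a subset, given homogenizers. -/
theorem local_indep_of_homog {τ₀ : ℍ} (hΦ : PhiSpec τ₀) (s : Finset (Q N)) (K : ℤ)
    (hex : ∀ j ∈ s, ∃ ρ : ℍ → ℂ, IsMF1 (K - B.k j) ρ ∧ ρ τ₀ = 1)
    (c : Q N → ℂ) (hc : ∑ j ∈ s, c j • vecAt N (B.k j) (B.e j) τ₀ = 0) : ∀ j ∈ s, c j = 0 := by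
  classical
  have hex' : ∀ j : Q N, ∃ ρ : ℍ → ℂ, j ∈ s → (IsMF1 (K - B.k j) ρ ∧ ρ τ₀ = 1) := by
    intro j
    by_cases hj : j ∈ s
    · obtain ⟨ρ, h⟩ := hex j hj
      exact ⟨ρ, fun _ => h⟩
    · exact ⟨0, fun h => absurd h hj⟩
  choose ρ hρ using hex'
  exact B.local_indep_aux hΦ s K ρ (fun j hj => (hρ j hj).1) (fun j hj => (hρ j hj).2) c hc

/-- Local independence at a generic point. -/
theorem local_indep_generic {τ₀ : ℍ} (h4 : E₄ τ₀ ≠ 0) (h6 : E₆ τ₀ ≠ 0) (hΦ : PhiSpec τ₀)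
    (c : Q N → ℂ) (hc : ∑ j, c j • vecAt N (B.k j) (B.e j) τ₀ = 0) : ∀ j, c j = 0 := by
  classical
  have key := B.local_indep_of_homog hΦ Finset.univ
    (2 * ((Finset.univ.sup B.k : ℕ) : ℤ) + 4) (fun j _ => ?_) c hc
  · exact fun j => key j (Finset.mem_univ j)
  · have hle : B.k j ≤ Finset.univ.sup B.k := Finset.le_sup (f := B.k) (Finset.mem_univ j)
    have hev : Even (B.k j : ℤ) := by exact_mod_cast B.even j
    refine exists_homogenizer ?_ (Or.inr ?_) h4 h6
    · exact Even.sub (Even.add (even_two_mul _) (by decide)) hev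
    · have : (B.k j : ℤ) ≤ (Finset.univ.sup B.k : ℕ) := by exact_mod_cast hle
      omega

/-- Local independence is invariant under the action of `SL(2, ℤ)`. -/
theorem local_indep_smul {τ : ℍ}
    (h : ∀ c : Q N → ℂ, ∑ j, c j • vecAt N (B.k j) (B.e j) τ = 0 → ∀ j, c j = 0)
    (γ : SL(2, ℤ)) (c : Q N → ℂ)
    (hc : ∑ j, c j • vecAt N (B.k j) (B.e j) (γ • τ) = 0) : ∀ j, c j = 0 := by
  have hd : denom γ τ ≠ 0 := denom_ne_zero γ τ
  have h1 : ∑ j, c j • vecAt N (B.k j) (B.e j) (γ • τ) =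
      permOp N γ (∑ j, (c j * denom γ τ ^ (B.k j : ℤ)) • vecAt N (B.k j) (B.e j) τ) := by
    rw [map_sum]
    refine Finset.sum_congr rfl fun j _ => ?_
    rw [vecAt_smul (B.isMF j).inv, map_smul, smul_smul]
  rw [h1] at hc
  have h2 := permOp_injective γ (hc.trans (map_zero _).symm)
  intro j
  have := h _ h2 j
  exact (mul_eq_zero.mp this).resolve_right (zpow_ne_zero _ hd)

/-- The eigenvalue of `permOp N γ` on the component vector of the `j`-th frame element at a
fixed point of `γ`. -/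
theorem permOp_vecAt {γ : SL(2, ℤ)} {τ : ℍ} (hfix : γ • τ = τ) (j : Q N) :
    permOp N γ (vecAt N (B.k j) (B.e j) τ) =
      (denom γ τ ^ (-(B.k j : ℤ))) • vecAt N (B.k j) (B.e j) τ :=
  permOp_vecAt_of_fixed (B.isMF j).inv hfix

/-- Local independence at an elliptic point: abstract form. -/
theorem local_indep_elliptic {γ : SL(2, ℤ)} {τ : ℍ} (hfix : γ • τ = τ) {m : ℕ} (hm : 0 < m)
    (hζ : IsPrimitiveRoot (denom γ τ) m)
    (hhom : ∀ w : ℤ, (m : ℤ) ∣ w → 0 ≤ w → ∃ ρ : ℍ → ℂ, IsMF1 w ρ ∧ ρ τ = 1)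
    (hΦ : PhiSpec τ) (c : Q N → ℂ)
    (hc : ∑ j, c j • vecAt N (B.k j) (B.e j) τ = 0) : ∀ j, c j = 0 := by
  classical
  have key := indep_of_eigen_classes (permOp N γ) Finset.univ
    (fun j => vecAt N (B.k j) (B.e j) τ) (fun j => denom γ τ ^ (-(B.k j : ℤ)))
    (fun j _ => B.permOp_vecAt hfix j) ?_ c hc
  · exact fun j => key j (Finset.mem_univ j)
  · intro μ c' hsum p _ hp
    have hd : denom γ τ ≠ 0 := denom_ne_zero γ τ
    refine B.local_indep_of_homog hΦ (Finset.univ.filter fun j => denom γ τ ^ (-(B.k j : ℤ)) = μ)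
      ((B.k p : ℤ) + m * ((Finset.univ.sup B.k : ℕ) : ℤ)) (fun j hj => ?_) c' hsum p
      (Finset.mem_filter.mpr ⟨Finset.mem_univ p, hp⟩)
    have hjμ : denom γ τ ^ (-(B.k j : ℤ)) = μ := (Finset.mem_filter.mp hj).2
    have hle : B.k j ≤ Finset.univ.sup B.k := Finset.le_sup (f := B.k) (Finset.mem_univ j)
    have hle' : (B.k j : ℤ) ≤ (Finset.univ.sup B.k : ℕ) := by exact_mod_cast hle
    have h1 : denom γ τ ^ ((B.k p : ℤ) - B.k j) = 1 := by
      have : denom γ τ ^ ((B.k p : ℤ) - B.k j) =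
          denom γ τ ^ (-(B.k j : ℤ)) * (denom γ τ ^ (-(B.k p : ℤ)))⁻¹ := by
        rw [← zpow_neg, ← zpow_add₀ hd]
        congr 1
        ring
      rw [this, hjμ, hp]
      have hμ : μ ≠ 0 := by
        rw [← hp]
        exact zpow_ne_zero _ hd
      exact mul_inv_cancel₀ hμ
    have h2 : (m : ℤ) ∣ (B.k p : ℤ) - B.k j := (hζ.zpow_eq_one_iff_dvd _).mp h1
    apply hhom
    · have : (B.k p : ℤ) + m * ((Finset.univ.sup B.k : ℕ) : ℤ) - B.k j =
          ((B.k p : ℤ) - B.k j) + m * ((Finset.univ.sup B.k : ℕ) : ℤ) := by ring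
      rw [this]
      exact dvd_add h2 (dvd_mul_right _ _)
    · have hm' : (1 : ℤ) ≤ m := by exact_mod_cast hm
      have h0 : (0 : ℤ) ≤ B.k p := Int.natCast_nonneg _
      have h3 : (0 : ℤ) ≤ ((Finset.univ.sup B.k : ℕ) : ℤ) := Int.natCast_nonneg _
      nlinarith

theorem E4_I_ne_zero : E₄ UpperHalfPlane.I ≠ 0 :=
  (E4_E6_not_both_zero UpperHalfPlane.I).resolve_right (not_not.mpr E6_I)

theorem E6_rho_ne_zero : E₆ rho ≠ 0 :=
  (E4_E6_not_both_zero rho).resolve_left (not_not.mpr E4_rho)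

theorem isPrimitiveRoot_denom_S_I : IsPrimitiveRoot (denom S UpperHalfPlane.I) 4 := by
  rw [denom_S_I]
  exact Complex.isPrimitiveRoot_I

theorem isPrimitiveRoot_denom_ST_rho : IsPrimitiveRoot (denom (S * T : SL(2, ℤ)) rho) 6 := by
  rw [denom_ST_rho]
  exact isPrimitiveRoot_rho_add_one

/-- Local independence at `i`. -/
theorem local_indep_I (hΦ : ∀ τ₀ : ℍ, PhiSpec τ₀) (c : Q N → ℂ)
    (hc : ∑ j, c j • vecAt N (B.k j) (B.e j) UpperHalfPlane.I = 0) : ∀ j, c j = 0 :=
  B.local_indep_elliptic S_smul_I (by norm_num) isPrimitiveRoot_denom_S_I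
    (fun w hw h0 => exists_homogenizer_four (by exact_mod_cast hw) h0 E4_I_ne_zero) (hΦ _) c hc

/-- Local independence at `ρ`. -/
theorem local_indep_rho (hΦ : ∀ τ₀ : ℍ, PhiSpec τ₀) (c : Q N → ℂ)
    (hc : ∑ j, c j • vecAt N (B.k j) (B.e j) rho = 0) : ∀ j, c j = 0 :=
  B.local_indep_elliptic ST_smul_rho (by norm_num) isPrimitiveRoot_denom_ST_rho
    (fun w hw h0 => exists_homogenizer_six (by exact_mod_cast hw) h0 E6_rho_ne_zero) (hΦ _) c hc

/-- **V1**: the component vectors of a frame are linearly independent at every point. -/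
theorem local_indep (hΦ : ∀ τ₀ : ℍ, PhiSpec τ₀) (τ₀ : ℍ) (c : Q N → ℂ)
    (hc : ∑ j, c j • vecAt N (B.k j) (B.e j) τ₀ = 0) : ∀ j, c j = 0 := by
  by_cases h6 : E₆ τ₀ = 0
  · obtain ⟨γ, rfl⟩ := exists_smul_I_of_E6_eq_zero h6
    exact B.local_indep_smul (B.local_indep_I hΦ) γ c hc
  · by_cases h4 : E₄ τ₀ = 0
    · obtain ⟨γ, rfl⟩ := exists_smul_rho_of_E4_eq_zero h4
      exact B.local_indep_smul (B.local_indep_rho hΦ) γ c hc
    · exact B.local_indep_generic h4 h6 (hΦ τ₀) c hc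

/-- The number of frame elements of weight divisible by the order of an elliptic point is the
dimension of the space of invariants of the stabiliser. -/
theorem card_filter_elliptic {γ : SL(2, ℤ)} {τ : ℍ} (hfix : γ • τ = τ) {m : ℕ}
    (hζ : IsPrimitiveRoot (denom γ τ) m)
    (hind : ∀ c : Q N → ℂ, ∑ j, c j • vecAt N (B.k j) (B.e j) τ = 0 → ∀ j, c j = 0) :
    (Finset.univ.filter (fun j => m ∣ B.k j)).card =
      Module.finrank ℂ (Module.End.eigenspace (permOp N γ) 1) := by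
  classical
  have h := card_filter_eq_finrank_eigenspace (permOp N γ) Finset.univ
    (fun j => vecAt N (B.k j) (B.e j) τ) (fun j => denom γ τ ^ (-(B.k j : ℤ)))
    (fun j _ => B.permOp_vecAt hfix j) (fun c hc j _ => hind c hc j)
    (by rw [Finset.card_univ, Module.finrank_fintype_fun_eq_card]) 1
  rw [← h]
  congr 1
  apply Finset.filter_congr
  intro j _
  rw [hζ.zpow_eq_one_iff_dvd, dvd_neg, Int.natCast_dvd_natCast]

/-- **V2** at `i`. -/
theorem two_mul_card_four (hΦ : ∀ τ₀ : ℍ, PhiSpec τ₀) :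
    2 * (Finset.univ.filter (fun j => 4 ∣ B.k j)).card =
      ModularCurve.dedekindPsi N + ModularCurve.nuTwo N := by
  rw [B.card_filter_elliptic S_smul_I isPrimitiveRoot_denom_S_I (B.local_indep_I hΦ)]
  exact two_mul_finrank_eigenspace_permOp_S N

/-- **V2** at `ρ`. -/
theorem three_mul_card_six (hΦ : ∀ τ₀ : ℍ, PhiSpec τ₀) :
    3 * (Finset.univ.filter (fun j => 6 ∣ B.k j)).card =
      ModularCurve.dedekindPsi N + 2 * ModularCurve.nuThree N := by
  rw [B.card_filter_elliptic ST_smul_rho isPrimitiveRoot_denom_ST_rho (B.local_indep_rho hΦ)]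
  exact three_mul_finrank_eigenspace_permOp_ST N

end Frame

/-! ### W: weight zero -/

theorem IsDec.eq_zero_of_weight_zero {f : ℍ → ℂ} (h : IsDec N 0 f) : f = 0 := by
  obtain ⟨A, B, hA, hB, rfl⟩ := h
  rw [hA.eq_zero_of_neg (by norm_num), hB.eq_zero_of_neg (by norm_num)]
  simp

theorem nb_zero_pos : 0 < nb N 0 := by
  by_contra h
  have h0 : nb N 0 = 0 := by omega
  obtain ⟨c, hc⟩ := bfun_span (N := N) 0 (1 : ℍ → ℂ) (by exact_mod_cast isMF_one)
  rw [h0, Finset.range_zero, Finset.sum_empty, sub_zero] at hc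
  have h1 : (1 : ℍ → ℂ) = 0 := IsDec.eq_zero_of_weight_zero (by exact_mod_cast hc)
  have := congrFun h1 UpperHalfPlane.I
  simp at this

theorem nb_zero_le : nb N 0 ≤ 1 := by
  classical
  by_contra h
  have h2 : 2 ≤ nb N 0 := by omega
  obtain ⟨a, ha⟩ := IsMF.eq_const_of_weight_zero (N := N) (f := bfun N 0 0)
    (by exact_mod_cast bfun_isMF (N := N) 0 0)
  obtain ⟨b, hb⟩ := IsMF.eq_const_of_weight_zero (N := N) (f := bfun N 0 1)
    (by exact_mod_cast bfun_isMF (N := N) 0 1)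
  have hb0 : b ≠ 0 := by
    intro h0
    apply bfun_ne_zero (N := N) (k := 0) (i := 1) (by omega)
    rw [hb, h0]
    rfl
  let c : ℕ → ℂ := fun i => if i = 0 then b else if i = 1 then -a else 0
  have hsum : ∑ i ∈ Finset.range (nb N 0), c i • bfun N 0 i = 0 := by
    rw [Finset.sum_eq_add (0 : ℕ) 1 (by norm_num)]
    · simp only [c, if_true, if_false, one_ne_zero, ha, hb]
      funext τ
      simp
      ring
    · intro i _ hi
      simp [c, hi.1, hi.2]
    · intro h'
      exact absurd (Finset.mem_range.mpr (by omega)) h'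
    · intro h'
      exact absurd (Finset.mem_range.mpr (by omega)) h'
  have key := bfun_indep (N := N) 0 c (by rw [hsum]; exact_mod_cast isDec_zero (N := N) 0) 0
    (by omega)
  exact hb0 (by simpa [c] using key)

theorem nb_zero : nb N 0 = 1 := le_antisymm nb_zero_le nb_zero_pos

namespace Frame

variable (B : Frame N) [Fintype (Q N)]

/-- **W**: exactly one frame element has weight `0`. -/
theorem card_zero : (Finset.univ.filter (fun j => B.k j = 0)).card = 1 := by
  classical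
  obtain ⟨j₀, hj₀⟩ := B.surj (0, 0) (by
    show 0 < nb N 0
    exact nb_zero_pos)
  rw [Finset.card_eq_one]
  refine ⟨j₀, ?_⟩
  ext j
  simp only [Finset.mem_filter, Finset.mem_univ, true_and, Finset.mem_singleton]
  constructor
  · intro hj
    apply B.inj
    rw [hj₀]
    have h1 : (B.idx j).1 = 0 := hj
    have h2 := B.valid j
    rw [h1, nb_zero] at h2
    exact Prod.ext h1 (by simpa using h2)
  · rintro rfl
    show (B.idx j).1 = 0
    rw [hj₀]

end Frame

end Fermat.Agent.S20
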