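import Fermat.Agent.S20.Basic

/-!
# S20 helper: the components `f ∣[k] g⁻¹` of a form on `Γ₀(N)`, indexed by cosets
-/

set_option autoImplicit false
set_option linter.unusedSectionVars false

namespace Fermat.Agent.S20

open UpperHalfPlane ModularForm Matrix.SpecialLinearGroup
open scoped MatrixGroups ModularForm Manifold

/-- The coset space `SL(2, ℤ) ⧸ Γ₀(N)`. -/
abbrev Q (N : ℕ) := SL(2, ℤ) ⧸ CongruenceSubgroup.Gamma0 N

/-- The component of `f` at the coset `q = gΓ₀(N)`, namely `f ∣[k] g⁻¹`. -/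
noncomputable def vec (N : ℕ) (k : ℤ) (f : ℍ → ℂ) (q : Q N) : ℍ → ℂ :=
  f ∣[k] (Quotient.out q)⁻¹

variable {N : ℕ} {k l : ℤ} {f g : ℍ → ℂ}

/-- Invariance under `Γ₀(N)`. -/
def Inv (N : ℕ) (k : ℤ) (f : ℍ → ℂ) : Prop :=
  ∀ γ ∈ CongruenceSubgroup.Gamma0 N, f ∣[k] γ = f

theorem IsMF.inv [NeZero N] (hf : IsMF N k f) : Inv N k f := fun _ hγ => hf.slash_eq hγ

theorem vec_mk (hf : Inv N k f) (γ : SL(2, ℤ)) :
    vec N k f (γ : Q N) = f ∣[k] γ⁻¹ := by
  obtain ⟨h, hh⟩ := QuotientGroup.mk_out_eq_mul (CongruenceSubgroup.Gamma0 N) γ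
  unfold vec
  rw [hh, mul_inv_rev, SlashAction.slash_mul, hf _ (inv_mem h.2)]

theorem vec_slash (hf : Inv N k f) (q : Q N) (γ : SL(2, ℤ)) :
    (vec N k f q) ∣[k] γ = vec N k f (γ⁻¹ • q) := by
  induction q using QuotientGroup.induction_on with
  | H x =>
    rw [MulAction.Quotient.smul_mk, vec_mk hf, vec_mk hf, ← SlashAction.slash_mul]
    congr 1
    simp [mul_inv_rev]

theorem vec_one (hf : Inv N k f) : vec N k f ((1 : SL(2, ℤ)) : Q N) = f := by
  rw [vec_mk hf, inv_one, SlashAction.slash_one]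

theorem vec_add (q : Q N) : vec N k (f + g) q = vec N k f q + vec N k g q := by
  unfold vec
  rw [SlashAction.add_slash]

theorem vec_smul (c : ℂ) (q : Q N) : vec N k (c • f) q = c • vec N k f q := by
  unfold vec
  rw [SL_smul_slash]

theorem vec_neg (q : Q N) : vec N k (-f) q = -vec N k f q := by
  unfold vec
  rw [SlashAction.neg_slash]

theorem vec_sub (q : Q N) : vec N k (f - g) q = vec N k f q - vec N k g q := by
  rw [sub_eq_add_neg, vec_add, vec_neg, sub_eq_add_neg]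

theorem vec_zero (q : Q N) : vec N k (0 : ℍ → ℂ) q = 0 := by
  unfold vec
  rw [SlashAction.zero_slash]

theorem vec_mul (q : Q N) : vec N (k + l) (f * g) q = vec N k f q * vec N l g q := by
  unfold vec
  rw [mul_slash_SL2]

theorem vec_mul' {m : ℤ} (hm : m = k + l) (q : Q N) :
    vec N m (f * g) q = vec N k f q * vec N l g q := by
  subst hm
  exact vec_mul q

theorem vec_of_isMF1 (hf : IsMF1 k f) (q : Q N) : vec N k f q = f := by
  unfold vec
  exact hf.slash_eq _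

theorem vec_sum {ι : Type*} (s : Finset ι) (F : ι → ℍ → ℂ) (q : Q N) :
    vec N k (∑ i ∈ s, F i) q = ∑ i ∈ s, vec N k (F i) q := by
  unfold vec
  rw [SlashAction.sum_slash]

theorem vec_mdiff (hf : MDiff f) (q : Q N) : MDiff (vec N k f q) := by
  unfold vec
  rw [SL_slash]
  exact hf.slash k _

theorem IsMF.vec_bdd [NeZero N] (hf : IsMF N k f) (q : Q N) :
    IsBoundedAtImInfty (vec N k f q) := hf.bdd _

theorem IsCF.vec_zero_at [NeZero N] (hf : IsCF N k f) (q : Q N) :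
    IsZeroAtImInfty (vec N k f q) := hf.zero_at _

/-- Evaluate at `γ • τ`. -/
theorem slash_apply_smul (f : ℍ → ℂ) (γ : SL(2, ℤ)) (τ : ℍ) :
    f (γ • τ) = (f ∣[k] γ) τ * denom (toGL ((map (Int.castRingHom ℝ)) γ)) τ ^ k := by
  rw [SL_slash_apply, mul_assoc, ← zpow_add₀ (denom_ne_zero _ τ)]
  simp

theorem vec_apply_smul (hf : Inv N k f) (q : Q N) (γ : SL(2, ℤ)) (τ : ℍ) :
    vec N k f q (γ • τ) =
      vec N k f (γ⁻¹ • q) τ * denom (toGL ((map (Int.castRingHom ℝ)) γ)) τ ^ k := by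
  rw [slash_apply_smul (k := k) (vec N k f q) γ τ, vec_slash hf]

/-- If all components of `f` vanish at `τ₀`, then `f` vanishes on the orbit of `τ₀`. -/
theorem eq_zero_on_orbit (hf : Inv N k f) {τ₀ : ℍ} (h : ∀ q : Q N, vec N k f q τ₀ = 0)
    (γ : SL(2, ℤ)) : f (γ • τ₀) = 0 := by
  have := vec_apply_smul hf ((1 : SL(2, ℤ)) : Q N) γ τ₀
  rw [vec_one hf] at this
  rw [this, h, zero_mul]

/-- A form is determined by its components. -/
theorem eq_zero_of_vec_eq_zero (hf : Inv N k f) (h : ∀ q : Q N, vec N k f q = 0) : f = 0 := by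
  rw [← vec_one hf]
  exact h _

end Fermat.Agent.S20
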