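import Mathlib.NumberTheory.ModularForms.LevelOne.GradedRing
import Mathlib.NumberTheory.ModularForms.NormTrace
import Mathlib.NumberTheory.ModularForms.Derivative

/-!
# S20 helper: modular forms on `Γ₀(N)` as plain functions

We work with functions `ℍ → ℂ` and predicates `IsMF N k f` ("`f` is a modular form of weight `k`
on `Γ₀(N)`"), to avoid dependent-type problems with varying weights.
-/

set_option autoImplicit false
set_option linter.unusedSectionVars false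

namespace Fermat.Agent.S20

open UpperHalfPlane ModularForm Matrix.SpecialLinearGroup
open scoped MatrixGroups ModularForm Manifold

/-- `f` is the underlying function of a weight `k` modular form on `Γ₀(N)`. -/
def IsMF (N : ℕ) (k : ℤ) (f : ℍ → ℂ) : Prop :=
  ∃ F : ModularForm (CongruenceSubgroup.Gamma0 N) k, ⇑F = f

/-- `f` is the underlying function of a weight `k` cusp form on `Γ₀(N)`. -/
def IsCF (N : ℕ) (k : ℤ) (f : ℍ → ℂ) : Prop :=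
  ∃ F : CuspForm (CongruenceSubgroup.Gamma0 N) k, ⇑F = f

/-- `f` is the underlying function of a weight `k` modular form of level one. -/
def IsMF1 (k : ℤ) (f : ℍ → ℂ) : Prop :=
  ∃ F : ModularForm 𝒮ℒ k, ⇑F = f

/-- `f` is the underlying function of a weight `k` cusp form of level one. -/
def IsCF1 (k : ℤ) (f : ℍ → ℂ) : Prop :=
  ∃ F : CuspForm 𝒮ℒ k, ⇑F = f

variable {N : ℕ} {k : ℤ} {f : ℍ → ℂ}

theorem isMF_iff [NeZero N] :
    IsMF N k f ↔ MDiff f ∧ (∀ γ ∈ CongruenceSubgroup.Gamma0 N, f ∣[k] γ = f) ∧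
      ∀ γ : SL(2, ℤ), IsBoundedAtImInfty (f ∣[k] γ) := by
  constructor
  · rintro ⟨F, rfl⟩
    refine ⟨F.holo', fun γ hγ => ?_, fun γ => ?_⟩
    · exact F.slash_action_eq' _ (Subgroup.mem_map_of_mem (mapGL ℝ) hγ)
    · have hc : IsCusp (mapGL ℝ γ • OnePoint.infty)
          (CongruenceSubgroup.Gamma0 N : Subgroup (GL (Fin 2) ℝ)) := by
        rw [Subgroup.IsArithmetic.isCusp_iff_isCusp_SL2Z, isCusp_SL2Z_iff']
        exact ⟨γ, rfl⟩
      exact F.bdd_at_cusps' hc (mapGL ℝ γ) rfl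
  · rintro ⟨h1, h2, h3⟩
    refine ⟨{ toFun := f, slash_action_eq' := ?_, holo' := h1, bdd_at_cusps' := ?_ }, rfl⟩
    · rintro γ ⟨γ', hγ', rfl⟩
      exact h2 γ' hγ'
    · intro c hc
      rw [Subgroup.IsArithmetic.isCusp_iff_isCusp_SL2Z] at hc
      rw [OnePoint.isBoundedAt_iff_forall_SL2Z hc]
      intro γ _
      exact h3 γ

theorem isCF_iff [NeZero N] :
    IsCF N k f ↔ MDiff f ∧ (∀ γ ∈ CongruenceSubgroup.Gamma0 N, f ∣[k] γ = f) ∧
      ∀ γ : SL(2, ℤ), IsZeroAtImInfty (f ∣[k] γ) := by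
  constructor
  · rintro ⟨F, rfl⟩
    refine ⟨F.holo', fun γ hγ => ?_, fun γ => ?_⟩
    · exact F.slash_action_eq' _ (Subgroup.mem_map_of_mem (mapGL ℝ) hγ)
    · have hc : IsCusp (mapGL ℝ γ • OnePoint.infty)
          (CongruenceSubgroup.Gamma0 N : Subgroup (GL (Fin 2) ℝ)) := by
        rw [Subgroup.IsArithmetic.isCusp_iff_isCusp_SL2Z, isCusp_SL2Z_iff']
        exact ⟨γ, rfl⟩
      exact F.zero_at_cusps' hc (mapGL ℝ γ) rfl
  · rintro ⟨h1, h2, h3⟩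
    refine ⟨{ toFun := f, slash_action_eq' := ?_, holo' := h1, zero_at_cusps' := ?_ }, rfl⟩
    · rintro γ ⟨γ', hγ', rfl⟩
      exact h2 γ' hγ'
    · intro c hc
      rw [Subgroup.IsArithmetic.isCusp_iff_isCusp_SL2Z] at hc
      rw [OnePoint.isZeroAt_iff_forall_SL2Z hc]
      intro γ _
      exact h3 γ

theorem isMF1_iff :
    IsMF1 k f ↔ MDiff f ∧ (∀ γ : SL(2, ℤ), f ∣[k] γ = f) ∧ IsBoundedAtImInfty f := by
  constructor
  · rintro ⟨F, rfl⟩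
    refine ⟨F.holo', fun γ => ?_, ?_⟩
    · exact F.slash_action_eq' _ ⟨γ, rfl⟩
    · have hc : IsCusp OnePoint.infty 𝒮ℒ := by
        rw [isCusp_SL2Z_iff']
        exact ⟨1, by simp⟩
      simpa using F.bdd_at_cusps' hc 1 (by simp)
  · rintro ⟨h1, h2, h3⟩
    refine ⟨{ toFun := f, slash_action_eq' := ?_, holo' := h1, bdd_at_cusps' := ?_ }, rfl⟩
    · rintro γ ⟨γ', rfl⟩
      exact h2 γ'
    · intro c hc
      rw [OnePoint.isBoundedAt_iff_forall_SL2Z hc]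
      intro γ _
      rw [h2 γ]
      exact h3

theorem isCF1_iff :
    IsCF1 k f ↔ MDiff f ∧ (∀ γ : SL(2, ℤ), f ∣[k] γ = f) ∧ IsZeroAtImInfty f := by
  constructor
  · rintro ⟨F, rfl⟩
    refine ⟨F.holo', fun γ => ?_, ?_⟩
    · exact F.slash_action_eq' _ ⟨γ, rfl⟩
    · have hc : IsCusp OnePoint.infty 𝒮ℒ := by
        rw [isCusp_SL2Z_iff']
        exact ⟨1, by simp⟩
      simpa using F.zero_at_cusps' hc 1 (by simp)
  · rintro ⟨h1, h2, h3⟩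
    refine ⟨{ toFun := f, slash_action_eq' := ?_, holo' := h1, zero_at_cusps' := ?_ }, rfl⟩
    · rintro γ ⟨γ', rfl⟩
      exact h2 γ'
    · intro c hc
      rw [OnePoint.isZeroAt_iff_forall_SL2Z hc]
      intro γ _
      rw [h2 γ]
      exact h3


/-! ### Closure properties -/

section closure

variable [NeZero N] {l : ℤ} {g : ℍ → ℂ}

theorem IsMF.mdiff (hf : IsMF N k f) : MDiff f := (isMF_iff.mp hf).1

theorem IsMF.slash_eq (hf : IsMF N k f) {γ : SL(2, ℤ)} (hγ : γ ∈ CongruenceSubgroup.Gamma0 N) :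
    f ∣[k] γ = f := (isMF_iff.mp hf).2.1 γ hγ

theorem IsMF.bdd (hf : IsMF N k f) (γ : SL(2, ℤ)) : IsBoundedAtImInfty (f ∣[k] γ) :=
  (isMF_iff.mp hf).2.2 γ

theorem IsCF.isMF (hf : IsCF N k f) : IsMF N k f := by
  obtain ⟨h1, h2, h3⟩ := isCF_iff.mp hf
  exact isMF_iff.mpr ⟨h1, h2, fun γ => (h3 γ).isBoundedAtImInfty⟩

theorem IsCF.zero_at (hf : IsCF N k f) (γ : SL(2, ℤ)) : IsZeroAtImInfty (f ∣[k] γ) :=
  (isCF_iff.mp hf).2.2 γ

theorem IsMF1.mdiff (hf : IsMF1 k f) : MDiff f := (isMF1_iff.mp hf).1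

theorem IsMF1.slash_eq (hf : IsMF1 k f) (γ : SL(2, ℤ)) : f ∣[k] γ = f := (isMF1_iff.mp hf).2.1 γ

theorem IsMF1.bdd (hf : IsMF1 k f) : IsBoundedAtImInfty f := (isMF1_iff.mp hf).2.2

theorem IsMF1.isMF (hf : IsMF1 k f) : IsMF N k f := by
  obtain ⟨h1, h2, h3⟩ := isMF1_iff.mp hf
  exact isMF_iff.mpr ⟨h1, fun γ _ => h2 γ, fun γ => by rw [h2 γ]; exact h3⟩

theorem IsCF1.isMF1 (hf : IsCF1 k f) : IsMF1 k f := by
  obtain ⟨h1, h2, h3⟩ := isCF1_iff.mp hf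
  exact isMF1_iff.mpr ⟨h1, h2, h3.isBoundedAtImInfty⟩

theorem IsCF1.isCF (hf : IsCF1 k f) : IsCF N k f := by
  obtain ⟨h1, h2, h3⟩ := isCF1_iff.mp hf
  exact isCF_iff.mpr ⟨h1, fun γ _ => h2 γ, fun γ => by rw [h2 γ]; exact h3⟩

theorem isMF_zero : IsMF N k (0 : ℍ → ℂ) := ⟨0, rfl⟩

theorem isCF_zero : IsCF N k (0 : ℍ → ℂ) := ⟨0, rfl⟩

theorem isMF1_zero : IsMF1 k (0 : ℍ → ℂ) := ⟨0, rfl⟩

theorem IsMF.add (hf : IsMF N k f) (hg : IsMF N k g) : IsMF N k (f + g) := by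
  obtain ⟨F, rfl⟩ := hf
  obtain ⟨G, rfl⟩ := hg
  exact ⟨F + G, rfl⟩

theorem IsMF.smul (c : ℂ) (hf : IsMF N k f) : IsMF N k (c • f) := by
  obtain ⟨F, rfl⟩ := hf
  exact ⟨c • F, rfl⟩

theorem IsMF.neg (hf : IsMF N k f) : IsMF N k (-f) := by
  obtain ⟨F, rfl⟩ := hf
  exact ⟨-F, rfl⟩

theorem IsMF.sub (hf : IsMF N k f) (hg : IsMF N k g) : IsMF N k (f - g) := by
  obtain ⟨F, rfl⟩ := hf
  obtain ⟨G, rfl⟩ := hg
  exact ⟨F - G, rfl⟩

theorem IsCF.add (hf : IsCF N k f) (hg : IsCF N k g) : IsCF N k (f + g) := by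
  obtain ⟨F, rfl⟩ := hf
  obtain ⟨G, rfl⟩ := hg
  exact ⟨F + G, rfl⟩

theorem IsCF.smul (c : ℂ) (hf : IsCF N k f) : IsCF N k (c • f) := by
  obtain ⟨F, rfl⟩ := hf
  exact ⟨c • F, rfl⟩

theorem IsCF.neg (hf : IsCF N k f) : IsCF N k (-f) := by
  obtain ⟨F, rfl⟩ := hf
  exact ⟨-F, rfl⟩

theorem IsCF.sub (hf : IsCF N k f) (hg : IsCF N k g) : IsCF N k (f - g) := by
  obtain ⟨F, rfl⟩ := hf
  obtain ⟨G, rfl⟩ := hg
  exact ⟨F - G, rfl⟩

theorem IsMF1.add (hf : IsMF1 k f) (hg : IsMF1 k g) : IsMF1 k (f + g) := by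
  obtain ⟨F, rfl⟩ := hf
  obtain ⟨G, rfl⟩ := hg
  exact ⟨F + G, rfl⟩

theorem IsMF1.smul (c : ℂ) (hf : IsMF1 k f) : IsMF1 k (c • f) := by
  obtain ⟨F, rfl⟩ := hf
  exact ⟨c • F, rfl⟩

theorem IsMF1.neg (hf : IsMF1 k f) : IsMF1 k (-f) := by
  obtain ⟨F, rfl⟩ := hf
  exact ⟨-F, rfl⟩

theorem IsMF1.sub (hf : IsMF1 k f) (hg : IsMF1 k g) : IsMF1 k (f - g) := by
  obtain ⟨F, rfl⟩ := hf
  obtain ⟨G, rfl⟩ := hg
  exact ⟨F - G, rfl⟩

theorem IsMF.mul (hf : IsMF N k f) (hg : IsMF N l g) : IsMF N (k + l) (f * g) := by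
  obtain ⟨F, rfl⟩ := hf
  obtain ⟨G, rfl⟩ := hg
  exact ⟨F.mul G, rfl⟩

theorem IsMF1.mul (hf : IsMF1 k f) (hg : IsMF1 l g) : IsMF1 (k + l) (f * g) := by
  obtain ⟨F, rfl⟩ := hf
  obtain ⟨G, rfl⟩ := hg
  exact ⟨F.mul G, rfl⟩

theorem IsMF.mul' {m : ℤ} (hf : IsMF N k f) (hg : IsMF N l g) (hm : m = k + l) :
    IsMF N m (f * g) := hm ▸ hf.mul hg

theorem IsMF1.mul' {m : ℤ} (hf : IsMF1 k f) (hg : IsMF1 l g) (hm : m = k + l) :
    IsMF1 m (f * g) := hm ▸ hf.mul hg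

theorem IsMF1.pow (hf : IsMF1 k f) (n : ℕ) : IsMF1 (n * k) (f ^ n) := by
  induction n with
  | zero =>
    simp only [Nat.cast_zero, zero_mul, pow_zero]
    exact ⟨1, rfl⟩
  | succ n ih =>
    rw [pow_succ]
    exact ih.mul' hf (by push_cast; ring)

theorem isMF1_one : IsMF1 0 (1 : ℍ → ℂ) := ⟨1, rfl⟩

theorem isMF_one : IsMF N 0 (1 : ℍ → ℂ) := isMF1_one.isMF

theorem IsCF.mul_isMF (hf : IsCF N k f) (hg : IsMF N l g) : IsCF N (k + l) (f * g) := by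
  obtain ⟨h1, h2, h3⟩ := isCF_iff.mp hf
  obtain ⟨g1, g2, g3⟩ := isMF_iff.mp hg
  refine isCF_iff.mpr ⟨h1.mul g1, fun γ hγ => ?_, fun γ => ?_⟩
  · rw [mul_slash_SL2, h2 γ hγ, g2 γ hγ]
  · rw [mul_slash_SL2]
    exact (h3 γ).mul_boundedAtFilter (g3 γ)

theorem IsMF.mul_isCF (hf : IsMF N k f) (hg : IsCF N l g) : IsCF N (k + l) (f * g) := by
  rw [mul_comm, add_comm]
  exact hg.mul_isMF hf

end closure

/-! ### Vanishing in weight `≤ 0` etc. -/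

section vanishing

variable [NeZero N]

theorem IsMF.eq_zero_of_neg (hf : IsMF N k f) (hk : k < 0) : f = 0 := by
  obtain ⟨F, rfl⟩ := hf
  rw [ModularForm.isZero_of_neg_weight hk F]
  rfl

theorem IsMF1.eq_zero_of_neg (hf : IsMF1 k f) (hk : k < 0) : f = 0 := by
  obtain ⟨F, rfl⟩ := hf
  exact ModularFormClass.levelOne_neg_weight_eq_zero hk F

theorem IsMF.eq_const_of_weight_zero (hf : IsMF N 0 f) : ∃ c : ℂ, f = Function.const ℍ c := by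
  obtain ⟨F, rfl⟩ := hf
  exact ModularForm.eq_const_of_weight_zero F

theorem IsMF1.eq_const_of_weight_zero (hf : IsMF1 0 f) : ∃ c : ℂ, f = Function.const ℍ c := by
  obtain ⟨F, rfl⟩ := hf
  exact ModularForm.eq_const_of_weight_zero F

theorem neg_one_mem_Gamma0 : (-1 : SL(2, ℤ)) ∈ CongruenceSubgroup.Gamma0 N := by
  rw [CongruenceSubgroup.Gamma0_mem]
  simp

theorem IsMF.eq_zero_of_odd (hf : IsMF N k f) (hk : Odd k) : f = 0 := by
  obtain ⟨F, rfl⟩ := hf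
  have h : (-1 : GL (Fin 2) ℝ) ∈ (CongruenceSubgroup.Gamma0 N : Subgroup (GL (Fin 2) ℝ)) :=
    ⟨-1, neg_one_mem_Gamma0, by ext; simp⟩
  rw [ModularForm.eq_zero_of_neg_one_mem h hk F]
  rfl

theorem IsMF1.eq_zero_of_odd (hf : IsMF1 k f) (hk : Odd k) : f = 0 := by
  obtain ⟨F, rfl⟩ := hf
  rw [ModularForm.levelOne_odd_weight_eq_zero hk F]
  rfl

theorem IsCF.eq_zero_of_nonpos (hf : IsCF N k f) (hk : k ≤ 0) : f = 0 := by
  rcases hk.lt_or_eq with hk | rfl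
  · exact hf.isMF.eq_zero_of_neg hk
  · obtain ⟨c, hc⟩ := hf.isMF.eq_const_of_weight_zero
    have h0 := hf.zero_at 1
    rw [SlashAction.slash_one, hc] at h0
    have : c = 0 := by
      have h1 : Filter.Tendsto (Function.const ℍ c) atImInfty (nhds c) := tendsto_const_nhds
      exact tendsto_nhds_unique h1 h0
    rw [hc, this]
    rfl

end vanishing

end Fermat.Agent.S20
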