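import Mathlib
import Fermat.Agent.S20.Basic

/-!
# S20 Package D: the form `Δ(Nτ)` on `Γ₀(N)`

* `DeltaN N = Δ ∣[12] diag(N,1)` (so `DeltaN N τ = N ^ 11 * Δ (N τ)`),
* `isCF_DeltaN`, `isMF_DeltaN` (D1),
* `DeltaN_slash_ne` (D2): the stabiliser of `DeltaN N` in `SL(2,ℤ)` is exactly `Γ₀(N)`.
-/

set_option autoImplicit false

namespace Fermat.Agent.S20

open UpperHalfPlane ModularForm Matrix.SpecialLinearGroup CongruenceSubgroup Filter
open scoped MatrixGroups ModularForm Manifold Real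

local notation "Δ" => ModularForm.discriminant

/-- the upper triangular matrix `[[a, b], [0, d]]` in `GL(2, ℝ)`, for `a, d > 0` -/
noncomputable def upperGL (a b d : ℝ) (ha : 0 < a) (hd : 0 < d) : GL (Fin 2) ℝ :=
  Matrix.GeneralLinearGroup.mkOfDetNeZero !![a, b; 0, d]
    (by simp [Matrix.det_fin_two]; exact ⟨ha.ne', hd.ne'⟩)

section upper

variable (a b d : ℝ) (ha : 0 < a) (hd : 0 < d)

@[simp] theorem upperGL_apply_zero_zero : (upperGL a b d ha hd) 0 0 = a := rfl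
@[simp] theorem upperGL_apply_zero_one : (upperGL a b d ha hd) 0 1 = b := rfl
@[simp] theorem upperGL_apply_one_zero : (upperGL a b d ha hd) 1 0 = 0 := rfl
@[simp] theorem upperGL_apply_one_one : (upperGL a b d ha hd) 1 1 = d := rfl

theorem upperGL_det : (upperGL a b d ha hd).det.val = a * d := by
  simp [upperGL, Matrix.GeneralLinearGroup.mkOfDetNeZero, Matrix.det_fin_two]

theorem upperGL_det_pos : 0 < (upperGL a b d ha hd).det.val := by
  rw [upperGL_det]; positivity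

theorem upperGL_denom (z : ℂ) : denom (upperGL a b d ha hd) z = d := by
  simp [denom]

theorem upperGL_num (z : ℂ) : num (upperGL a b d ha hd) z = a * z + b := by
  simp [num]

theorem upperGL_coe_smul (τ : ℍ) :
    ((upperGL a b d ha hd • τ : ℍ) : ℂ) = (a * τ + b) / d := by
  rw [coe_smul_of_det_pos (upperGL_det_pos a b d ha hd), upperGL_num, upperGL_denom]

theorem upperGL_im_smul (τ : ℍ) :
    (upperGL a b d ha hd • τ).im = a / d * τ.im := by
  rw [im_smul_eq_div_normSq, upperGL_det, upperGL_denom, abs_of_pos (mul_pos ha hd)]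
  simp only [Complex.normSq_ofReal]
  field_simp

theorem upperGL_σ (z : ℂ) : σ (upperGL a b d ha hd) z = z := by
  unfold σ
  rw [if_pos (upperGL_det_pos a b d ha hd)]
  rfl

theorem slash_upperGL (k : ℤ) (f : ℍ → ℂ) (τ : ℍ) :
    (f ∣[k] upperGL a b d ha hd) τ =
      f (upperGL a b d ha hd • τ) * ((a * d : ℝ) : ℂ) ^ (k - 1) * (d : ℂ) ^ (-k) := by
  rw [ModularForm.slash_apply, upperGL_σ, upperGL_denom, upperGL_det,
    abs_of_pos (mul_pos ha hd)]

theorem tendsto_upperGL_smul :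
    Tendsto (fun τ : ℍ => upperGL a b d ha hd • τ) atImInfty atImInfty :=
  tendsto_smul_atImInfty (by simp)

end upper

section hnf

/-- Bezout-type coprimality used for the Hermite normal form -/
theorem isCoprime_hnf_aux {a d y p q s m n : ℤ} (ha : a ≠ 0)
    (hbez : a * d * m + a * y * n = a) (hdet : p * s - q * (a * y) = 1) :
    IsCoprime (d * p) y := by
  have h1 : d * m + y * n = 1 := by
    apply mul_left_cancel₀ ha
    linear_combination hbez
  refine ⟨m * s, -(d * m * q * a) + n * (p * s - q * a * y), ?_⟩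
  linear_combination (p * s - q * a * y) * h1 + hdet

/-- Hermite normal form of `diag(N,1) * γ` for `γ ∈ SL(2,ℤ)`: integer version. -/
theorem exists_hnf_int (N : ℕ) [NeZero N] (γ : SL(2, ℤ)) :
    ∃ (γ' : SL(2, ℤ)) (a d : ℕ) (b : ℤ), 0 < a ∧ 0 < d ∧ a * d = N ∧
      a = Int.gcd N (γ 1 0) ∧
      (γ' 0 0 * a = N * γ 0 0) ∧ (γ' 1 0 * a = γ 1 0) ∧
      (γ' 0 0 * b + γ' 0 1 * d = N * γ 0 1) ∧ (γ' 1 0 * b + γ' 1 1 * d = γ 1 1) := by
  set p := γ 0 0 with hp
  set q := γ 0 1 with hq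
  set r := γ 1 0 with hr
  set s := γ 1 1 with hs
  have hdet : p * s - q * r = 1 := by
    have := γ.det_coe
    rw [Matrix.det_fin_two] at this
    exact this
  set a : ℕ := Int.gcd N r with ha
  have hN0 : (N : ℤ) ≠ 0 := by exact_mod_cast NeZero.ne N
  have ha0 : 0 < a := Int.gcd_pos_of_ne_zero_left _ hN0
  have haN : (a : ℤ) ∣ N := Int.gcd_dvd_left _ _
  have har : (a : ℤ) ∣ r := Int.gcd_dvd_right _ _
  obtain ⟨d', hd'⟩ := haN
  obtain ⟨y, hy⟩ := har
  have haz : (a : ℤ) ≠ 0 := by exact_mod_cast ha0.ne'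
  have hd'pos : 0 < d' := by
    have hNpos : (0 : ℤ) < N := by exact_mod_cast NeZero.pos N
    have hapos : (0 : ℤ) < a := by exact_mod_cast ha0
    rw [hd'] at hNpos
    by_contra hcon
    have hcon' := not_lt.mp hcon
    nlinarith
  obtain ⟨d, rfl⟩ := Int.eq_ofNat_of_zero_le hd'pos.le
  have hbez : (a : ℤ) * d * (Int.gcdA N r) + a * y * (Int.gcdB N r) = a := by
    have := Int.gcd_eq_gcd_ab (N : ℤ) r
    rw [← ha] at this
    rw [← hd', ← hy]
    exact this.symm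
  have hdet' : p * s - q * (a * y) = 1 := by rw [← hy]; exact hdet
  have hcop : IsCoprime ((d : ℤ) * p) y := isCoprime_hnf_aux haz hbez hdet'
  obtain ⟨γ', h00, h10⟩ := hcop.exists_SL2_col 0
  have hdet2 : γ' 0 0 * γ' 1 1 - γ' 0 1 * γ' 1 0 = 1 := by
    have := γ'.det_coe
    rw [Matrix.det_fin_two] at this
    exact this
  rw [h00, h10] at hdet2
  refine ⟨γ', a, d, γ' 1 1 * N * q - γ' 0 1 * s, ha0, by exact_mod_cast hd'pos, ?_, rfl,
    ?_, ?_, ?_, ?_⟩
  · exact_mod_cast hd'.symm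
  · rw [h00, hd']; ring
  · rw [h10, hy]; ring
  · rw [h00, hd']
    linear_combination ((a : ℤ) * d * q) * hdet2 - (γ' 0 1 * d) * hdet' 
  · rw [h10, hd']
    linear_combination (s) * hdet2 - (γ' 1 1 * d) * hdet'

/-- `diag(N, 1)` as an element of `GL(2, ℝ)` -/
noncomputable def diagN (N : ℕ) [NeZero N] : GL (Fin 2) ℝ :=
  upperGL N 0 1 (Nat.cast_pos.mpr (NeZero.pos N)) one_pos

/-- Hermite normal form of `diag(N,1) * γ` for `γ ∈ SL(2,ℤ)`, in `GL(2, ℝ)`. -/
theorem exists_hnf (N : ℕ) [NeZero N] (γ : SL(2, ℤ)) :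
    ∃ (γ' : SL(2, ℤ)) (a d : ℕ) (b : ℤ) (ha : 0 < (a : ℝ)) (hd : 0 < (d : ℝ)), a * d = N ∧
      a = Int.gcd N (γ 1 0) ∧
      diagN N * mapGL ℝ γ = mapGL ℝ γ' * upperGL a b d ha hd := by
  obtain ⟨γ', a, d, b, ha, hd, had, hgcd, h1, h2, h3, h4⟩ := exists_hnf_int N γ
  refine ⟨γ', a, d, b, Nat.cast_pos.mpr ha, Nat.cast_pos.mpr hd, had, hgcd, ?_⟩
  apply Matrix.GeneralLinearGroup.ext
  intro i j
  have e1 : ((γ' 0 0 : ℤ) : ℝ) * a = N * (γ 0 0 : ℤ) := by exact_mod_cast h1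
  have e2 : ((γ' 1 0 : ℤ) : ℝ) * a = (γ 1 0 : ℤ) := by exact_mod_cast h2
  have e3 : ((γ' 0 0 : ℤ) : ℝ) * b + (γ' 0 1 : ℤ) * d = N * (γ 0 1 : ℤ) := by exact_mod_cast h3
  have e4 : ((γ' 1 0 : ℤ) : ℝ) * b + (γ' 1 1 : ℤ) * d = (γ 1 1 : ℤ) := by exact_mod_cast h4
  fin_cases i <;> fin_cases j <;>
    simp [diagN, Matrix.mul_apply, Fin.sum_univ_two, e1, e2, e3, e4]

end hnf

section DeltaN

variable (N : ℕ) [NeZero N]

/-- The function `Δ ∣[12] diag(N,1)`, i.e. `τ ↦ N ^ 11 * Δ (N τ)`. -/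
noncomputable def DeltaN : ℍ → ℂ := Δ ∣[(12 : ℤ)] diagN N

theorem DeltaN_apply (τ : ℍ) :
    DeltaN N τ = Δ (diagN N • τ) * (N : ℂ) ^ (11 : ℕ) := by
  unfold DeltaN diagN
  rw [slash_upperGL]
  simp

theorem discriminant_slash_SL (γ : SL(2, ℤ)) : Δ ∣[(12 : ℤ)] (mapGL ℝ γ) = Δ :=
  (CuspForm.discriminant).slash_action_eq' _ ⟨γ, rfl⟩

theorem mdiff_discriminant : MDiff (Δ : ℍ → ℂ) := (CuspForm.discriminant).holo'

/-- slashing `Δ` by an upper triangular matrix gives something tending to `0` at `i∞` -/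
theorem isZeroAtImInfty_discriminant_slash_upperGL (a b d : ℝ) (ha : 0 < a) (hd : 0 < d) :
    IsZeroAtImInfty (Δ ∣[(12 : ℤ)] upperGL a b d ha hd) := by
  have h1 : Tendsto (fun τ : ℍ => Δ (upperGL a b d ha hd • τ)) atImInfty (nhds 0) :=
    ModularForm.discriminant_isZeroAtImInfty.comp (tendsto_upperGL_smul a b d ha hd)
  have h2 := (h1.mul_const (((a * d : ℝ) : ℂ) ^ ((12 : ℤ) - 1))).mul_const ((d : ℂ) ^ (-(12 : ℤ)))
  simp only [zero_mul] at h2
  refine h2.congr fun τ => ?_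
  rw [slash_upperGL]

/-- the slash of `DeltaN` by `γ ∈ SL(2,ℤ)` is a slash of `Δ` by an upper triangular matrix -/
theorem DeltaN_slash_eq (γ : SL(2, ℤ)) :
    ∃ (a d : ℕ) (b : ℤ) (ha : 0 < (a : ℝ)) (hd : 0 < (d : ℝ)), a * d = N ∧
      a = Int.gcd N (γ 1 0) ∧
      DeltaN N ∣[(12 : ℤ)] γ = Δ ∣[(12 : ℤ)] upperGL a b d ha hd := by
  obtain ⟨γ', a, d, b, ha, hd, had, hgcd, h⟩ := exists_hnf N γ
  refine ⟨a, d, b, ha, hd, had, hgcd, ?_⟩
  have h1 : DeltaN N ∣[(12 : ℤ)] γ = Δ ∣[(12 : ℤ)] (diagN N * mapGL ℝ γ) := by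
    unfold DeltaN
    rw [SL_slash, ← SlashAction.slash_mul]
    rfl
  rw [h1, h, SlashAction.slash_mul, discriminant_slash_SL]

omit [NeZero N] in
theorem Gamma0_dvd {γ : SL(2, ℤ)} : γ ∈ Gamma0 N ↔ (N : ℤ) ∣ γ 1 0 := by
  rw [Gamma0_mem, ZMod.intCast_zmod_eq_zero_iff_dvd]

theorem DeltaN_slash_of_mem {γ : SL(2, ℤ)} (hγ : γ ∈ Gamma0 N) :
    DeltaN N ∣[(12 : ℤ)] γ = DeltaN N := by
  obtain ⟨a, d, b, ha, hd, had, hgcd, h⟩ := DeltaN_slash_eq N γ
  have hdvd := (Gamma0_dvd N).mp hγ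
  have haN : a = N := by
    apply Nat.dvd_antisymm
    · exact Dvd.intro _ had
    · have h1 : (N : ℤ) ∣ ((Int.gcd (N : ℤ) (γ 1 0) : ℕ) : ℤ) := Int.dvd_coe_gcd dvd_rfl hdvd
      rw [← hgcd] at h1
      exact_mod_cast h1
  have hd1 : d = 1 := by
    subst haN
    have : a * d = a * 1 := by rw [had, mul_one]
    exact Nat.eq_of_mul_eq_mul_left (Nat.pos_of_ne_zero (NeZero.ne a)) this
  subst haN hd1
  rw [h]
  -- `upperGL a b 1 = T ^ b * diagN a`
  obtain ⟨Tb, t00, t01, t10, t11⟩ : ∃ Tb : SL(2, ℤ),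
      Tb 0 0 = 1 ∧ Tb 0 1 = b ∧ Tb 1 0 = 0 ∧ Tb 1 1 = 1 :=
    ⟨⟨!![1, b; 0, 1], by simp [Matrix.det_fin_two]⟩, rfl, rfl, rfl, rfl⟩
  have hU : upperGL (a : ℝ) b ((1 : ℕ) : ℝ) ha hd = mapGL ℝ Tb * diagN a := by
    apply Matrix.GeneralLinearGroup.ext
    intro i j
    fin_cases i <;> fin_cases j <;>
      simp [diagN, Matrix.mul_apply, Fin.sum_univ_two, t00, t01, t10, t11]
  rw [hU, SlashAction.slash_mul, discriminant_slash_SL]
  rfl

theorem isCF_DeltaN : IsCF N 12 (DeltaN N) := by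
  rw [isCF_iff]
  refine ⟨mdiff_discriminant.slash 12 _, fun γ hγ => DeltaN_slash_of_mem N hγ, fun γ => ?_⟩
  obtain ⟨a, d, b, ha, hd, -, -, h⟩ := DeltaN_slash_eq N γ
  rw [h]
  exact isZeroAtImInfty_discriminant_slash_upperGL _ _ _ ha hd

/-- D1 -/
theorem isMF_DeltaN : IsMF N 12 (DeltaN N) := (isCF_DeltaN N).isMF

end DeltaN

section asymptotics

theorem discriminant_isBigO_exp :
    (Δ : ℍ → ℂ) =O[atImInfty] fun τ : ℍ => Real.exp (-2 * π * τ.im) := by
  have h := CuspFormClass.exp_decay_atImInfty (h := 1) CuspForm.discriminant one_pos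
    one_mem_strictPeriods_SL
  simpa using h

theorem exp_isBigO_discriminant_slash_upperGL (a b d : ℝ) (ha : 0 < a) (hd : 0 < d) :
    (fun τ : ℍ => Real.exp (-2 * π * (a / d * τ.im))) =O[atImInfty]
      (Δ ∣[(12 : ℤ)] upperGL a b d ha hd) := by
  have h1 := ModularForm.exp_isBigO_discriminant.comp_tendsto (tendsto_upperGL_smul a b d ha hd)
  have h2 : (fun τ : ℍ => Real.exp (-2 * π * (a / d * τ.im))) =
      ((fun τ : ℍ => Real.exp (-2 * π * τ.im)) ∘ fun τ : ℍ => upperGL a b d ha hd • τ) := by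
    funext τ
    simp only [Function.comp_apply, upperGL_im_smul]
  rw [h2]
  refine h1.trans ?_
  set c : ℂ := ((a * d : ℝ) : ℂ) ^ ((12 : ℤ) - 1) * (d : ℂ) ^ (-(12 : ℤ)) with hc
  have hc0 : c ≠ 0 := by
    have h3 : ((a * d : ℝ) : ℂ) ≠ 0 := by
      exact_mod_cast (mul_pos ha hd).ne'
    have h4 : (d : ℂ) ≠ 0 := by exact_mod_cast hd.ne'
    exact mul_ne_zero (zpow_ne_zero _ h3) (zpow_ne_zero _ h4)
  have h5 : (Δ ∣[(12 : ℤ)] upperGL a b d ha hd) =
      fun τ : ℍ => c * (Δ ∘ fun τ : ℍ => upperGL a b d ha hd • τ) τ := by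
    funext τ
    rw [slash_upperGL, hc, Function.comp_apply]
    ring
  rw [h5]
  exact Asymptotics.isBigO_self_const_mul hc0 _ _

theorem discriminant_slash_upperGL_isBigO_exp (a b d : ℝ) (ha : 0 < a) (hd : 0 < d) :
    (Δ ∣[(12 : ℤ)] upperGL a b d ha hd) =O[atImInfty]
      (fun τ : ℍ => Real.exp (-2 * π * (a / d * τ.im))) := by
  have h1 := discriminant_isBigO_exp.comp_tendsto (tendsto_upperGL_smul a b d ha hd)
  have h2 : (fun τ : ℍ => Real.exp (-2 * π * (a / d * τ.im))) =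
      ((fun τ : ℍ => Real.exp (-2 * π * τ.im)) ∘ fun τ : ℍ => upperGL a b d ha hd • τ) := by
    funext τ
    simp only [Function.comp_apply, upperGL_im_smul]
  rw [h2]
  refine Asymptotics.IsBigO.trans ?_ h1
  set c : ℂ := ((a * d : ℝ) : ℂ) ^ ((12 : ℤ) - 1) * (d : ℂ) ^ (-(12 : ℤ)) with hc
  have h5 : (Δ ∣[(12 : ℤ)] upperGL a b d ha hd) =
      fun τ : ℍ => c * (Δ ∘ fun τ : ℍ => upperGL a b d ha hd • τ) τ := by
    funext τ
    rw [slash_upperGL, hc, Function.comp_apply]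
    ring
  rw [h5]
  exact Asymptotics.isBigO_const_mul_self c _ _

/-- exponentials with different rates are not comparable -/
theorem not_exp_isBigO_exp {α β : ℝ} (h : α < β) :
    ¬ ((fun τ : ℍ => Real.exp (-2 * π * (α * τ.im))) =O[atImInfty]
      (fun τ : ℍ => Real.exp (-2 * π * (β * τ.im)))) := by
  intro hO
  obtain ⟨C, hCpos, hC⟩ := hO.exists_pos
  rw [Asymptotics.isBigOWith_iff] at hC
  obtain ⟨A, hA⟩ := (atImInfty_mem _).mp hC
  -- choose `y` large
  set y : ℝ := max (max A 1) ((Real.log C + 1) / (2 * π * (β - α))) with hy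
  have hy1 : 1 ≤ y := le_trans (le_max_right A 1) (le_max_left _ _)
  have hyA : A ≤ y := le_trans (le_max_left A 1) (le_max_left _ _)
  have hy0 : 0 < y := lt_of_lt_of_le one_pos hy1
  have hβα : 0 < 2 * π * (β - α) := by
    have := Real.pi_pos
    have := sub_pos.mpr h
    positivity
  have hylog : Real.log C + 1 ≤ 2 * π * (β - α) * y := by
    have h1 : (Real.log C + 1) / (2 * π * (β - α)) ≤ y := le_max_right _ _
    rwa [div_le_iff₀ hβα, mul_comm] at h1
  let τ : ℍ := ⟨⟨0, y⟩, hy0⟩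
  have hτ : τ.im = y := rfl
  have h1 := hA τ (by rw [hτ]; exact hyA)
  simp only [Set.mem_ofPred_eq, Real.norm_eq_abs, abs_of_pos (Real.exp_pos _), hτ] at h1
  -- `exp(-2παy) ≤ C exp(-2πβy)` so `exp(2π(β-α)y) ≤ C`
  have h2 : Real.exp (2 * π * (β - α) * y) ≤ C := by
    have h3 : Real.exp (2 * π * (β - α) * y) =
        Real.exp (-2 * π * (α * y)) * Real.exp (2 * π * (β * y)) := by
      rw [← Real.exp_add]; congr 1; ring
    rw [h3]
    calc Real.exp (-2 * π * (α * y)) * Real.exp (2 * π * (β * y))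
        ≤ (C * Real.exp (-2 * π * (β * y))) * Real.exp (2 * π * (β * y)) :=
          mul_le_mul_of_nonneg_right h1 (Real.exp_pos _).le
      _ = C * (Real.exp (-2 * π * (β * y)) * Real.exp (2 * π * (β * y))) := by ring
      _ = C := by
          rw [← Real.exp_add]
          have : -2 * π * (β * y) + 2 * π * (β * y) = 0 := by ring
          rw [this, Real.exp_zero, mul_one]
  have h4 : Real.exp (Real.log C + 1) ≤ C := le_trans (Real.exp_le_exp.mpr hylog) h2
  rw [Real.exp_add, Real.exp_log hCpos] at h4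
  have h5 : (1 : ℝ) < Real.exp 1 := by
    have := Real.add_one_lt_exp (one_ne_zero)
    linarith
  nlinarith

end asymptotics

section DeltaN2

variable (N : ℕ) [NeZero N]

/-- D2: the stabiliser of `DeltaN N` in `SL(2,ℤ)` is contained in `Γ₀(N)`. -/
theorem DeltaN_slash_ne {g : SL(2, ℤ)} (hg : g ∉ Gamma0 N) :
    DeltaN N ∣[(12 : ℤ)] g ≠ DeltaN N := by
  intro heq
  obtain ⟨a, d, b, ha, hd, had, hgcd, h⟩ := DeltaN_slash_eq N g
  have hN : (0 : ℝ) < N := Nat.cast_pos.mpr (NeZero.pos N)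
  -- `a < N`
  have haN : a ≠ N := by
    intro haN
    apply hg
    rw [Gamma0_dvd]
    have h1 : ((Int.gcd (N : ℤ) (g 1 0) : ℕ) : ℤ) ∣ g 1 0 := Int.gcd_dvd_right _ _
    rw [← hgcd, haN] at h1
    exact h1
  have haleN : a ≤ N := Nat.le_of_dvd (NeZero.pos N) (Dvd.intro _ had)
  have haltN : a < N := lt_of_le_of_ne haleN haN
  have hd1 : 1 ≤ d := by
    have : 0 < d := by exact_mod_cast hd
    omega
  have hrate : (a : ℝ) / d < (N : ℝ) / 1 := by
    rw [div_one]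
    have h1 : (a : ℝ) / d ≤ a := div_le_self ha.le (by exact_mod_cast hd1)
    have h2 : (a : ℝ) < N := by exact_mod_cast haltN
    linarith
  apply not_exp_isBigO_exp hrate
  have h1 := exp_isBigO_discriminant_slash_upperGL a b d ha hd
  rw [← h, heq] at h1
  exact h1.trans (discriminant_slash_upperGL_isBigO_exp N 0 1 hN one_pos)

/-- distinct cosets give distinct conjugates of `DeltaN` -/
theorem DeltaN_slash_eq_iff (g g' : SL(2, ℤ)) :
    DeltaN N ∣[(12 : ℤ)] g = DeltaN N ∣[(12 : ℤ)] g' ↔ g * g'⁻¹ ∈ Gamma0 N := by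
  constructor
  · intro h
    by_contra hcon
    apply DeltaN_slash_ne N hcon
    rw [SlashAction.slash_mul, h, ← SlashAction.slash_mul, mul_inv_cancel, SlashAction.slash_one]
  · intro h
    have := DeltaN_slash_of_mem N h
    rw [SlashAction.slash_mul] at this
    have h2 := congrArg (fun f => f ∣[(12 : ℤ)] g') this
    simp only [← SlashAction.slash_mul, inv_mul_cancel_right] at h2
    exact h2

end DeltaN2



end Fermat.Agent.S20
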