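import Fermat.Agent.S20.Div

/-!
# S20 helper: level one forms lie in the ideal `(E₄, E₆)` in nonzero weight
-/

set_option autoImplicit false
set_option linter.unusedSectionVars false

namespace Fermat.Agent.S20

open UpperHalfPlane ModularForm Matrix.SpecialLinearGroup Filter Topology
open scoped MatrixGroups ModularForm Manifold

variable {k m : ℤ} {f r : ℍ → ℂ}

theorem IsMF1.exists_tendsto (hf : IsMF1 k f) : ∃ c : ℂ, Tendsto f atImInfty (𝓝 c) := by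
  obtain ⟨F, rfl⟩ := hf
  exact ⟨_, tendsto_atImInfty_of_levelOne F⟩

theorem IsMF1.isCF1_of_tendsto_zero (hf : IsMF1 k f) (h0 : Tendsto f atImInfty (𝓝 0)) :
    IsCF1 k f := by
  obtain ⟨h1, h2, -⟩ := isMF1_iff.mp hf
  exact isCF1_iff.mpr ⟨h1, h2, h0⟩

/-- A level one cusp form is `Δ` times a level one form. -/
theorem IsCF1.exists_eq_Delta_mul (hf : IsCF1 k f) :
    ∃ g : ℍ → ℂ, IsMF1 (k - 12) g ∧ f = discriminant * g := by
  obtain ⟨F, rfl⟩ := hf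
  exact ⟨CuspForm.discriminantEquiv F, ⟨_, rfl⟩, (discriminant_mul_discriminantEquiv F).symm⟩

theorem Delta_eq : (discriminant : ℍ → ℂ) =
    (E₄ : ℍ → ℂ) * ((1 / 1728 : ℂ) • ((E₄ : ℍ → ℂ) * E₄)) +
      (E₆ : ℍ → ℂ) * ((-1 / 1728 : ℂ) • (E₆ : ℍ → ℂ)) := by
  funext τ
  rw [discriminant_eq_E₄_cube_sub_E₆_sq]
  simp only [Pi.add_apply, Pi.mul_apply, Pi.smul_apply, smul_eq_mul]
  ring

theorem IsMF1.eq_zero_of_weight_two (hf : IsMF1 2 f) : f = 0 := by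
  obtain ⟨F, rfl⟩ := hf
  have := rank_zero_iff_forall_zero.mp levelOne_weight_two_rank_zero F
  rw [this]
  rfl

theorem tendsto_E4_pow (x : ℕ) : Tendsto ((E₄ : ℍ → ℂ) ^ x) atImInfty (𝓝 1) := by
  have := tendsto_E4.pow x
  rw [one_pow] at this
  exact this

theorem isMF1_E4_pow (x : ℕ) : IsMF1 (4 * x) ((E₄ : ℍ → ℂ) ^ x) := by
  have := isMF1_E4.pow x
  rwa [mul_comm] at this

/-- In nonzero weight, every level one form lies in the ideal generated by `E₄` and `E₆`. -/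
theorem IsMF1.exists_eq_E4_mul_add_E6_mul (hr : IsMF1 m r) (hm : m ≠ 0) :
    ∃ a b : ℍ → ℂ, IsMF1 (m - 4) a ∧ IsMF1 (m - 6) b ∧
      r = (E₄ : ℍ → ℂ) * a + (E₆ : ℍ → ℂ) * b := by
  have hzero : r = 0 → ∃ a b : ℍ → ℂ, IsMF1 (m - 4) a ∧ IsMF1 (m - 6) b ∧
      r = (E₄ : ℍ → ℂ) * a + (E₆ : ℍ → ℂ) * b := fun h =>
    ⟨0, 0, isMF1_zero, isMF1_zero, by simp [h]⟩
  rcases lt_or_gt_of_ne hm with hneg | hpos
  · exact hzero (hr.eq_zero_of_neg hneg)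
  rcases Int.even_or_odd m with hev | hodd
  swap
  · exact hzero (hr.eq_zero_of_odd hodd)
  obtain ⟨t, ht⟩ := hev
  have ht1 : 1 ≤ t := by omega
  rcases eq_or_lt_of_le ht1 with h1 | h2
  · have : m = 2 := by omega
    subst this
    exact hzero hr.eq_zero_of_weight_two
  -- now `m = 2 t` with `t ≥ 2`
  obtain ⟨c, hc⟩ := hr.exists_tendsto
  -- the common tail
  have key : ∀ M : ℍ → ℂ, IsMF1 m M → Tendsto M atImInfty (𝓝 1) →
      ∃ g : ℍ → ℂ, IsMF1 (m - 12) g ∧ r = c • M + discriminant * g := by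
    intro M hM hMlim
    have hd : IsMF1 m (r - c • M) := hr.sub (hM.smul c)
    have hlim : Tendsto (r - c • M) atImInfty (𝓝 0) := by
      have := hc.sub (hMlim.const_smul c)
      rw [smul_eq_mul, mul_one, sub_self] at this
      exact this
    obtain ⟨g, hg, hgeq⟩ := (hd.isCF1_of_tendsto_zero hlim).exists_eq_Delta_mul
    exact ⟨g, hg, by rw [← hgeq]; abel⟩
  have hg4 : ∀ g : ℍ → ℂ, IsMF1 (m - 12) g →
      IsMF1 (m - 4) ((1 / 1728 : ℂ) • ((E₄ : ℍ → ℂ) * E₄) * g) := fun g hg =>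
    (((isMF1_E4.mul isMF1_E4).smul _).mul' hg (by ring))
  have hg6 : ∀ g : ℍ → ℂ, IsMF1 (m - 12) g →
      IsMF1 (m - 6) ((-1 / 1728 : ℂ) • (E₆ : ℍ → ℂ) * g) := fun g hg =>
    ((isMF1_E6.smul _).mul' hg (by ring))
  rcases Int.even_or_odd t with ⟨s, hs⟩ | ⟨s, hs⟩
  · -- `m = 4 s`, `s ≥ 1`
    have hs1 : 1 ≤ s := by omega
    obtain ⟨x, hx⟩ : ∃ x : ℕ, s = x + 1 := ⟨(s - 1).toNat, by omega⟩
    have hM : IsMF1 m ((E₄ : ℍ → ℂ) ^ (x + 1)) := by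
      have := isMF1_E4_pow (x + 1)
      have hm' : m = 4 * ((x + 1 : ℕ) : ℤ) := by push_cast; omega
      rwa [← hm'] at this
    obtain ⟨g, hg, hreq⟩ := key _ hM (tendsto_E4_pow _)
    refine ⟨c • (E₄ : ℍ → ℂ) ^ x + (1 / 1728 : ℂ) • ((E₄ : ℍ → ℂ) * E₄) * g,
      (-1 / 1728 : ℂ) • (E₆ : ℍ → ℂ) * g, ?_, hg6 g hg, ?_⟩
    · refine IsMF1.add ?_ (hg4 g hg)
      have := (isMF1_E4_pow x).smul c
      have hm' : m - 4 = 4 * (x : ℤ) := by omega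
      rwa [← hm'] at this
    · rw [hreq]
      conv_lhs => rw [Delta_eq]
      funext τ
      simp only [Pi.add_apply, Pi.mul_apply, Pi.smul_apply, smul_eq_mul, Pi.pow_apply]
      ring
  · -- `m = 4 s + 2`, `s ≥ 1`
    have hs1 : 1 ≤ s := by omega
    obtain ⟨x, hx⟩ : ∃ x : ℕ, s = x + 1 := ⟨(s - 1).toNat, by omega⟩
    have hM : IsMF1 m ((E₆ : ℍ → ℂ) * (E₄ : ℍ → ℂ) ^ x) := by
      refine isMF1_E6.mul' (isMF1_E4_pow x) ?_
      omega
    have hMlim : Tendsto ((E₆ : ℍ → ℂ) * (E₄ : ℍ → ℂ) ^ x) atImInfty (𝓝 1) := by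
      have := tendsto_E6.mul (tendsto_E4_pow x)
      rw [one_mul] at this
      exact this
    obtain ⟨g, hg, hreq⟩ := key _ hM hMlim
    refine ⟨(1 / 1728 : ℂ) • ((E₄ : ℍ → ℂ) * E₄) * g,
      c • (E₄ : ℍ → ℂ) ^ x + (-1 / 1728 : ℂ) • (E₆ : ℍ → ℂ) * g, hg4 g hg, ?_, ?_⟩
    · refine IsMF1.add ?_ (hg6 g hg)
      have := (isMF1_E4_pow x).smul c
      have hm' : m - 6 = 4 * (x : ℤ) := by omega
      rwa [← hm'] at this
    · rw [hreq]
      conv_lhs => rw [Delta_eq]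
      funext τ
      simp only [Pi.add_apply, Pi.mul_apply, Pi.smul_apply, smul_eq_mul, Pi.pow_apply]
      ring

end Fermat.Agent.S20
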