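import Fermat.Agent.S20.LevelOne

/-!
# S20 package N: homogenizers

Level one forms of prescribed weight with value `1` at a given point, resp. limit `1` at `i∞`.
-/

set_option autoImplicit false
set_option linter.unusedSectionVars false

namespace Fermat.Agent.S20

open UpperHalfPlane ModularForm Matrix.SpecialLinearGroup Filter Topology
open scoped MatrixGroups ModularForm Manifold

/-- An even integer which is `0` or `≥ 4` is of the form `4a + 6b`. -/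
theorem exists_four_six {m : ℤ} (hm : Even m) (hm' : m = 0 ∨ 4 ≤ m) :
    ∃ a b : ℕ, m = a * 4 + b * 6 := by
  obtain ⟨t, ht⟩ := hm
  rcases hm' with h0 | h4
  · exact ⟨0, 0, by simp [h0]⟩
  · -- `m = 2 t`, `t ≥ 2`
    have ht2 : 2 ≤ t := by omega
    rcases Int.emod_two_eq_zero_or_one t with h | h
    · -- `t` even: `m = 4 (t / 2)`
      refine ⟨(t / 2).toNat, 0, ?_⟩
      have : ((t / 2).toNat : ℤ) = t / 2 := Int.toNat_of_nonneg (by omega)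
      rw [this]
      omega
    · -- `t` odd, `t ≥ 3`: `m = 4 ((t - 3) / 2) + 6`
      refine ⟨((t - 3) / 2).toNat, 1, ?_⟩
      have : (((t - 3) / 2).toNat : ℤ) = (t - 3) / 2 := Int.toNat_of_nonneg (by omega)
      rw [this]
      omega

/-- The monomial `E₄ ^ a * E₆ ^ b` is a level one form of weight `4 a + 6 b`. -/
theorem isMF1_E4_pow_mul_E6_pow (a b : ℕ) :
    IsMF1 ((a : ℤ) * 4 + b * 6) ((E₄ : ℍ → ℂ) ^ a * (E₆ : ℍ → ℂ) ^ b) :=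
  (isMF1_E4.pow a).mul (isMF1_E6.pow b)

theorem tendsto_E4_pow_mul_E6_pow (a b : ℕ) :
    Tendsto ((E₄ : ℍ → ℂ) ^ a * (E₆ : ℍ → ℂ) ^ b) atImInfty (𝓝 1) := by
  have := (tendsto_E4.pow a).mul (tendsto_E6.pow b)
  simp only [one_pow, mul_one] at this
  exact this

/-- **N(a)**: homogenizer of even weight `m = 0` or `m ≥ 4` at a point where `E₄ E₆ ≠ 0`. -/
theorem exists_homogenizer {m : ℤ} (hm : Even m) (hm' : m = 0 ∨ 4 ≤ m) {τ₀ : ℍ}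
    (h4 : E₄ τ₀ ≠ 0) (h6 : E₆ τ₀ ≠ 0) : ∃ ρ : ℍ → ℂ, IsMF1 m ρ ∧ ρ τ₀ = 1 := by
  obtain ⟨a, b, rfl⟩ := exists_four_six hm hm'
  have hne : E₄ τ₀ ^ a * E₆ τ₀ ^ b ≠ 0 := mul_ne_zero (pow_ne_zero a h4) (pow_ne_zero b h6)
  refine ⟨(E₄ τ₀ ^ a * E₆ τ₀ ^ b)⁻¹ • ((E₄ : ℍ → ℂ) ^ a * (E₆ : ℍ → ℂ) ^ b),
    (isMF1_E4_pow_mul_E6_pow a b).smul _, ?_⟩
  simp only [Pi.smul_apply, Pi.mul_apply, Pi.pow_apply, smul_eq_mul]
  exact inv_mul_cancel₀ hne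

/-- **N(b)**: homogenizer of weight divisible by `4` at a point where `E₄ ≠ 0`. -/
theorem exists_homogenizer_four {m : ℤ} (hm : (4 : ℤ) ∣ m) (h0 : 0 ≤ m) {τ₀ : ℍ}
    (h4 : E₄ τ₀ ≠ 0) : ∃ ρ : ℍ → ℂ, IsMF1 m ρ ∧ ρ τ₀ = 1 := by
  obtain ⟨t, rfl⟩ := hm
  have ht : 0 ≤ t := by omega
  lift t to ℕ using ht
  have hne : E₄ τ₀ ^ t ≠ 0 := pow_ne_zero t h4
  refine ⟨(E₄ τ₀ ^ t)⁻¹ • ((E₄ : ℍ → ℂ) ^ t), ?_, ?_⟩
  · have := (isMF1_E4.pow t).smul (E₄ τ₀ ^ t)⁻¹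
    rwa [mul_comm] at this
  · simp only [Pi.smul_apply, Pi.pow_apply, smul_eq_mul]
    exact inv_mul_cancel₀ hne

/-- **N(c)**: homogenizer of weight divisible by `6` at a point where `E₆ ≠ 0`. -/
theorem exists_homogenizer_six {m : ℤ} (hm : (6 : ℤ) ∣ m) (h0 : 0 ≤ m) {τ₀ : ℍ}
    (h6 : E₆ τ₀ ≠ 0) : ∃ ρ : ℍ → ℂ, IsMF1 m ρ ∧ ρ τ₀ = 1 := by
  obtain ⟨t, rfl⟩ := hm
  have ht : 0 ≤ t := by omega
  lift t to ℕ using ht
  have hne : E₆ τ₀ ^ t ≠ 0 := pow_ne_zero t h6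
  refine ⟨(E₆ τ₀ ^ t)⁻¹ • ((E₆ : ℍ → ℂ) ^ t), ?_, ?_⟩
  · have := (isMF1_E6.pow t).smul (E₆ τ₀ ^ t)⁻¹
    rwa [mul_comm] at this
  · simp only [Pi.smul_apply, Pi.pow_apply, smul_eq_mul]
    exact inv_mul_cancel₀ hne

/-- **N(d)**: homogenizer of even weight `m = 0` or `m ≥ 4` at the cusp. -/
theorem exists_homogenizer_cusp {m : ℤ} (hm : Even m) (hm' : m = 0 ∨ 4 ≤ m) :
    ∃ ρ : ℍ → ℂ, IsMF1 m ρ ∧ Tendsto ρ atImInfty (𝓝 1) := by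
  obtain ⟨a, b, rfl⟩ := exists_four_six hm hm'
  exact ⟨_, isMF1_E4_pow_mul_E6_pow a b, tendsto_E4_pow_mul_E6_pow a b⟩

end Fermat.Agent.S20
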