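import Mathlib
import Fermat.Agent.S20.Vec
import Fermat.Agent.S20.Perm
import Fermat.Agent.S20.Div
import Fermat.Agent.S20.DeltaN

/-!
# S20 package H: the Vandermonde lower bound

There are `μ = [SL(2,ℤ) : Γ₀(N)]` modular forms on `Γ₀(N)` (of one weight `K`) whose component
vectors at some point `τ` are linearly independent: `Δ_N^i Δ^(μ-1-i)`, `0 ≤ i < μ`.
-/

set_option autoImplicit false
set_option linter.unusedSectionVars false

namespace Fermat.Agent.S20

open UpperHalfPlane ModularForm Matrix.SpecialLinearGroup CongruenceSubgroup Filter Topology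
open scoped MatrixGroups ModularForm Manifold

local notation "Δ" => ModularForm.discriminant

/-- Finitely many pairs of distinct holomorphic functions on `ℍ` are simultaneously distinct at
some point. -/
theorem exists_forall_ne_of_mdiff {ι : Type*} [Finite ι] (f g : ι → ℍ → ℂ)
    (hf : ∀ i, MDiff (f i)) (hg : ∀ i, MDiff (g i)) (hne : ∀ i, f i ≠ g i) :
    ∃ τ : ℍ, ∀ i, f i τ ≠ g i τ := by
  set U : Set ℂ := {z | 0 < z.im} with hU
  have hUo : IsOpen U := isOpen_lt continuous_const Complex.continuous_im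
  have hUc : IsPreconnected U := (convex_halfSpace_im_gt 0).isPreconnected
  have hI : Complex.I ∈ U := by simp [hU]
  have hF : ∀ i, AnalyticOnNhd ℂ (f i ∘ ofComplex) U := fun i =>
    (UpperHalfPlane.mdifferentiable_iff.mp (hf i)).analyticOnNhd hUo
  have hG : ∀ i, AnalyticOnNhd ℂ (g i ∘ ofComplex) U := fun i =>
    (UpperHalfPlane.mdifferentiable_iff.mp (hg i)).analyticOnNhd hUo
  have key : ∀ i, ∀ᶠ z in 𝓝[≠] Complex.I, (f i ∘ ofComplex) z ≠ (g i ∘ ofComplex) z := by
    intro i
    by_contra hcon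
    rw [not_eventually] at hcon
    have hcon' : ∃ᶠ z in 𝓝[≠] Complex.I, (f i ∘ ofComplex) z = (g i ∘ ofComplex) z :=
      hcon.mono fun z hz => not_not.mp hz
    have heq := (hF i).eqOn_of_preconnected_of_frequently_eq (hG i) hUc hI hcon'
    apply hne i
    funext τ
    have := heq (show (τ : ℂ) ∈ U from τ.im_pos)
    simpa [Function.comp, ofComplex_apply] using this
  have hall : ∀ᶠ z in 𝓝[≠] Complex.I, ∀ i, (f i ∘ ofComplex) z ≠ (g i ∘ ofComplex) z :=
    eventually_all.mpr key
  have hmem : ∀ᶠ z in 𝓝[≠] Complex.I, z ∈ U :=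
    (hUo.mem_nhds hI : U ∈ 𝓝 Complex.I) |> fun h => (nhdsWithin_le_nhds h)
  obtain ⟨z, hz, hzU⟩ := (hall.and hmem).exists
  refine ⟨⟨z, hzU⟩, fun i => ?_⟩
  have := hz i
  simpa [Function.comp, ofComplex_apply_of_im_pos hzU] using this

section

variable {N : ℕ} [NeZero N] {k : ℤ} {f : ℍ → ℂ}

theorem IsMF.pow (hf : IsMF N k f) (n : ℕ) : IsMF N (n * k) (f ^ n) := by
  induction n with
  | zero =>
    simp only [Nat.cast_zero, zero_mul, pow_zero]
    exact isMF_one
  | succ n ih =>
    rw [pow_succ]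
    exact ih.mul' hf (by push_cast; ring)

theorem vec_pow (n : ℕ) (q : Q N) : vec N (n * k) (f ^ n) q = (vec N k f q) ^ n := by
  induction n with
  | zero =>
    simp only [Nat.cast_zero, zero_mul, pow_zero]
    exact vec_of_isMF1 isMF1_one q
  | succ n ih =>
    rw [pow_succ, pow_succ, vec_mul' (k := n * k) (l := k) (by push_cast; ring), ih]

end

variable (N : ℕ) [NeZero N]

/-- The components of `Δ_N` are pairwise distinct functions. -/
theorem vec_DeltaN_injective : Function.Injective (fun q : Q N => vec N 12 (DeltaN N) q) := by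
  intro q q' h
  simp only [vec] at h
  rw [DeltaN_slash_eq_iff, inv_inv] at h
  have h2 := (QuotientGroup.eq (s := Gamma0 N)).mpr h
  simpa using h2

/-- There is a point at which the components of `Δ_N` take pairwise distinct values. -/
theorem exists_vec_DeltaN_injective :
    ∃ τ : ℍ, Function.Injective (fun q : Q N => vec N 12 (DeltaN N) q τ) := by
  have : Finite (Q N) := inferInstance
  obtain ⟨τ, hτ⟩ := exists_forall_ne_of_mdiff (ι := {p : Q N × Q N // p.1 ≠ p.2})
    (fun p => vec N 12 (DeltaN N) p.1.1) (fun p => vec N 12 (DeltaN N) p.1.2)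
    (fun p => vec_mdiff (isMF_DeltaN N).mdiff _) (fun p => vec_mdiff (isMF_DeltaN N).mdiff _)
    (fun p h => p.2 (vec_DeltaN_injective N h))
  refine ⟨τ, fun q q' h => ?_⟩
  by_contra hne
  exact hτ ⟨(q, q'), hne⟩ h

/-- **Package H** (unfolded form). -/
theorem exists_full_rank' : ∃ (K : ℕ) (F : Q N → ℍ → ℂ) (τ : ℍ), (∀ i, IsMF N K (F i)) ∧
    LinearIndependent ℂ (fun i => (fun q => vec N K (F i) q τ : Q N → ℂ)) := by
  classical
  have : Finite (Q N) := inferInstance
  let _ : Fintype (Q N) := Fintype.ofFinite _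
  obtain ⟨τ, hτ⟩ := exists_vec_DeltaN_injective N
  let e : Q N ≃ Fin (Fintype.card (Q N)) := Fintype.equivFin _
  set μ := Fintype.card (Q N) with hμ
  have hle : ∀ i : Q N, (e i : ℕ) + (μ - 1 - (e i : ℕ)) = μ - 1 := fun i => by
    have := (e i).2
    omega
  have hK : ∀ i : Q N, ((12 * (μ - 1) : ℕ) : ℤ) =
      ((e i : ℕ) : ℤ) * 12 + ((μ - 1 - (e i : ℕ) : ℕ) : ℤ) * 12 := fun i => by
    have := hle i
    rw [← add_mul, ← Nat.cast_add, this]
    push_cast
    ring
  refine ⟨12 * (μ - 1), fun i => DeltaN N ^ (e i : ℕ) * Δ ^ (μ - 1 - (e i : ℕ)), τ,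
    fun i => ?_, ?_⟩
  · exact ((isMF_DeltaN N).pow _).mul' ((isMF1_Delta.isMF (N := N)).pow _) (hK i)
  · have hvec : ∀ i q, vec N ((12 * (μ - 1) : ℕ) : ℤ)
        (DeltaN N ^ (e i : ℕ) * Δ ^ (μ - 1 - (e i : ℕ))) q τ =
        (vec N 12 (DeltaN N) q τ) ^ (e i : ℕ) * (Δ τ) ^ (μ - 1 - (e i : ℕ)) := by
      intro i q
      rw [vec_mul' (hK i), vec_pow, vec_pow, vec_of_isMF1 isMF1_Delta]
      simp
    rw [Fintype.linearIndependent_iff]
    intro c hc i
    have hD : Δ τ ≠ 0 := ModularForm.discriminant_ne_zero τ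
    -- the vanishing polynomial
    have hzero := Matrix.eq_zero_of_forall_index_sum_pow_mul_eq_zero
      (f := fun j : Fin μ => vec N 12 (DeltaN N) (e.symm j) τ)
      (v := fun j : Fin μ => c (e.symm j) * (Δ τ) ^ (μ - 1 - (j : ℕ)))
      (hτ.comp e.symm.injective) (fun j => by
        have h1 := congrFun hc (e.symm j)
        simp only [Finset.sum_apply, Pi.smul_apply, smul_eq_mul, Pi.zero_apply, hvec] at h1
        rw [← h1, ← e.symm.sum_comp]
        refine Finset.sum_congr rfl fun x _ => ?_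
        simp
        ring)
    have h2 := congrFun hzero (e i)
    simp only [Equiv.symm_apply_apply, Pi.zero_apply, mul_eq_zero] at h2
    rcases h2 with h2 | h2
    · exact h2
    · exact absurd h2 (pow_ne_zero _ hD)

/-- **Package H**: there are `μ` forms of one weight whose component vectors at some point are
linearly independent. -/
theorem exists_full_rank : ∃ (K : ℕ) (F : Q N → ℍ → ℂ) (τ : ℍ), (∀ i, IsMF N K (F i)) ∧
    LinearIndependent ℂ (fun i => vecAt N K (F i) τ) :=
  exists_full_rank' N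

end Fermat.Agent.S20
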