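import Fermat.Agent.S20.LocalIndep
import Fermat.Agent.S20.Homog
import Fermat.Agent.S20.Vandermonde

/-!
# S20 helper: the graded basis has exactly `μ = [SL₂(ℤ) : Γ₀(N)]` elements
-/

set_option autoImplicit false
set_option linter.unusedSectionVars false

namespace Fermat.Agent.S20

open UpperHalfPlane ModularForm Matrix.SpecialLinearGroup Filter Topology
open scoped MatrixGroups ModularForm Manifold

variable {N : ℕ} [NeZero N]

/-- The specification of the divisor form at `τ₀` (package F). -/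
def PhiSpec (τ₀ : ℍ) : Prop :=
  ∃ (w : ℤ) (Φ : ℍ → ℂ), IsMF1 w Φ ∧ Φ τ₀ = 0 ∧
    (∀ τ, Φ τ = 0 → ∃ γ : SL(2, ℤ), γ • τ₀ = τ) ∧
    (∀ τ : ℍ, Φ τ = 0 → deriv (Φ ∘ ofComplex) τ ≠ 0) ∧ Tendsto Φ atImInfty (𝓝 1)

theorem isDec_zero (k : ℤ) : IsDec N k (0 : ℍ → ℂ) :=
  ⟨0, 0, isMF_zero, isMF_zero, by simp⟩

theorem not_isDec_bfun {k i : ℕ} (hi : i < nb N k) : ¬ IsDec N k (bfun N k i) := by
  classical
  intro h
  have key := bfun_indep k (fun j => if j = i then 1 else 0) (by
    have : ∑ j ∈ Finset.range (nb N k), (if j = i then (1 : ℂ) else 0) • bfun N k j =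
        bfun N k i := by
      rw [Finset.sum_eq_single i]
      · simp
      · intro j _ hj
        simp [hj]
      · intro h'
        exact absurd (Finset.mem_range.mpr hi) h'
    rw [this]
    exact h) i hi
  simp at key

theorem bfun_ne_zero {k i : ℕ} (hi : i < nb N k) : bfun N k i ≠ 0 := fun h =>
  not_isDec_bfun hi (h ▸ isDec_zero _)

theorem even_of_valid {k i : ℕ} (hi : i < nb N k) : Even k := by
  by_contra hodd
  rw [Nat.not_even_iff_odd] at hodd
  exact bfun_ne_zero hi ((bfun_isMF k i).eq_zero_of_odd (by exact_mod_cast hodd))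

/-- There is a point where neither `E₄` nor `E₆` vanishes. -/
theorem exists_generic : ∃ τ₀ : ℍ, E₄ τ₀ ≠ 0 ∧ E₆ τ₀ ≠ 0 := by
  have h4 : ∀ᶠ τ in atImInfty, E₄ τ ≠ 0 :=
    tendsto_E4.eventually_ne one_ne_zero
  have h6 : ∀ᶠ τ in atImInfty, E₆ τ ≠ 0 :=
    tendsto_E6.eventually_ne one_ne_zero
  exact (h4.and h6).exists

/-- Local independence at a generic point. -/
theorem local_indep_generic {τ₀ : ℍ} (h4 : E₄ τ₀ ≠ 0) (h6 : E₆ τ₀ ≠ 0) (hΦ : PhiSpec τ₀)
    (s : Finset (ℕ × ℕ)) (hs : ∀ p ∈ s, p.2 < nb N p.1)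
    (c : ℕ × ℕ → ℂ) (hc : ∑ p ∈ s, c p • vecAt N p.1 (bf N p) τ₀ = 0) :
    ∀ p ∈ s, c p = 0 := by
  classical
  obtain ⟨w, Φ, hΦ1, hΦ0, horb, hsimple, hlim⟩ := hΦ
  let K : ℤ := 2 * (s.sup (fun p => p.1) : ℕ) + 4
  have hex : ∀ p : ℕ × ℕ, ∃ ρ : ℍ → ℂ, p ∈ s → (IsMF1 (K - p.1) ρ ∧ ρ τ₀ = 1) := by
    intro p
    by_cases hp : p ∈ s
    · have hle : p.1 ≤ s.sup (fun p => p.1) := Finset.le_sup (f := fun p : ℕ × ℕ => p.1) hp
      have hev : Even (p.1 : ℤ) := by exact_mod_cast even_of_valid (hs p hp)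
      have hev' : Even (K - p.1) := by
        refine Even.sub ?_ hev
        exact Even.add (even_two_mul _) (by decide)
      have hge : 4 ≤ K - p.1 := by
        have : (p.1 : ℤ) ≤ (s.sup (fun p => p.1) : ℕ) := by exact_mod_cast hle
        simp only [K]
        omega
      obtain ⟨ρ, hρ, hρ1⟩ := exists_homogenizer hev' (Or.inr hge) h4 h6
      exact ⟨ρ, fun _ => ⟨hρ, hρ1⟩⟩
    · exact ⟨0, fun h => absurd h hp⟩
  choose ρ hρ using hex
  exact local_indep_aux hΦ1 hΦ0 horb hsimple hlim s hs K ρ (fun p hp => (hρ p hp).1)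
    (fun p hp => (hρ p hp).2) c hc

/-- A finite set of vectors of `Q N → ℂ` satisfying the independence condition has at most
`μ` elements. -/
theorem card_le_of_indep {ι : Type*} (s : Finset ι) (v : ι → Q N → ℂ)
    (h : ∀ c : ι → ℂ, ∑ p ∈ s, c p • v p = 0 → ∀ p ∈ s, c p = 0) :
    s.card ≤ Nat.card (Q N) := by
  classical
  have : Finite (Q N) := inferInstance
  let _ : Fintype (Q N) := Fintype.ofFinite _
  have hli : LinearIndependent ℂ (fun p : s => v p) := by
    rw [Fintype.linearIndependent_iff]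
    intro g hg p
    have := h (fun i => if hi : i ∈ s then g ⟨i, hi⟩ else 0) (by
      rw [← hg, ← Finset.sum_coe_sort s]
      refine Finset.sum_congr rfl fun x _ => ?_
      simp) p p.2
    simpa using this
  have := hli.fintype_card_le_finrank
  simpa [Nat.card_eq_fintype_card] using this

variable (N) in
/-- The set of valid pairs. -/
def Valid : Set (ℕ × ℕ) := {p | p.2 < nb N p.1}

theorem finite_valid (hΦ : ∀ τ₀ : ℍ, PhiSpec τ₀) : (Valid N).Finite := by
  by_contra hinf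
  obtain ⟨τ₀, h4, h6⟩ := exists_generic
  obtain ⟨t, ht, htc⟩ := Set.Infinite.exists_subset_card_eq hinf (Nat.card (Q N) + 1)
  have := card_le_of_indep t (fun p => vecAt N p.1 (bf N p) τ₀)
    (local_indep_generic h4 h6 (hΦ τ₀) t (fun p hp => ht hp))
  omega

/-- Changing the coefficients outside the valid pairs does not change a graded sum. -/
theorem gsum_congr (M : ℕ) {r r' : ℕ → ℕ → ℍ → ℂ}
    (h : ∀ k i, k < M → i < nb N k → r k i = r' k i) : gsum N M r = gsum N M r' := by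
  unfold gsum
  refine Finset.sum_congr rfl fun k hk => Finset.sum_congr rfl fun i hi => ?_
  rw [h k i (Finset.mem_range.mp hk) (Finset.mem_range.mp hi)]

/-- Every form is a combination of the basis elements indexed by a finite set containing all
valid pairs. -/
theorem span_finset (s : Finset (ℕ × ℕ)) (hs : ∀ p, p ∈ s ↔ p.2 < nb N p.1) (K : ℤ)
    (f : ℍ → ℂ) (hf : IsMF N K f) :
    ∃ r : ℕ × ℕ → ℍ → ℂ, (∀ p, IsMF1 (K - p.1) (r p)) ∧ f = ∑ p ∈ s, r p * bf N p := by
  classical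
  let M : ℕ := K.toNat + s.sup (fun p => p.1) + 1
  have hM : ∀ p ∈ s, p.1 < M := fun p hp => by
    have : p.1 ≤ s.sup (fun p => p.1) := Finset.le_sup (f := fun p : ℕ × ℕ => p.1) hp
    omega
  have hKM : K < M := by
    have := Int.self_le_toNat K
    have : (M : ℤ) = K.toNat + s.sup (fun p => p.1) + 1 := by simp [M]
    omega
  obtain ⟨r, hr, hfr⟩ := graded_span (N := N) M K hKM f hf
  refine ⟨fun p => r p.1 p.2, fun p => hr p.1 p.2, ?_⟩
  rw [hfr, ← gsum_indicator M s (fun p hp => ⟨hM p hp, (hs p).mp hp⟩) (fun p => r p.1 p.2)]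
  refine gsum_congr M fun k i _ hi => ?_
  rw [if_pos ((hs (k, i)).mpr hi)]

/-- Independence over level one forms (all coefficients are given). -/
theorem indep_finset' (s : Finset (ℕ × ℕ)) (hs : ∀ p ∈ s, p.2 < nb N p.1) (K : ℤ)
    (r : ℕ × ℕ → ℍ → ℂ) (hr : ∀ p, IsMF1 (K - p.1) (r p))
    (h0 : ∑ p ∈ s, r p * bf N p = 0) : ∀ p ∈ s, r p = 0 :=
  indep_finset s hs K r (fun p _ => hr p) h0

/-- The finite set of valid pairs has at least `μ` elements. -/
theorem card_ge (s : Finset (ℕ × ℕ)) (hs : ∀ p, p ∈ s ↔ p.2 < nb N p.1) :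
    Nat.card (Q N) ≤ s.card := by
  classical
  have : Finite (Q N) := inferInstance
  let _ : Fintype (Q N) := Fintype.ofFinite _
  obtain ⟨K, F, τ, hF, hli⟩ := exists_full_rank N
  have hmem : ∀ i, vecAt N K (F i) τ ∈
      Submodule.span ℂ (Set.range fun p : s => vecAt N (p : ℕ × ℕ).1 (bf N p) τ) := by
    intro i
    obtain ⟨r, hr, hFr⟩ := span_finset s hs K (F i) (hF i)
    rw [hFr, vecAt_sum_mul s K r (fun p _ => hr p)]
    refine Submodule.sum_mem _ fun p hp => Submodule.smul_mem _ _ ?_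
    exact Submodule.subset_span ⟨⟨p, hp⟩, rfl⟩
  -- the independent family lies in the span of the basis vectors
  let W : Submodule ℂ (Q N → ℂ) :=
    Submodule.span ℂ (Set.range fun p : s => vecAt N (p : ℕ × ℕ).1 (bf N p) τ)
  have hW : W = ⊤ := by
    have h1 : Submodule.span ℂ (Set.range fun i => vecAt N K (F i) τ) ≤ W :=
      Submodule.span_le.mpr (by rintro _ ⟨i, rfl⟩; exact hmem i)
    have h2 : Submodule.span ℂ (Set.range fun i => vecAt N K (F i) τ) = ⊤ :=
      hli.span_eq_top_of_card_eq_finrank' (by simp)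
    rw [h2] at h1
    exact top_le_iff.mp h1
  have h1 : Module.finrank ℂ (Q N → ℂ) ≤ Fintype.card s := by
    have := finrank_span_le_card (R := ℂ) (Set.range fun p : s => vecAt N (p : ℕ × ℕ).1 (bf N p) τ)
    have h3 : Module.finrank ℂ W = Module.finrank ℂ (Q N → ℂ) := by
      rw [hW]; exact finrank_top ℂ _
    rw [← h3]
    refine this.trans ?_
    rw [Set.toFinset_range]
    exact Finset.card_image_le.trans (by simp)
  have h2 : Module.finrank ℂ (Q N → ℂ) = Fintype.card (Q N) := by simp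
  rw [Nat.card_eq_fintype_card, ← h2]
  simpa using h1

end Fermat.Agent.S20
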