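import Mathlib
import Fermat.Agent.S20.CuspJets

/-!
# S20: abstract cusp analysis, part 2 (F4): the inverse of the evaluation matrix

For `E : ℍ → Matrix Q Q ℂ` whose columns are `CuspCol`s with invertible jet matrix, and `D` of
exponential decay `O(e^{-2π Im τ})` (e.g. `D = Δ`), every entry of `D τ • (E τ)⁻¹` tends to `0`
at `i∞`.
-/

set_option autoImplicit false
set_option linter.unusedSectionVars false

namespace Fermat.Agent.S20

open Filter Topology Complex Function
open UpperHalfPlane hiding I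
open scoped Manifold Real

section matrix

variable {Q : Type*} [Fintype Q] [DecidableEq Q] (σ : Equiv.Perm Q)

/-- The matrix of the projector `Π_s`. -/
noncomputable def cuspProjMat (s : ℕ) : Matrix Q Q ℂ := LinearMap.toMatrix' (cuspProj σ s)

theorem cuspProjMat_mulVec (s : ℕ) (v : Q → ℂ) : (cuspProjMat σ s).mulVec v = cuspProj σ s v :=
  LinearMap.toMatrix'_mulVec _ _

theorem cuspProjMat_mul {s t : ℕ} (hs : s < cuspOrd σ) (ht : t < cuspOrd σ) :
    cuspProjMat σ s * cuspProjMat σ t = if s = t then cuspProjMat σ t else 0 := by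
  unfold cuspProjMat
  rw [← LinearMap.toMatrix'_comp]
  have h : cuspProj σ s ∘ₗ cuspProj σ t = if s = t then cuspProj σ t else 0 := by
    apply LinearMap.ext
    intro v
    rw [LinearMap.comp_apply, cuspProj_cuspProj σ hs ht]
    split_ifs <;> rfl
  rw [h]
  split_ifs
  · rfl
  · exact map_zero _

theorem cuspProjMat_sum : ∑ s ∈ Finset.range (cuspOrd σ), cuspProjMat σ s = 1 := by
  unfold cuspProjMat
  rw [← map_sum]
  have h : ∑ s ∈ Finset.range (cuspOrd σ), cuspProj σ s = LinearMap.id := by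
    apply LinearMap.ext
    intro v
    rw [LinearMap.sum_apply, cuspProj_sum]
    rfl
  rw [h, LinearMap.toMatrix'_id]

/-- The twisting matrix `U(τ) = ∑_s e^{2πi (s/M) τ} Π_s`. -/
noncomputable def cuspTwist (τ : ℍ) : Matrix Q Q ℂ :=
  ∑ s ∈ Finset.range (cuspOrd σ), cuspChar σ s τ • cuspProjMat σ s

/-- The inverse twisting matrix `V(τ) = ∑_s e^{-2πi (s/M) τ} Π_s`. -/
noncomputable def cuspTwistInv (τ : ℍ) : Matrix Q Q ℂ :=
  ∑ s ∈ Finset.range (cuspOrd σ), (cuspChar σ s τ)⁻¹ • cuspProjMat σ s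

theorem cuspTwistInv_mul_cuspTwist (τ : ℍ) : cuspTwistInv σ τ * cuspTwist σ τ = 1 := by
  unfold cuspTwistInv cuspTwist
  rw [Finset.sum_mul]
  have h : ∀ s ∈ Finset.range (cuspOrd σ),
      ((cuspChar σ s τ)⁻¹ • cuspProjMat σ s) *
        ∑ t ∈ Finset.range (cuspOrd σ), cuspChar σ t τ • cuspProjMat σ t = cuspProjMat σ s := by
    intro s hs
    rw [Finset.mul_sum]
    have h2 : ∀ t ∈ Finset.range (cuspOrd σ),
        ((cuspChar σ s τ)⁻¹ • cuspProjMat σ s) * (cuspChar σ t τ • cuspProjMat σ t) =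
          if s = t then cuspProjMat σ s else 0 := by
      intro t ht
      rw [Matrix.smul_mul, Matrix.mul_smul,
        cuspProjMat_mul σ (Finset.mem_range.mp hs) (Finset.mem_range.mp ht)]
      split_ifs with hst
      · subst hst
        rw [smul_smul, inv_mul_cancel₀ (cuspChar_ne_zero σ s τ), one_smul]
      · simp
    rw [Finset.sum_congr rfl h2, Finset.sum_ite_eq (Finset.range (cuspOrd σ)) s, if_pos hs]
  rw [Finset.sum_congr rfl h, cuspProjMat_sum]

/-- The untwisted evaluation matrix. -/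
noncomputable def cuspUntwistMat (E : ℍ → Matrix Q Q ℂ) (τ : ℍ) : Matrix Q Q ℂ :=
  Matrix.of fun q j => cuspUntwist σ (fun τ q' => E τ q' j) τ q

/-- The jet matrix. -/
noncomputable def cuspJetMat (E : ℍ → Matrix Q Q ℂ) : Matrix Q Q ℂ :=
  Matrix.of fun q j => cuspJet σ (fun τ q' => E τ q' j) q

theorem cuspTwist_mulVec (τ : ℍ) (v : Q → ℂ) :
    (cuspTwist σ τ).mulVec v =
      ∑ s ∈ Finset.range (cuspOrd σ), cuspChar σ s τ • cuspProj σ s v := by
  unfold cuspTwist
  rw [Matrix.sum_mulVec]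
  refine Finset.sum_congr rfl fun s _ => ?_
  rw [Matrix.smul_mulVec, cuspProjMat_mulVec]

theorem cuspTwist_mul_untwistMat (E : ℍ → Matrix Q Q ℂ) (τ : ℍ) :
    cuspTwist σ τ * cuspUntwistMat σ E τ = E τ := by
  ext q j
  have h1 : (cuspTwist σ τ * cuspUntwistMat σ E τ) q j =
      (cuspTwist σ τ).mulVec (cuspUntwist σ (fun τ q' => E τ q' j) τ) q := by
    simp [Matrix.mul_apply, Matrix.mulVec, dotProduct, cuspUntwistMat]
  rw [h1, cuspTwist_mulVec, ← cusp_reconstruct (σ := σ) (fun τ q' => E τ q' j) τ]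

variable {σ}

theorem tendsto_cuspUntwistMat {E : ℍ → Matrix Q Q ℂ}
    (hE : ∀ j, CuspCol σ (fun τ q => E τ q j)) :
    Tendsto (cuspUntwistMat σ E) atImInfty (𝓝 (cuspJetMat σ E)) := by
  refine tendsto_pi_nhds.mpr fun q => tendsto_pi_nhds.mpr fun j => ?_
  exact (hE j).tendsto_untwist q

/-- `D τ * V(τ) → 0` entrywise when `D = O(e^{-2π Im τ})`. -/
theorem tendsto_mul_cuspTwistInv {D : ℍ → ℂ}
    (hD : D =O[atImInfty] fun τ => Real.exp (-2 * π * τ.im)) (r q : Q) :
    Tendsto (fun τ => D τ * cuspTwistInv σ τ r q) atImInfty (𝓝 0) := by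
  have h1 : ∀ τ, D τ * cuspTwistInv σ τ r q =
      ∑ s ∈ Finset.range (cuspOrd σ), (D τ * (cuspChar σ s τ)⁻¹) * cuspProjMat σ s r q := by
    intro τ
    unfold cuspTwistInv
    rw [Matrix.sum_apply, Finset.mul_sum]
    refine Finset.sum_congr rfl fun s _ => ?_
    rw [Matrix.smul_apply, smul_eq_mul, mul_assoc]
  simp only [h1]
  have h2 : ∀ s ∈ Finset.range (cuspOrd σ),
      Tendsto (fun τ => (D τ * (cuspChar σ s τ)⁻¹) * cuspProjMat σ s r q) atImInfty (𝓝 0) := by
    intro s hs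
    have hs' := Finset.mem_range.mp hs
    have hM : (0 : ℝ) < cuspOrd σ := Nat.cast_pos.mpr (cuspOrd_pos σ)
    have hc : 0 < 2 * π * (1 - (s : ℝ) / (cuspOrd σ : ℝ)) := by
      have h1 : (s : ℝ) / (cuspOrd σ : ℝ) < 1 := by
        rw [div_lt_one hM]
        exact_mod_cast hs'
      have h2 : 0 < 1 - (s : ℝ) / (cuspOrd σ : ℝ) := by linarith
      positivity
    have h3 : (fun τ => (cuspChar σ s τ)⁻¹) =O[atImInfty]
        fun τ => Real.exp (2 * π * ((s : ℝ) / (cuspOrd σ : ℝ)) * τ.im) := by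
      refine Asymptotics.isBigO_of_le _ fun τ => ?_
      rw [norm_inv, norm_cuspChar, ← Real.exp_neg, Real.norm_eq_abs, abs_of_pos (Real.exp_pos _)]
      apply le_of_eq
      congr 1
      ring
    have h4 := hD.mul h3
    have h5 : Tendsto (fun τ : ℍ => Real.exp (-2 * π * τ.im) *
        Real.exp (2 * π * ((s : ℝ) / (cuspOrd σ : ℝ)) * τ.im)) atImInfty (𝓝 0) := by
      refine (tendsto_rexp_neg_mul_im hc).congr fun τ => ?_
      rw [← Real.exp_add]
      congr 1
      ring
    have h6 := (h4.trans_tendsto h5).mul_const (cuspProjMat σ s r q)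
    simpa using h6
  have h7 := tendsto_finsetSum (Finset.range (cuspOrd σ)) h2
  simpa using h7

/-- **F4** (general decay factor `D`). If the jet matrix is invertible, then every entry of
`D τ • (E τ)⁻¹` tends to `0` at `i∞`. -/
theorem tendsto_mul_inv_of_det_jet_ne_zero {E : ℍ → Matrix Q Q ℂ}
    (hE : ∀ j, CuspCol σ (fun τ q => E τ q j)) (hdet : (cuspJetMat σ E).det ≠ 0)
    {D : ℍ → ℂ} (hD : D =O[atImInfty] fun τ => Real.exp (-2 * π * τ.im)) (j q : Q) :
    Tendsto (fun τ => D τ * (E τ)⁻¹ j q) atImInfty (𝓝 0) := by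
  have hH := tendsto_cuspUntwistMat hE
  -- the determinant of the untwisted matrix is eventually nonzero
  have hdetT : Tendsto (fun τ => (cuspUntwistMat σ E τ).det) atImInfty
      (𝓝 (cuspJetMat σ E).det) :=
    ((continuous_id.matrix_det).tendsto (cuspJetMat σ E)).comp hH
  have hev : ∀ᶠ τ in atImInfty, (cuspUntwistMat σ E τ).det ≠ 0 := hdetT.eventually_ne hdet
  -- the inverse of the untwisted matrix converges
  have hinvc : ContinuousAt Inv.inv (cuspJetMat σ E) := by
    apply continuousAt_matrix_inv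
    rw [Ring.inverse_eq_inv']
    exact continuousAt_inv₀ hdet
  have hHinv : Tendsto (fun τ => (cuspUntwistMat σ E τ)⁻¹) atImInfty
      (𝓝 (cuspJetMat σ E)⁻¹) := hinvc.tendsto.comp hH
  have hHinv_entry : ∀ r, Tendsto (fun τ => (cuspUntwistMat σ E τ)⁻¹ j r) atImInfty
      (𝓝 ((cuspJetMat σ E)⁻¹ j r)) := fun r =>
    (tendsto_pi_nhds.mp (tendsto_pi_nhds.mp hHinv j) r)
  -- formula for the inverse
  have hform : ∀ᶠ τ in atImInfty, D τ * (E τ)⁻¹ j q =
      ∑ r, (cuspUntwistMat σ E τ)⁻¹ j r * (D τ * cuspTwistInv σ τ r q) := by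
    filter_upwards [hev] with τ hτ
    have hunit : IsUnit (cuspUntwistMat σ E τ).det := isUnit_iff_ne_zero.mpr hτ
    have hleft : ((cuspUntwistMat σ E τ)⁻¹ * cuspTwistInv σ τ) * E τ = 1 := by
      conv_lhs => rw [← cuspTwist_mul_untwistMat σ E τ]
      rw [Matrix.mul_assoc, ← Matrix.mul_assoc (cuspTwistInv σ τ), cuspTwistInv_mul_cuspTwist,
        Matrix.one_mul, Matrix.nonsing_inv_mul _ hunit]
    rw [Matrix.inv_eq_left_inv hleft, Matrix.mul_apply, Finset.mul_sum]
    refine Finset.sum_congr rfl fun r _ => ?_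
    ring
  have hsum : Tendsto (fun τ => ∑ r, (cuspUntwistMat σ E τ)⁻¹ j r *
      (D τ * cuspTwistInv σ τ r q)) atImInfty (𝓝 (∑ r : Q, (cuspJetMat σ E)⁻¹ j r * 0)) :=
    tendsto_finsetSum _ fun r _ => (hHinv_entry r).mul (tendsto_mul_cuspTwistInv hD r q)
  simp only [mul_zero, Finset.sum_const_zero] at hsum
  exact hsum.congr' (hform.mono fun τ hτ => hτ.symm)

end matrix

end Fermat.Agent.S20
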