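import Mathlib
import Fermat.Agent.S20.Perm
import Fermat.Agent.S20.DeltaN
import Fermat.Agent.S20.CuspJetsInv

/-!
# S20: cusp analysis applied to the component vectors of modular forms on `Γ₀(N)`

* `cuspPermT N`: the permutation `q ↦ T⁻¹ • q` of `Q N = SL(2,ℤ) ⧸ Γ₀(N)`.
* `cuspCol_vecAt`: for `f` a modular form on `Γ₀(N)`, the column `vecAt N k f` is a `CuspCol`.
* `tendsto_discriminant_mul_inv`: **F4** with `D = Δ`.
-/

set_option autoImplicit false
set_option linter.unusedSectionVars false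

namespace Fermat.Agent.S20

open Filter Topology Complex Function ModularForm Matrix.SpecialLinearGroup
open UpperHalfPlane hiding I
open scoped Manifold Real MatrixGroups ModularForm

local notation "Δ" => ModularForm.discriminant

variable {N : ℕ} {k : ℤ} {f : ℍ → ℂ}

/-- The permutation `q ↦ T⁻¹ • q` of `Q N`. -/
noncomputable def cuspPermT (N : ℕ) : Equiv.Perm (Q N) :=
  MulAction.toPerm (ModularGroup.T⁻¹ : SL(2, ℤ))

theorem cuspPermT_apply (q : Q N) : cuspPermT N q = (ModularGroup.T⁻¹ : SL(2, ℤ)) • q := rfl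

theorem permOp_T_apply (v : Q N → ℂ) (q : Q N) :
    permOp N ModularGroup.T v q = v (cuspPermT N q) := rfl

/-- The shift rule for the vector of components. -/
theorem vecAt_vadd (hf : Inv N k f) (τ : ℍ) (q : Q N) :
    vecAt N k f ((1 : ℝ) +ᵥ τ) q = vecAt N k f τ (cuspPermT N q) := by
  have h := vecAt_smul hf ModularGroup.T τ
  rw [UpperHalfPlane.modular_T_smul] at h
  rw [h, Pi.smul_apply, permOp_T_apply]
  have hd : denom (ModularGroup.T : SL(2, ℤ)) τ = 1 := by
    rw [ModularGroup.denom_apply, ModularGroup.coe_T]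
    simp
  rw [hd, one_zpow, one_smul]

/-- The vector of components of a modular form on `Γ₀(N)` is a `CuspCol`. -/
theorem cuspCol_vecAt [NeZero N] (hf : IsMF N k f) : CuspCol (cuspPermT N) (vecAt N k f) where
  mdiff q := vec_mdiff hf.mdiff q
  bdd q := hf.vec_bdd q
  shift τ q := vecAt_vadd hf.inv τ q

/-- **F4** with `D = Δ`. -/
theorem tendsto_discriminant_mul_inv {Q : Type*} [Fintype Q] [DecidableEq Q] {σ : Equiv.Perm Q}
    {E : ℍ → Matrix Q Q ℂ} (hE : ∀ j, CuspCol σ (fun τ q => E τ q j))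
    (hdet : (cuspJetMat σ E).det ≠ 0) (j q : Q) :
    Tendsto (fun τ => Δ τ * (E τ)⁻¹ j q) atImInfty (𝓝 0) :=
  tendsto_mul_inv_of_det_jet_ne_zero hE hdet discriminant_isBigO_exp j q

end Fermat.Agent.S20
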