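import Fermat.Agent.S20.FinDim

/-!
# S20 helper: a homogeneous basis of `M(Γ₀(N))` over `ℂ[E₄, E₆]`
-/

set_option autoImplicit false
set_option linter.unusedSectionVars false

namespace Fermat.Agent.S20

open UpperHalfPlane ModularForm Matrix.SpecialLinearGroup Filter Topology
open scoped MatrixGroups ModularForm Manifold

variable (N : ℕ) [NeZero N]

/-- Decomposable forms of weight `k`: those in `E₄ M_{k-4} + E₆ M_{k-6}`. -/
def IsDec (k : ℤ) (f : ℍ → ℂ) : Prop :=
  ∃ A B : ℍ → ℂ, IsMF N (k - 4) A ∧ IsMF N (k - 6) B ∧ f = (E₄ : ℍ → ℂ) * A + (E₆ : ℍ → ℂ) * B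

variable {N}

theorem IsDec.isMF {k : ℤ} {f : ℍ → ℂ} (h : IsDec N k f) : IsMF N k f := by
  obtain ⟨A, B, hA, hB, rfl⟩ := h
  exact ((isMF1_E4.isMF).mul' hA (by ring)).add ((isMF1_E6.isMF).mul' hB (by ring))

variable (N)

/-- The submodule of decomposable forms. -/
noncomputable def DecSub (k : ℤ) : Submodule ℂ (ℍ → ℂ) where
  carrier := {f | IsDec N k f}
  add_mem' := by
    rintro _ _ ⟨A, B, hA, hB, rfl⟩ ⟨A', B', hA', hB', rfl⟩
    exact ⟨A + A', B + B', hA.add hA', hB.add hB', by ring⟩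
  zero_mem' := ⟨0, 0, isMF_zero, isMF_zero, by simp⟩
  smul_mem' := by
    rintro c _ ⟨A, B, hA, hB, rfl⟩
    refine ⟨c • A, c • B, hA.smul c, hB.smul c, ?_⟩
    funext τ
    simp only [Pi.smul_apply, Pi.add_apply, Pi.mul_apply, smul_eq_mul]
    ring

theorem mem_DecSub {k : ℤ} {f : ℍ → ℂ} : f ∈ DecSub N k ↔ IsDec N k f := Iff.rfl

/-- Existence of a finite family spanning a complement of the decomposable forms. -/
theorem exists_complement_family (k : ℤ) :
    ∃ (n : ℕ) (b : Fin n → ℍ → ℂ), (∀ i, IsMF N k (b i)) ∧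
      (∀ f, IsMF N k f → ∃ c : Fin n → ℂ, IsDec N k (f - ∑ i, c i • b i)) ∧
      (∀ c : Fin n → ℂ, IsDec N k (∑ i, c i • b i) → c = 0) := by
  classical
  have : FiniteDimensional ℂ (MFsub N k) := finiteDimensional_MFsub N k
  let p' : Submodule ℂ (MFsub N k) := (DecSub N k).comap (MFsub N k).subtype
  let bs := Module.finBasis ℂ ((MFsub N k) ⧸ p')
  have hsurj : ∀ i, ∃ w : MFsub N k, p'.mkQ w = bs i := fun i => p'.mkQ_surjective (bs i)
  choose w hw using hsurj
  have hcoe : ∀ c : Fin _ → ℂ, ((∑ i, c i • w i : MFsub N k) : ℍ → ℂ) =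
      ∑ i, c i • ((w i : MFsub N k) : ℍ → ℂ) := by
    intro c
    rw [Submodule.coe_sum]
    rfl
  have hmk : ∀ c : Fin _ → ℂ, p'.mkQ (∑ i, c i • w i) = ∑ i, c i • bs i := by
    intro c
    rw [map_sum]
    refine Finset.sum_congr rfl fun i _ => ?_
    rw [map_smul, hw]
  refine ⟨_, fun i => ((w i : MFsub N k) : ℍ → ℂ), fun i => (w i).2, ?_, ?_⟩
  · intro f hf
    refine ⟨fun i => bs.repr (p'.mkQ ⟨f, hf⟩) i, ?_⟩
    have h1 : (⟨f, hf⟩ : MFsub N k) - ∑ i, bs.repr (p'.mkQ ⟨f, hf⟩) i • w i ∈ p' := by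
      rw [← Submodule.Quotient.mk_eq_zero, Submodule.Quotient.mk_sub, sub_eq_zero]
      have := hmk (fun i => bs.repr (p'.mkQ ⟨f, hf⟩) i)
      rw [Submodule.mkQ_apply] at this
      rw [this, bs.sum_repr]
      rfl
    have h2 : (((⟨f, hf⟩ : MFsub N k) - ∑ i, bs.repr (p'.mkQ ⟨f, hf⟩) i • w i : MFsub N k) :
        ℍ → ℂ) ∈ DecSub N k := h1
    rw [Submodule.coe_sub, hcoe] at h2
    exact h2
  · intro c hc
    have h1 : (∑ i, c i • w i : MFsub N k) ∈ p' := by
      show ((∑ i, c i • w i : MFsub N k) : ℍ → ℂ) ∈ DecSub N k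
      rw [hcoe]
      exact hc
    have h2 : p'.mkQ (∑ i, c i • w i) = 0 := by
      rw [Submodule.mkQ_apply, Submodule.Quotient.mk_eq_zero]
      exact h1
    rw [hmk] at h2
    exact funext (Fintype.linearIndependent_iff.mp bs.linearIndependent c h2)

/-- The number of basis elements in weight `k`. -/
noncomputable def nb (k : ℕ) : ℕ := (exists_complement_family N (k : ℤ)).choose

/-- The chosen basis elements in weight `k` (extended by zero). -/
noncomputable def bfun (k i : ℕ) : ℍ → ℂ :=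
  if h : i < nb N k then (exists_complement_family N (k : ℤ)).choose_spec.choose ⟨i, h⟩ else 0

variable {N}

theorem bfun_isMF (k i : ℕ) : IsMF N (k : ℤ) (bfun N k i) := by
  unfold bfun
  split_ifs with h
  · exact (exists_complement_family N (k : ℤ)).choose_spec.choose_spec.1 ⟨i, h⟩
  · exact isMF_zero

theorem bfun_eq_zero {k i : ℕ} (h : ¬ i < nb N k) : bfun N k i = 0 := by
  unfold bfun
  rw [dif_neg h]

theorem bfun_span (k : ℕ) (f : ℍ → ℂ) (hf : IsMF N (k : ℤ) f) :
    ∃ c : ℕ → ℂ, IsDec N k (f - ∑ i ∈ Finset.range (nb N k), c i • bfun N k i) := by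
  obtain ⟨c, hc⟩ := (exists_complement_family N (k : ℤ)).choose_spec.choose_spec.2.1 f hf
  refine ⟨fun i => if h : i < nb N k then c ⟨i, h⟩ else 0, ?_⟩
  have : ∑ i ∈ Finset.range (nb N k), (fun i => if h : i < nb N k then c ⟨i, h⟩ else 0) i •
      bfun N k i = ∑ i, c i • (exists_complement_family N (k : ℤ)).choose_spec.choose i := by
    rw [Finset.sum_range]
    refine Finset.sum_congr rfl fun i _ => ?_
    have hi : (i : ℕ) < nb N k := i.2
    simp only [bfun, dif_pos hi]
    rfl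
  rw [this]
  exact hc

theorem bfun_indep (k : ℕ) (c : ℕ → ℂ)
    (h : IsDec N k (∑ i ∈ Finset.range (nb N k), c i • bfun N k i)) :
    ∀ i < nb N k, c i = 0 := by
  have key := (exists_complement_family N (k : ℤ)).choose_spec.choose_spec.2.2
    (fun i => c i) ?_
  · intro i hi
    exact congrFun key ⟨i, hi⟩
  · have : ∑ i ∈ Finset.range (nb N k), c i • bfun N k i =
        ∑ i : Fin (nb N k), c i • (exists_complement_family N (k : ℤ)).choose_spec.choose i := by
      rw [Finset.sum_range]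
      refine Finset.sum_congr rfl fun i _ => ?_
      have hi : (i : ℕ) < nb N k := i.2
      simp only [bfun, dif_pos hi]
      rfl
    rw [this] at h
    exact h

end Fermat.Agent.S20
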