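import Fermat.Agent.S20.Graded

/-!
# S20 helper: `M(Γ₀(N))` is free over `ℂ[E₄, E₆]` on the family `bfun`
-/

set_option autoImplicit false
set_option linter.unusedSectionVars false

namespace Fermat.Agent.S20

open UpperHalfPlane ModularForm Matrix.SpecialLinearGroup Filter Topology
open scoped MatrixGroups ModularForm Manifold

variable {N : ℕ} [NeZero N]

theorem isMF_sum {ι : Type*} (s : Finset ι) {k : ℤ} {f : ι → ℍ → ℂ}
    (h : ∀ i ∈ s, IsMF N k (f i)) : IsMF N k (∑ i ∈ s, f i) := by
  classical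
  induction s using Finset.induction_on with
  | empty => simpa using isMF_zero
  | insert a s ha ih =>
    rw [Finset.sum_insert ha]
    exact (h a (Finset.mem_insert_self a s)).add
      (ih fun i hi => h i (Finset.mem_insert_of_mem hi))

theorem isMF1_sum {ι : Type*} (s : Finset ι) {k : ℤ} {f : ι → ℍ → ℂ}
    (h : ∀ i ∈ s, IsMF1 k (f i)) : IsMF1 k (∑ i ∈ s, f i) := by
  classical
  induction s using Finset.induction_on with
  | empty => simpa using isMF1_zero
  | insert a s ha ih =>
    rw [Finset.sum_insert ha]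
    exact (h a (Finset.mem_insert_self a s)).add
      (ih fun i hi => h i (Finset.mem_insert_of_mem hi))

variable (N)

/-- The graded sum `∑_{k < M} ∑_{i < nb N k} r k i * bfun N k i`. -/
noncomputable def gsum (M : ℕ) (r : ℕ → ℕ → ℍ → ℂ) : ℍ → ℂ :=
  ∑ k ∈ Finset.range M, ∑ i ∈ Finset.range (nb N k), r k i * bfun N k i

variable {N}

theorem gsum_isMF {K : ℤ} {M : ℕ} {r : ℕ → ℕ → ℍ → ℂ} (hr : ∀ k i : ℕ, IsMF1 (K - k) (r k i)) :
    IsMF N K (gsum N M r) := by
  unfold gsum
  refine isMF_sum _ fun k _ => isMF_sum _ fun i _ => ?_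
  exact ((hr k i).isMF).mul' (bfun_isMF k i) (by ring)

theorem gsum_zero (M : ℕ) : gsum N M (fun _ _ => 0) = 0 := by
  simp [gsum]

theorem gsum_add (M : ℕ) (r s : ℕ → ℕ → ℍ → ℂ) :
    gsum N M (fun k i => r k i + s k i) = gsum N M r + gsum N M s := by
  simp only [gsum, add_mul, Finset.sum_add_distrib]

theorem gsum_sub (M : ℕ) (r s : ℕ → ℕ → ℍ → ℂ) :
    gsum N M (fun k i => r k i - s k i) = gsum N M r - gsum N M s := by
  simp only [gsum, sub_mul, Finset.sum_sub_distrib]

theorem gsum_mul_left (M : ℕ) (φ : ℍ → ℂ) (r : ℕ → ℕ → ℍ → ℂ) :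
    gsum N M (fun k i => φ * r k i) = φ * gsum N M r := by
  simp only [gsum, Finset.mul_sum, mul_assoc]

theorem gsum_mono {K : ℤ} {M M' : ℕ} {r : ℕ → ℕ → ℍ → ℂ}
    (hr : ∀ k i : ℕ, IsMF1 (K - k) (r k i)) (hK : K < M) (hM : M ≤ M') :
    gsum N M r = gsum N M' r := by
  unfold gsum
  refine Finset.sum_subset (Finset.range_mono hM) fun k _ hk => ?_
  have hk' : M ≤ k := by simpa using hk
  refine Finset.sum_eq_zero fun i _ => ?_
  have : r k i = 0 := (hr k i).eq_zero_of_neg (by
    have : (M : ℤ) ≤ k := by exact_mod_cast hk'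
    omega)
  rw [this, zero_mul]

/-- The top-degree part with constant coefficients. -/
theorem gsum_top (n : ℕ) (c : ℕ → ℂ) :
    gsum N (n + 1) (fun k i => if k = n then Function.const ℍ (c i) else 0) =
      ∑ i ∈ Finset.range (nb N n), c i • bfun N n i := by
  unfold gsum
  rw [Finset.sum_range_succ]
  have h0 : ∑ k ∈ Finset.range n, ∑ i ∈ Finset.range (nb N k),
      (if k = n then Function.const ℍ (c i) else 0) * bfun N k i = 0 := by
    refine Finset.sum_eq_zero fun k hk => Finset.sum_eq_zero fun i _ => ?_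
    have : k ≠ n := (Finset.mem_range.mp hk).ne
    rw [if_neg this, zero_mul]
  rw [h0, zero_add]
  refine Finset.sum_congr rfl fun i _ => ?_
  simp only [if_true]
  funext τ
  simp

theorem graded_span (n : ℕ) : ∀ (K : ℤ), K < n → ∀ f : ℍ → ℂ, IsMF N K f →
    ∃ r : ℕ → ℕ → ℍ → ℂ, (∀ k i : ℕ, IsMF1 (K - k) (r k i)) ∧ f = gsum N n r := by
  induction n with
  | zero =>
    intro K hK f hf
    refine ⟨fun _ _ => 0, fun _ _ => isMF1_zero, ?_⟩
    rw [hf.eq_zero_of_neg (by simpa using hK), gsum_zero]
  | succ n ih =>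
    intro K hK f hf
    have hK' : K ≤ n := by
      have : K < (n : ℤ) + 1 := by exact_mod_cast hK
      omega
    rcases lt_or_eq_of_le hK' with h | h
    · obtain ⟨r, hr, hfr⟩ := ih K h f hf
      exact ⟨r, hr, by rw [hfr]; exact gsum_mono hr h (Nat.le_succ n)⟩
    · subst h
      obtain ⟨c, A, B, hA, hB, hdec⟩ := bfun_span n f hf
      obtain ⟨a, ha, hAa⟩ := ih ((n : ℤ) - 4) (by omega) A hA
      obtain ⟨b, hb, hBb⟩ := ih ((n : ℤ) - 6) (by omega) B hB
      refine ⟨fun k i => (if k = n then Function.const ℍ (c i) else 0) +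
        ((E₄ : ℍ → ℂ) * a k i + (E₆ : ℍ → ℂ) * b k i), fun k i => ?_, ?_⟩
      · refine IsMF1.add ?_ (IsMF1.add ?_ ?_)
        · split_ifs with hkn
          · subst hkn
            rw [sub_self]
            exact ⟨ModularForm.const (c i), rfl⟩
          · exact isMF1_zero
        · exact isMF1_E4.mul' (ha k i) (by ring)
        · exact isMF1_E6.mul' (hb k i) (by ring)
      · rw [gsum_add, gsum_add, gsum_top, gsum_mul_left, gsum_mul_left,
          ← gsum_mono ha (by omega : ((n : ℤ) - 4) < n) (Nat.le_succ n),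
          ← gsum_mono hb (by omega : ((n : ℤ) - 6) < n) (Nat.le_succ n), ← hAa, ← hBb, ← hdec]
        abel

theorem graded_indep (n : ℕ) : ∀ (K : ℤ), K < n → ∀ r : ℕ → ℕ → ℍ → ℂ,
    (∀ k i : ℕ, IsMF1 (K - k) (r k i)) → gsum N n r = 0 → ∀ k i, i < nb N k → r k i = 0 := by
  induction n with
  | zero =>
    intro K hK r hr _ k i _
    exact (hr k i).eq_zero_of_neg (by
      have : K < 0 := by simpa using hK
      omega)
  | succ n ih =>
    intro K hK r hr h0
    have hK' : K ≤ n := by
      have : K < (n : ℤ) + 1 := by exact_mod_cast hK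
      omega
    rcases lt_or_eq_of_le hK' with h | h
    · rw [← gsum_mono hr h (Nat.le_succ n)] at h0
      exact ih K h r hr h0
    · subst h
      -- decompose the coefficients
      have hdec : ∀ k i : ℕ, ∃ (c : ℂ) (a b : ℍ → ℂ), IsMF1 ((n : ℤ) - 4 - k) a ∧
          IsMF1 ((n : ℤ) - 6 - k) b ∧
          r k i = (if k = n then Function.const ℍ c else 0) +
            ((E₄ : ℍ → ℂ) * a + (E₆ : ℍ → ℂ) * b) := by
        intro k i
        by_cases hkn : k = n
        · subst hkn
          have h1 := hr k i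
          rw [sub_self] at h1
          obtain ⟨c, hc⟩ := h1.eq_const_of_weight_zero
          exact ⟨c, 0, 0, isMF1_zero, isMF1_zero, by simp [hc]⟩
        · have hne : (n : ℤ) - k ≠ 0 := by
            intro h
            apply hkn
            have : (n : ℤ) = k := by omega
            exact_mod_cast this.symm
          obtain ⟨a, b, ha, hb, hab⟩ := (hr k i).exists_eq_E4_mul_add_E6_mul hne
          refine ⟨0, a, b, ?_, ?_, ?_⟩
          · convert ha using 1; ring
          · convert hb using 1; ring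
          · rw [if_neg hkn, zero_add]; exact hab
      choose c a b ha hb hrab using hdec
      have hr' : r = fun k i => (if k = n then Function.const ℍ (c n i) else 0) +
          ((E₄ : ℍ → ℂ) * a k i + (E₆ : ℍ → ℂ) * b k i) := by
        funext k i
        rw [hrab k i]
        by_cases hkn : k = n
        · subst hkn; rfl
        · simp [hkn]
      have hA : IsMF N ((n : ℤ) - 4) (gsum N (n + 1) a) := gsum_isMF ha
      have hB : IsMF N ((n : ℤ) - 6) (gsum N (n + 1) b) := gsum_isMF hb
      have hsum : ∑ i ∈ Finset.range (nb N n), c n i • bfun N n i +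
          ((E₄ : ℍ → ℂ) * gsum N (n + 1) a + (E₆ : ℍ → ℂ) * gsum N (n + 1) b) = 0 := by
        rw [← h0]
        conv_rhs => rw [hr']
        rw [gsum_add, gsum_add, gsum_top, gsum_mul_left, gsum_mul_left]
      -- the top coefficients vanish
      have hc0 : ∀ i < nb N n, c n i = 0 := by
        apply bfun_indep n
        refine ⟨-gsum N (n + 1) a, -gsum N (n + 1) b, hA.neg, hB.neg, ?_⟩
        rw [eq_neg_of_add_eq_zero_left hsum]
        ring
      have hsum0 : ∑ i ∈ Finset.range (nb N n), c n i • bfun N n i = 0 :=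
        Finset.sum_eq_zero fun i hi => by
          rw [hc0 i (Finset.mem_range.mp hi), zero_smul]
      rw [hsum0, zero_add] at hsum
      obtain ⟨C, hC, hAC, hBC⟩ := koszul hA hB hsum
      obtain ⟨c', hc', hCc'⟩ := graded_span n ((n : ℤ) - 10) (by omega) C hC
      have ha' : ∀ k i : ℕ, i < nb N k → a k i - (E₆ : ℍ → ℂ) * c' k i = 0 := by
        apply ih ((n : ℤ) - 4) (by omega)
        · intro k i
          exact (ha k i).sub (isMF1_E6.mul' (hc' k i) (by ring))
        · rw [gsum_sub, gsum_mul_left, ← hCc',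
            gsum_mono ha (by omega : ((n : ℤ) - 4) < n) (Nat.le_succ n), hAC, sub_self]
      have hb' : ∀ k i : ℕ, i < nb N k → b k i + (E₄ : ℍ → ℂ) * c' k i = 0 := by
        apply ih ((n : ℤ) - 6) (by omega)
        · intro k i
          exact (hb k i).add (isMF1_E4.mul' (hc' k i) (by ring))
        · rw [gsum_add, gsum_mul_left, ← hCc',
            gsum_mono hb (by omega : ((n : ℤ) - 6) < n) (Nat.le_succ n), hBC, neg_add_cancel]
      intro k i hi
      rw [hrab k i]
      have h1 : a k i = (E₆ : ℍ → ℂ) * c' k i := sub_eq_zero.mp (ha' k i hi)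
      have h2 : b k i = -((E₄ : ℍ → ℂ) * c' k i) := eq_neg_of_add_eq_zero_left (hb' k i hi)
      have h3 : (if k = n then Function.const ℍ (c k i) else 0) = (0 : ℍ → ℂ) := by
        split_ifs with hkn
        · subst hkn
          rw [hc0 i hi]
          rfl
        · rfl
      rw [h3, h1, h2]
      ring

end Fermat.Agent.S20
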