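import Mathlib.Analysis.SpecialFunctions.Elliptic.Weierstrass
import Mathlib.NumberTheory.ModularForms.LevelOne.GradedRing
import Mathlib.NumberTheory.ModularForms.EisensteinSeries.QExpansion
import Mathlib.RingTheory.MvPolynomial.WeightedHomogeneous
import Mathlib.Analysis.Complex.Polynomial.Basic

/-!
# S20 package A: injectivity of `j` on `SL(2,ℤ) \ ℍ`

Main results (namespace `Fermat.Agent.S20`):
* `S20_lattice_eq_of_G_eq`: a lattice is determined by its sums `G n`, `n ≥ 3`.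
* `S20_levelOne_poly`: every level one modular form of weight `k` is a weighted homogeneous
  polynomial (weights `4, 6`) in `E₄, E₆`.
* `S20_E4E6_scale`: if `E₄ τ₂ = c⁴ E₄ τ₁` and `E₆ τ₂ = c⁶ E₆ τ₁` then `τ₁, τ₂` are `SL(2,ℤ)`-equivalent.
* `j_inj`: `E₄ τ₁ ^ 3 * Δ τ₂ = E₄ τ₂ ^ 3 * Δ τ₁ → ∃ γ : SL(2,ℤ), γ • τ₂ = τ₁`.
-/

set_option autoImplicit false

open Filter Topology UpperHalfPlane ModularForm ModularFormClass MatrixGroups EisensteinSeries

namespace Fermat.Agent.S20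

open PeriodPair


open PeriodPair

/-- `℘[L - 0] 0 = 0`. -/
theorem S20_weierstrassPExcept_zero_zero (L : PeriodPair) : ℘[L - (0:ℂ)] 0 = 0 := by
  have h := L.weierstrassPExcept_add (0 : L.lattice) 0
  rw [L.weierstrassP_zero] at h
  simp at h ⊢

/-- If all lattice sums agree then the `℘`-functions agree on a punctured neighbourhood of `0`. -/
theorem S20_weierstrassP_eventuallyEq_of_G_eq (L₁ L₂ : PeriodPair)
    (h : ∀ n, 3 ≤ n → L₁.G n = L₂.G n) : ∀ᶠ z in 𝓝 (0:ℂ), ℘[L₁] z = ℘[L₂] z := by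
  have h1 := L₁.hasFPowerSeriesAt_weierstrassPExcept 0
  have h2 := L₂.hasFPowerSeriesAt_weierstrassPExcept 0
  have hcoef : (fun i : ℕ => if i = 0 then ℘[L₁ - (0:ℂ)] 0 else (↑i + 1) * L₁.sumInvPow 0 (i + 2))
      = (fun i : ℕ => if i = 0 then ℘[L₂ - (0:ℂ)] 0 else (↑i + 1) * L₂.sumInvPow 0 (i + 2)) := by
    funext i
    by_cases hi : i = 0
    · simp only [hi, if_true, S20_weierstrassPExcept_zero_zero]
    · simp only [hi, if_false, sumInvPow_zero]
      rw [h (i + 2) (by omega)]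
  rw [hcoef] at h1
  have h3 := (h1.sub h2)
  rw [sub_self] at h3
  have h4 := h3.eventually_eq_zero
  filter_upwards [h4] with z hz
  have e1 := L₁.weierstrassPExcept_add (0 : L₁.lattice) z
  have e2 := L₂.weierstrassPExcept_add (0 : L₂.lattice) z
  simp only [ZeroMemClass.coe_zero, sub_zero] at e1 e2
  rw [← e1, ← e2]
  have : ℘[L₁ - (0:ℂ)] z = ℘[L₂ - (0:ℂ)] z := by
    have := hz
    simp only [Pi.sub_apply] at this
    exact sub_eq_zero.mp this
  rw [this]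

theorem S20_lattice_le_of_G_eq (L₁ L₂ : PeriodPair)
    (h : ∀ n, 3 ≤ n → L₁.G n = L₂.G n) : L₁.lattice ≤ L₂.lattice := by
  classical
  set U : Set ℂ := ((L₁.lattice : Set ℂ) ∪ (L₂.lattice : Set ℂ))ᶜ with hU
  have hcount : ((L₁.lattice : Set ℂ) ∪ (L₂.lattice : Set ℂ)).Countable := by
    have : Countable L₁.lattice := L₁.latticeEquivProd.toEquiv.countable_iff.mpr inferInstance
    have : Countable L₂.lattice := L₂.latticeEquivProd.toEquiv.countable_iff.mpr inferInstance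
    exact (Set.to_countable (L₁.lattice : Set ℂ)).union (Set.to_countable (L₂.lattice : Set ℂ))
  have hconn : IsPreconnected U :=
    (Set.Countable.isConnected_compl_of_one_lt_rank (by simp) hcount).isPreconnected
  have hopen : IsOpen U := (L₁.isClosed_lattice.union L₂.isClosed_lattice).isOpen_compl
  have hev := S20_weierstrassP_eventuallyEq_of_G_eq L₁ L₂ h
  -- a base point
  have hnear : ∀ᶠ y in 𝓝 (0:ℂ), y ≠ 0 → (y ∈ U ∧ ∀ᶠ z in 𝓝 y, ℘[L₁] z = ℘[L₂] z) := by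
    have ha := L₁.compl_lattice_sdiff_singleton_mem_nhds 0
    have hb := L₂.compl_lattice_sdiff_singleton_mem_nhds 0
    filter_upwards [ha, hb, eventually_eventually_nhds.mpr hev] with y hy1 hy2 hy3 hy0
    refine ⟨?_, hy3⟩
    simp only [hU, Set.mem_compl_iff, Set.mem_union, not_or]
    constructor
    · intro hy; exact hy1 ⟨hy, hy0⟩
    · intro hy; exact hy2 ⟨hy, hy0⟩
  obtain ⟨y, hy0, hyU, hyev⟩ : ∃ y : ℂ, y ≠ 0 ∧ y ∈ U ∧ ∀ᶠ z in 𝓝 y, ℘[L₁] z = ℘[L₂] z := by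
    have hne : (𝓝[≠] (0:ℂ)).NeBot := inferInstance
    have h1 : ∀ᶠ y in 𝓝[≠] (0:ℂ), y ≠ 0 → (y ∈ U ∧ ∀ᶠ z in 𝓝 y, ℘[L₁] z = ℘[L₂] z) :=
      hnear.filter_mono nhdsWithin_le_nhds
    have h2 : ∀ᶠ y in 𝓝[≠] (0:ℂ), y ∈ ({0}ᶜ : Set ℂ) := self_mem_nhdsWithin
    obtain ⟨y, hy1, hy2⟩ := (h1.and h2).exists
    exact ⟨y, hy2, (hy1 hy2).1, (hy1 hy2).2⟩
  have hA1 : AnalyticOnNhd ℂ ℘[L₁] U :=
    L₁.analyticOnNhd_weierstrassP.mono (by
      intro x hx; simp only [hU, Set.mem_compl_iff, Set.mem_union, not_or] at hx; exact hx.1)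
  have hA2 : AnalyticOnNhd ℂ ℘[L₂] U :=
    L₂.analyticOnNhd_weierstrassP.mono (by
      intro x hx; simp only [hU, Set.mem_compl_iff, Set.mem_union, not_or] at hx; exact hx.2)
  have hEq : Set.EqOn ℘[L₁] ℘[L₂] U :=
    hA1.eqOn_of_preconnected_of_eventuallyEq hA2 hconn hyU hyev
  intro l hl
  by_contra hl2
  have ho1 := L₁.order_weierstrassP l hl
  have han : AnalyticAt ℂ ℘[L₂] l := L₂.analyticOnNhd_weierstrassP l hl2
  have ho2 := han.meromorphicOrderAt_nonneg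
  have hcongr : ℘[L₁] =ᶠ[𝓝[≠] l] ℘[L₂] := by
    have ha := L₁.compl_lattice_sdiff_singleton_mem_nhds l
    have hb : (L₂.lattice : Set ℂ)ᶜ ∈ 𝓝 l := L₂.isClosed_lattice.isOpen_compl.mem_nhds hl2
    rw [Filter.EventuallyEq, eventually_nhdsWithin_iff]
    filter_upwards [ha, hb] with z hz1 hz2 hz
    apply hEq
    simp only [hU, Set.mem_compl_iff, Set.mem_union, not_or]
    exact ⟨fun h' => hz1 ⟨h', hz⟩, hz2⟩
  rw [meromorphicOrderAt_congr hcongr, ] at ho1
  rw [ho1] at ho2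
  exact absurd ho2 (by decide)

theorem S20_lattice_eq_of_G_eq (L₁ L₂ : PeriodPair)
    (h : ∀ n, 3 ≤ n → L₁.G n = L₂.G n) : L₁.lattice = L₂.lattice :=
  le_antisymm (S20_lattice_le_of_G_eq L₁ L₂ h) (S20_lattice_le_of_G_eq L₂ L₁ fun n hn => (h n hn).symm)



/-- weights of `E₄`, `E₆` -/
def S20_w46 : Fin 2 → ℕ := ![4, 6]

/-- The monomial `E₄^a E₆^b` as a level one modular form of weight `k = 4a+6b`. -/
noncomputable def S20_monoForm (a b k : ℕ) (h : 4 * a + 6 * b = k) : ModularForm 𝒮ℒ (k : ℤ) :=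
  ModularForm.mcast (by push_cast [← h]; ring) ((E₄.pow a).mul (E₆.pow b))

theorem S20_monoForm_apply (a b k : ℕ) (h : 4 * a + 6 * b = k) (z : ℍ) :
    S20_monoForm a b k h z = E₄ z ^ a * E₆ z ^ b := by
  simp [S20_monoForm, ModularForm.coe_mcast, ModularForm.coe_mul, ModularForm.coe_pow]

theorem S20_monoForm_coeff_zero (a b k : ℕ) (h : 4 * a + 6 * b = k) :
    (qExpansion 1 (S20_monoForm a b k h)).coeff 0 = 1 := by
  have h1 : (⇑(S20_monoForm a b k h) : ℍ → ℂ) = ⇑((E₄.pow a).mul (E₆.pow b)) := by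
    simp [S20_monoForm, ModularForm.coe_mcast]
  rw [h1, ModularForm.qExpansion_mul one_pos one_mem_strictPeriods_SL,
    ModularForm.qExpansion_pow one_pos one_mem_strictPeriods_SL,
    ModularForm.qExpansion_pow one_pos one_mem_strictPeriods_SL]
  simp only [PowerSeries.coeff_zero_eq_constantCoeff, map_mul, map_pow]
  have e4 := E_qExpansion_coeff_zero (k := 4) (by norm_num) ⟨2, rfl⟩
  have e6 := E_qExpansion_coeff_zero (k := 6) (by norm_num) ⟨3, rfl⟩
  simp only [PowerSeries.coeff_zero_eq_constantCoeff] at e4 e6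
  rw [e4, e6]; simp

theorem S20_exists_ab (k : ℕ) (hk : 4 ≤ k) (hk2 : Even k) : ∃ a b : ℕ, 4 * a + 6 * b = k := by
  obtain ⟨m, hm⟩ := hk2
  rcases Nat.even_or_odd m with ⟨n, hn⟩ | ⟨n, hn⟩
  · exact ⟨n, 0, by omega⟩
  · exact ⟨n - 1, 1, by omega⟩

/-- Every level one modular form is a weighted homogeneous polynomial in `E₄`, `E₆`. -/
theorem S20_levelOne_poly (k : ℕ) (F : ModularForm 𝒮ℒ (k : ℤ)) :
    ∃ P : MvPolynomial (Fin 2) ℂ, P.IsWeightedHomogeneous S20_w46 k ∧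
      ∀ z, F z = MvPolynomial.eval ![E₄ z, E₆ z] P := by
  induction k using Nat.strong_induction_on with
  | _ k ih =>
  rcases Nat.even_or_odd k with hk2 | hk2
  swap
  · have : F = 0 := ModularForm.levelOne_odd_weight_eq_zero (by exact_mod_cast hk2) F
    exact ⟨0, MvPolynomial.isWeightedHomogeneous_zero _ _ _, fun z => by simp [this]⟩
  rcases Nat.lt_or_ge k 4 with hk4 | hk4
  · -- k = 0 or k = 2
    have hk02 : k = 0 ∨ k = 2 := by
      obtain ⟨m, hm⟩ := hk2; omega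
    rcases hk02 with rfl | rfl
    · obtain ⟨c, hc⟩ := levelOne_weight_zero_const (F := ModularForm 𝒮ℒ ((0:ℕ):ℤ)) F
      refine ⟨MvPolynomial.C c, MvPolynomial.isWeightedHomogeneous_C _ c, fun z => ?_⟩
      simp [hc]
    · have h0 : F = 0 := by
        have := ModularForm.levelOne_weight_two_rank_zero
        exact (rank_zero_iff_forall_zero.mp this) F
      exact ⟨0, MvPolynomial.isWeightedHomogeneous_zero _ _ _, fun z => by simp [h0]⟩
  · obtain ⟨a, b, hab⟩ := S20_exists_ab k hk4 hk2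
    set G := S20_monoForm a b k hab with hG
    set c₀ : ℂ := (qExpansion 1 F).coeff 0 with hc₀
    set F' : ModularForm 𝒮ℒ (k : ℤ) := F - c₀ • G with hF'
    have hcusp : (qExpansion 1 F').coeff 0 = 0 := by
      rw [hF', FunLike.coe_sub, ModularForm.qExpansion_sub one_pos one_mem_strictPeriods_SL,
        FunLike.coe_smul, ModularForm.qExpansion_smul one_pos one_mem_strictPeriods_SL, map_sub,
        PowerSeries.coeff_smul, S20_monoForm_coeff_zero]
      simp [hc₀]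
    set H := CuspForm.discriminantEquiv (ModularForm.toCuspForm F' hcusp) with hH
    have hHz : ∀ z, ModularForm.discriminant z * H z = F z - c₀ * (E₄ z ^ a * E₆ z ^ b) := by
      intro z
      rw [hH, ModularForm.discriminant_mul_discriminantEquiv_apply, ModularForm.toCuspForm_apply]
      simp [hF', S20_monoForm_apply, hG]
    have hmono : (MvPolynomial.X 0 ^ a * MvPolynomial.X 1 ^ b : MvPolynomial (Fin 2) ℂ).IsWeightedHomogeneous
        S20_w46 k := by
      have h1 := ((MvPolynomial.isWeightedHomogeneous_X ℂ S20_w46 0).pow a).mul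
        ((MvPolynomial.isWeightedHomogeneous_X ℂ S20_w46 1).pow b)
      have : a • S20_w46 0 + b • S20_w46 1 = k := by
        simp [S20_w46]; omega
      rwa [this] at h1
    rcases Nat.lt_or_ge k 12 with hk12 | hk12
    · have hH0 : (⇑H : ℍ → ℂ) = 0 := levelOne_neg_weight_eq_zero (by omega) H
      refine ⟨MvPolynomial.C c₀ * (MvPolynomial.X 0 ^ a * MvPolynomial.X 1 ^ b), ?_, fun z => ?_⟩
      · have := (MvPolynomial.isWeightedHomogeneous_C S20_w46 c₀).mul hmono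
        rwa [zero_add] at this
      · have := hHz z
        rw [hH0] at this
        simp only [Pi.zero_apply, mul_zero] at this
        have : F z = c₀ * (E₄ z ^ a * E₆ z ^ b) := by linear_combination -this
        simp [this]
    · -- induction
      have hcast : ((k : ℤ) - 12) = ((k - 12 : ℕ) : ℤ) := by omega
      obtain ⟨P', hP', hP'z⟩ := ih (k - 12) (by omega) (ModularForm.mcast hcast H)
      refine ⟨MvPolynomial.C c₀ * (MvPolynomial.X 0 ^ a * MvPolynomial.X 1 ^ b) +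
        MvPolynomial.C (1 / 1728) * ((MvPolynomial.X 0 ^ 3 - MvPolynomial.X 1 ^ 2) * P'), ?_, fun z => ?_⟩
      · apply MvPolynomial.IsWeightedHomogeneous.add
        · have := (MvPolynomial.isWeightedHomogeneous_C S20_w46 c₀).mul hmono
          rwa [zero_add] at this
        · have hD : (MvPolynomial.X 0 ^ 3 - MvPolynomial.X 1 ^ 2 : MvPolynomial (Fin 2) ℂ).IsWeightedHomogeneous
              S20_w46 12 := by
            have h1 := (MvPolynomial.isWeightedHomogeneous_X ℂ S20_w46 0).pow 3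
            have h2 := (MvPolynomial.isWeightedHomogeneous_X ℂ S20_w46 1).pow 2
            have e1 : 3 • S20_w46 0 = 12 := by simp [S20_w46]
            have e2 : 2 • S20_w46 1 = 12 := by simp [S20_w46]
            rw [e1] at h1; rw [e2] at h2
            exact h1.sub h2
          have := (MvPolynomial.isWeightedHomogeneous_C S20_w46 (1/1728 : ℂ)).mul (hD.mul hP')
          have e : 0 + (12 + (k - 12)) = k := by omega
          rwa [e] at this
      · have h1 := hHz z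
        have h2 := hP'z z
        rw [ModularForm.coe_mcast] at h2
        rw [ModularForm.discriminant_eq_E₄_cube_sub_E₆_sq, h2] at h1
        simp only [map_add, map_mul, map_sub, map_pow, MvPolynomial.eval_C, MvPolynomial.eval_X]
        simp only [Matrix.cons_val_zero, Matrix.cons_val_one]
        linear_combination -h1



theorem S20_eval_scale (P : MvPolynomial (Fin 2) ℂ) (k : ℕ)
    (hP : P.IsWeightedHomogeneous S20_w46 k) (c x y : ℂ) :
    MvPolynomial.eval ![c ^ 4 * x, c ^ 6 * y] P = c ^ k * MvPolynomial.eval ![x, y] P := by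
  rw [MvPolynomial.eval_eq', MvPolynomial.eval_eq', Finset.mul_sum]
  refine Finset.sum_congr rfl fun d hd => ?_
  have hd' : MvPolynomial.coeff d P ≠ 0 := MvPolynomial.mem_support_iff.mp hd
  have hw := hP hd'
  have hw' : d 0 * 4 + d 1 * 6 = k := by
    rw [← hw]
    simp [Finsupp.weight_apply, Finsupp.sum_fintype, Fin.sum_univ_two, S20_w46]
  simp only [Fin.prod_univ_two, Matrix.cons_val_zero, Matrix.cons_val_one]
  rw [← hw']
  ring

/-- The period pair `(μ τ, μ)`. -/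
noncomputable def S20_pp (μ : ℂ) (hμ : μ ≠ 0) (τ : ℍ) : PeriodPair where
  ω₁ := μ * τ
  ω₂ := μ
  indep := by
    rw [LinearIndependent.pair_iff]
    intro s t h
    have h1 : μ * ((s : ℂ) * τ + t) = 0 := by
      simp only [Complex.real_smul] at h
      linear_combination h
    have h2 : (s : ℂ) * τ + t = 0 := by
      rcases mul_eq_zero.mp h1 with h | h
      · exact absurd h hμ
      · exact h
    have h3 := congrArg Complex.im h2
    simp at h3
    have hs : s = 0 := by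
      rcases h3 with h | h
      · exact h
      · exact absurd h τ.im_ne_zero
    subst hs
    simp at h2
    exact ⟨rfl, h2⟩

@[simp] theorem S20_pp_ω₁ (μ : ℂ) (hμ : μ ≠ 0) (τ : ℍ) : (S20_pp μ hμ τ).ω₁ = μ * τ := rfl
@[simp] theorem S20_pp_ω₂ (μ : ℂ) (hμ : μ ≠ 0) (τ : ℍ) : (S20_pp μ hμ τ).ω₂ = μ := rfl

theorem S20_tsum_lattice (L : PeriodPair) (f : ℂ → ℂ) :
    ∑' l : L.lattice, f l = ∑' x : ℤ × ℤ, f (x.1 * L.ω₁ + x.2 * L.ω₂) := by
  rw [← L.latticeEquivProd.symm.toEquiv.tsum_eq]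
  refine tsum_congr fun x => ?_
  congr 1
  exact L.latticeEquiv_symm_apply x

theorem S20_pp_G (μ : ℂ) (hμ : μ ≠ 0) (τ : ℍ) (k : ℕ) (hk : 3 ≤ k) :
    (S20_pp μ hμ τ).G k = (μ ^ k)⁻¹ * (riemannZeta k * eisensteinSeries (N := 1) 0 k τ) := by
  rw [← tsum_eisSummand_eq_riemannZeta_mul_eisensteinSeries hk τ, PeriodPair.G, ← tsum_mul_left]
  rw [S20_tsum_lattice (S20_pp μ hμ τ) (fun l => (l ^ k)⁻¹)]
  rw [← (finTwoArrowEquiv ℤ).symm.tsum_eq]
  refine tsum_congr fun x => ?_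
  simp only [eisSummand, S20_pp_ω₁, S20_pp_ω₂]
  simp only [finTwoArrowEquiv_symm_apply, Matrix.cons_val_zero, Matrix.cons_val_one]
  rw [zpow_neg, zpow_natCast, ← mul_inv, ← mul_pow]
  congr 2
  ring



/-- Algebraic step: equal `j` gives a scaling factor. -/
theorem S20_exists_scale (a₁ b₁ a₂ b₂ : ℂ) (h1 : a₁ ^ 3 - b₁ ^ 2 ≠ 0) (h2 : a₂ ^ 3 - b₂ ^ 2 ≠ 0)
    (h : a₁ ^ 3 * (a₂ ^ 3 - b₂ ^ 2) = a₂ ^ 3 * (a₁ ^ 3 - b₁ ^ 2)) :
    ∃ c : ℂ, c ≠ 0 ∧ a₂ = c ^ 4 * a₁ ∧ b₂ = c ^ 6 * b₁ := by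
  have hab : a₁ ^ 3 * b₂ ^ 2 = a₂ ^ 3 * b₁ ^ 2 := by linear_combination -h
  by_cases ha1 : a₁ = 0
  · subst ha1
    have hb1 : b₁ ≠ 0 := by
      intro hb; apply h1; rw [hb]; ring
    have ha2 : a₂ = 0 := by
      have : a₂ ^ 3 * b₁ ^ 2 = 0 := by rw [← hab]; ring
      rcases mul_eq_zero.mp this with h' | h'
      · exact pow_eq_zero_iff (by norm_num) |>.mp h'
      · exact absurd (pow_eq_zero_iff (by norm_num) |>.mp h') hb1
    subst ha2
    have hb2 : b₂ ≠ 0 := by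
      intro hb; apply h2; rw [hb]; ring
    obtain ⟨c, hc⟩ := IsAlgClosed.exists_pow_nat_eq (b₂ / b₁) (n := 6) (by norm_num)
    refine ⟨c, ?_, by ring, ?_⟩
    · rintro rfl
      have : b₂ / b₁ = 0 := by rw [← hc]; ring
      exact absurd this (div_ne_zero hb2 hb1)
    · rw [hc]; field_simp
  · by_cases hb1 : b₁ = 0
    · subst hb1
      have hb2 : b₂ = 0 := by
        have : a₁ ^ 3 * b₂ ^ 2 = 0 := by rw [hab]; ring
        rcases mul_eq_zero.mp this with h' | h'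
        · exact absurd (pow_eq_zero_iff (by norm_num) |>.mp h') ha1
        · exact pow_eq_zero_iff (by norm_num) |>.mp h'
      subst hb2
      have ha2 : a₂ ≠ 0 := by
        intro ha; apply h2; rw [ha]; ring
      obtain ⟨c, hc⟩ := IsAlgClosed.exists_pow_nat_eq (a₂ / a₁) (n := 4) (by norm_num)
      refine ⟨c, ?_, ?_, by ring⟩
      · rintro rfl
        have : a₂ / a₁ = 0 := by rw [← hc]; ring
        exact absurd this (div_ne_zero ha2 ha1)
      · rw [hc]; field_simp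
    · have ha2 : a₂ ≠ 0 := by
        intro ha
        rw [ha] at hab
        have : a₁ ^ 3 * b₂ ^ 2 = 0 := by rw [hab]; ring
        rcases mul_eq_zero.mp this with h' | h'
        · exact absurd (pow_eq_zero_iff (by norm_num) |>.mp h') ha1
        · have hb2 : b₂ = 0 := pow_eq_zero_iff (by norm_num) |>.mp h'
          apply h2; rw [ha, hb2]; ring
      have hb2 : b₂ ≠ 0 := by
        intro hb
        rw [hb] at hab
        have : a₂ ^ 3 * b₁ ^ 2 = 0 := by rw [← hab]; ring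
        rcases mul_eq_zero.mp this with h' | h'
        · exact absurd (pow_eq_zero_iff (by norm_num) |>.mp h') ha2
        · exact absurd (pow_eq_zero_iff (by norm_num) |>.mp h') hb1
      obtain ⟨c, hc⟩ := IsAlgClosed.exists_pow_nat_eq ((b₂ / b₁) / (a₂ / a₁)) (n := 2) (by norm_num)
      have hAB : (a₂ / a₁) ^ 3 = (b₂ / b₁) ^ 2 := by
        field_simp
        linear_combination -hab
      refine ⟨c, ?_, ?_, ?_⟩
      · rintro rfl
        have : (b₂ / b₁) / (a₂ / a₁) = 0 := by rw [← hc]; ring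
        exact absurd this (div_ne_zero (div_ne_zero hb2 hb1) (div_ne_zero ha2 ha1))
      · have : c ^ 4 = a₂ / a₁ := by
          have : c ^ 4 = (c ^ 2) ^ 2 := by ring
          rw [this, hc, div_pow, ← hAB]
          field_simp
        rw [this]; field_simp
      · have : c ^ 6 = b₂ / b₁ := by
          have : c ^ 6 = (c ^ 2) ^ 3 := by ring
          rw [this, hc, div_pow, hAB]
          field_simp
        rw [this]; field_simp



/-- integer combination of `τ, 1` vanishing forces the coefficients to vanish -/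
theorem S20_int_indep (τ : ℍ) (m n : ℤ) (h : (m : ℂ) * τ + n = 0) : m = 0 ∧ n = 0 := by
  have h3 := congrArg Complex.im h
  simp at h3
  have hm : m = 0 := by
    rcases h3 with h | h
    · exact_mod_cast h
    · exact absurd h τ.im_ne_zero
  subst hm
  simp at h
  exact ⟨rfl, h⟩

theorem S20_exists_SL_of_lattice_eq (μ : ℂ) (hμ : μ ≠ 0) (τ₁ τ₂ : ℍ)
    (h : (S20_pp μ hμ τ₁).lattice = (S20_pp 1 one_ne_zero τ₂).lattice) :
    ∃ γ : SL(2, ℤ), γ • τ₂ = τ₁ := by
  have m1 : μ * τ₁ ∈ (S20_pp 1 one_ne_zero τ₂).lattice := h ▸ (S20_pp μ hμ τ₁).ω₁_mem_lattice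
  have m2 : μ ∈ (S20_pp 1 one_ne_zero τ₂).lattice := h ▸ (S20_pp μ hμ τ₁).ω₂_mem_lattice
  have m3 : (1 * (τ₂ : ℂ)) ∈ (S20_pp μ hμ τ₁).lattice := h ▸ (S20_pp 1 one_ne_zero τ₂).ω₁_mem_lattice
  have m4 : (1 : ℂ) ∈ (S20_pp μ hμ τ₁).lattice := h ▸ (S20_pp 1 one_ne_zero τ₂).ω₂_mem_lattice
  obtain ⟨a', b', e1⟩ := PeriodPair.mem_lattice.mp m1
  obtain ⟨c', d', e2⟩ := PeriodPair.mem_lattice.mp m2
  obtain ⟨a, b, e3⟩ := PeriodPair.mem_lattice.mp m3
  obtain ⟨c, d, e4⟩ := PeriodPair.mem_lattice.mp m4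
  simp only [S20_pp_ω₁, S20_pp_ω₂, one_mul, mul_one] at e1 e2 e3 e4
  -- matrix identities
  have k1 : ((a * a' + b * c' - 1 : ℤ) : ℂ) * τ₂ + ((a * b' + b * d' : ℤ) : ℂ) = 0 := by
    push_cast
    linear_combination (a : ℂ) * e1 + (b : ℂ) * e2 + e3
  have k2 : ((c * a' + d * c' : ℤ) : ℂ) * τ₂ + ((c * b' + d * d' - 1 : ℤ) : ℂ) = 0 := by
    push_cast
    linear_combination (c : ℂ) * e1 + (d : ℂ) * e2 + e4
  obtain ⟨i1, i2⟩ := S20_int_indep τ₂ _ _ k1
  obtain ⟨i3, i4⟩ := S20_int_indep τ₂ _ _ k2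
  have hdet : (a * d - b * c) * (a' * d' - b' * c') = 1 := by
    linear_combination (c * b' + d * d') * i1 + i4 - (c * a' + d * c') * i2
  -- imaginary parts
  have hE : (τ₁ : ℂ) * (c' * τ₂ + d') = a' * τ₂ + b' := by
    rw [e1, e2]; ring
  have hRe := congrArg Complex.re hE
  have hIm := congrArg Complex.im hE
  simp only [Complex.mul_re, Complex.mul_im, Complex.add_re, Complex.add_im, Complex.intCast_re,
    Complex.intCast_im, zero_mul, sub_zero, add_zero, UpperHalfPlane.coe_re, UpperHalfPlane.coe_im] at hRe hIm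
  have hμ' : (c' : ℂ) * τ₂ + d' ≠ 0 := by rw [e2]; exact hμ
  have hnorm : 0 < ((c' : ℝ) * τ₂.re + d') ^ 2 + ((c' : ℝ) * τ₂.im) ^ 2 := by
    have hne : ((c' : ℝ) * τ₂.re + d') ≠ 0 ∨ ((c' : ℝ) * τ₂.im) ≠ 0 := by
      by_contra hcon
      push Not at hcon
      apply hμ'
      apply Complex.ext
      · simp [hcon.1]
      · simp [hcon.2]
    rcases hne with h' | h'
    · have := sq_pos_of_ne_zero h'
      positivity
    · have := sq_pos_of_ne_zero h'
      positivity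
  have hid : ((a' : ℝ) * d' - b' * c') * τ₂.im =
      τ₁.im * (((c' : ℝ) * τ₂.re + d') ^ 2 + ((c' : ℝ) * τ₂.im) ^ 2) := by
    linear_combination ((c' : ℝ) * τ₂.im) * hRe - ((c' : ℝ) * τ₂.re + d') * hIm
  have hpos : 0 < ((a' : ℝ) * d' - b' * c') := by
    have h1 : 0 < τ₁.im * (((c' : ℝ) * τ₂.re + d') ^ 2 + ((c' : ℝ) * τ₂.im) ^ 2) :=
      mul_pos τ₁.im_pos hnorm
    rw [← hid] at h1
    exact (pos_iff_pos_of_mul_pos h1).mpr τ₂.im_pos
  have hposZ : 0 < a' * d' - b' * c' := by exact_mod_cast hpos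
  have hdet1 : a' * d' - b' * c' = 1 := by
    have hu : IsUnit (a' * d' - b' * c') := IsUnit.of_mul_eq_one _ (by rw [mul_comm]; exact hdet)
    rcases Int.isUnit_iff.mp hu with h' | h'
    · exact h'
    · omega
  have hdetM : (!![a', b'; c', d'] : Matrix (Fin 2) (Fin 2) ℤ).det = 1 := by
    rw [Matrix.det_fin_two_of]; exact hdet1
  let γ : SL(2, ℤ) := ⟨!![a', b'; c', d'], hdetM⟩
  refine ⟨γ, ?_⟩
  apply UpperHalfPlane.ext
  rw [UpperHalfPlane.specialLinearGroup_apply]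
  simp only [γ, Matrix.of_apply, Matrix.cons_val', Matrix.cons_val_zero, Matrix.cons_val_one,
    Matrix.cons_val_fin_one, algebraMap_int_eq, Int.coe_castRingHom, Complex.ofReal_intCast]
  rw [div_eq_iff hμ']
  linear_combination -hE


/-- Scaling of all Eisenstein series from the scaling of `E₄`, `E₆`. -/
theorem S20_E_scale (τ₁ τ₂ : ℍ) (c : ℂ) (h4 : E₄ τ₂ = c ^ 4 * E₄ τ₁) (h6 : E₆ τ₂ = c ^ 6 * E₆ τ₁)
    (n : ℕ) (hn : 3 ≤ n) : E hn τ₂ = c ^ n * E hn τ₁ := by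
  obtain ⟨P, hP, hPz⟩ := S20_levelOne_poly n (E hn)
  rw [hPz τ₂, hPz τ₁, h4, h6, S20_eval_scale P n hP]

theorem S20_eisensteinSeries_eq_two_mul_E (n : ℕ) (hn : 3 ≤ n) (z : ℍ) :
    eisensteinSeries (N := 1) 0 n z = 2 * E hn z := by
  have : E hn z = (1 / 2 : ℂ) • eisensteinSeriesSIF (N := 1) 0 n z := rfl
  rw [this, eisensteinSeriesSIF_apply, smul_eq_mul]
  ring

/-- If `E₄ τ₂ = c⁴ E₄ τ₁` and `E₆ τ₂ = c⁶ E₆ τ₁` with `c ≠ 0`, then `τ₁` and `τ₂` are equivalent. -/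
theorem S20_E4E6_scale (τ₁ τ₂ : ℍ) (c : ℂ) (hc : c ≠ 0) (h4 : E₄ τ₂ = c ^ 4 * E₄ τ₁)
    (h6 : E₆ τ₂ = c ^ 6 * E₆ τ₁) : ∃ γ : SL(2, ℤ), γ • τ₂ = τ₁ := by
  have hμ : c⁻¹ ≠ 0 := inv_ne_zero hc
  apply S20_exists_SL_of_lattice_eq c⁻¹ hμ τ₁ τ₂
  apply S20_lattice_eq_of_G_eq
  intro n hn
  rcases Nat.even_or_odd n with he | ho
  · rw [S20_pp_G _ _ _ n hn, S20_pp_G _ _ _ n hn, S20_eisensteinSeries_eq_two_mul_E n hn,
      S20_eisensteinSeries_eq_two_mul_E n hn, S20_E_scale τ₁ τ₂ c h4 h6 n hn]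
    rw [inv_pow, inv_inv, one_pow, inv_one, one_mul]
    ring
  · rw [PeriodPair.G_eq_zero_of_odd _ n ho, PeriodPair.G_eq_zero_of_odd _ n ho]

/-- **Injectivity of `j`** on `SL(2,ℤ) \ ℍ`. -/
theorem j_inj (τ₁ τ₂ : ℍ)
    (h : E₄ τ₁ ^ 3 * ModularForm.discriminant τ₂ = E₄ τ₂ ^ 3 * ModularForm.discriminant τ₁) :
    ∃ γ : SL(2, ℤ), γ • τ₂ = τ₁ := by
  have hΔ1 := ModularForm.discriminant_ne_zero τ₁
  have hΔ2 := ModularForm.discriminant_ne_zero τ₂
  rw [ModularForm.discriminant_eq_E₄_cube_sub_E₆_sq] at hΔ1 hΔ2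
  rw [ModularForm.discriminant_eq_E₄_cube_sub_E₆_sq, ModularForm.discriminant_eq_E₄_cube_sub_E₆_sq] at h
  have h1 : E₄ τ₁ ^ 3 - E₆ τ₁ ^ 2 ≠ 0 := fun h0 => hΔ1 (by rw [h0]; simp)
  have h2 : E₄ τ₂ ^ 3 - E₆ τ₂ ^ 2 ≠ 0 := fun h0 => hΔ2 (by rw [h0]; simp)
  have h' : E₄ τ₁ ^ 3 * (E₄ τ₂ ^ 3 - E₆ τ₂ ^ 2) = E₄ τ₂ ^ 3 * (E₄ τ₁ ^ 3 - E₆ τ₁ ^ 2) := by
    linear_combination 1728 * h
  obtain ⟨c, hc, h4, h6⟩ := S20_exists_scale _ _ _ _ h1 h2 h'
  exact S20_E4E6_scale τ₁ τ₂ c hc h4 h6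

end Fermat.Agent.S20
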