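import Fermat.Agent.S20.LevelOne
import Mathlib.Analysis.Complex.Liouville

/-!
# S20 package E: Ramanujan identities and simple zeros of `E₄`, `E₆`, `E₄³ - cΔ`

* `S20_ramanujan_E4 : serreDerivative 4 E₄ = -(1/3) • E₆`
* `S20_ramanujan_E6 : serreDerivative 6 E₆ = -(1/2) • (E₄ * E₄)`
* `S20_ramanujan_Delta : serreDerivative 12 Δ = 0`
* `S20_E4_simple`, `S20_E6_simple`, `S20_E4_cube_sub_simple`: the zeros are simple.
-/

set_option autoImplicit false
set_option linter.unusedSectionVars false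

namespace Fermat.Agent.S20

open UpperHalfPlane ModularForm Matrix.SpecialLinearGroup Filter Topology Derivative
open scoped MatrixGroups ModularForm Manifold

/-- Cauchy estimate: if `f` has a limit at `i∞` then its normalised derivative tends to `0`. -/
theorem S20_tendsto_normalizedDeriv {f : ℍ → ℂ} (hf : MDiff f) {a : ℂ}
    (h : Tendsto f atImInfty (𝓝 a)) : Tendsto (D f) atImInfty (𝓝 0) := by
  rw [Metric.tendsto_nhds]
  intro ε hε
  have h1 : ∀ᶠ w in atImInfty, dist (f w) a < ε := (Metric.tendsto_nhds.mp h) ε hε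
  obtain ⟨A, -, hA⟩ := (atImInfty_basis.eventually_iff).mp h1
  have hdiff : DifferentiableOn ℂ (f ∘ ofComplex) upperHalfPlaneSet :=
    UpperHalfPlane.mdifferentiable_iff.mp hf
  refine (atImInfty_basis.eventually_iff).mpr ⟨max A 0 + 2, trivial, fun τ hτ => ?_⟩
  simp only [Set.mem_preimage, Set.mem_Ici] at hτ
  have hsub : Metric.closedBall (τ : ℂ) 1 ⊆ upperHalfPlaneSet := by
    intro w hw
    have h2 : |w.im - (τ : ℂ).im| ≤ 1 := by
      have := Complex.abs_im_le_norm (w - τ)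
      rw [Complex.sub_im] at this
      exact this.trans (by simpa [dist_eq_norm] using hw)
    have h3 := abs_le.mp h2
    have h4 : (τ : ℂ).im = τ.im := rfl
    show 0 < w.im
    have := le_max_right A 0
    linarith [h3.1]
  have hd : DiffContOnCl ℂ (fun z => (f ∘ ofComplex) z - a) (Metric.ball (τ : ℂ) 1) :=
    ((hdiff.sub_const a).mono hsub).diffContOnCl_ball (subset_refl _)
  have hC : ∀ z ∈ Metric.sphere (τ : ℂ) 1, ‖(f ∘ ofComplex) z - a‖ ≤ ε := by
    intro w hw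
    have hw' : w ∈ Metric.closedBall (τ : ℂ) 1 := Metric.sphere_subset_closedBall hw
    have hwpos : 0 < w.im := hsub hw'
    have h2 : |w.im - (τ : ℂ).im| ≤ 1 := by
      have := Complex.abs_im_le_norm (w - τ)
      rw [Complex.sub_im] at this
      exact this.trans (by simpa [dist_eq_norm] using hw')
    have h3 := abs_le.mp h2
    have h4 : (τ : ℂ).im = τ.im := rfl
    have hAw : A ≤ (ofComplex w).im := by
      rw [ofComplex_apply_of_im_pos hwpos]
      show A ≤ w.im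
      have := le_max_left A 0
      linarith [h3.1]
    have := hA (x := ofComplex w) hAw
    rw [dist_eq_norm] at this
    exact this.le
  have hcauchy := Complex.norm_deriv_le_of_forall_mem_sphere_norm_le one_pos hd hC
  rw [deriv_sub_const] at hcauchy
  rw [dist_zero_right]
  show ‖(2 * Real.pi * Complex.I)⁻¹ * deriv (f ∘ ofComplex) τ‖ < ε
  rw [norm_mul, norm_inv]
  have hpi : ‖(2 * Real.pi * Complex.I : ℂ)‖ = 2 * Real.pi := by
    simp [abs_of_pos Real.pi_pos]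
  rw [hpi]
  have hpi3 : (2 : ℝ) ≤ Real.pi := Real.two_le_pi
  have h2pi : (1 : ℝ) < 2 * Real.pi := by linarith
  have hinv : (2 * Real.pi)⁻¹ < 1 := inv_lt_one_of_one_lt₀ h2pi
  have hnn : 0 ≤ ‖deriv (f ∘ ofComplex) τ‖ := norm_nonneg _
  have hle : ‖deriv (f ∘ ofComplex) τ‖ ≤ ε := by simpa using hcauchy
  have hpos : 0 < (2 * Real.pi)⁻¹ := by positivity
  calc (2 * Real.pi)⁻¹ * ‖deriv (f ∘ ofComplex) τ‖ ≤ (2 * Real.pi)⁻¹ * ε := by gcongr
    _ < 1 * ε := by gcongr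
    _ = ε := one_mul ε


/-- `E₂ ∘ ofComplex` is `1`-periodic. -/
theorem S20_E2_periodic : Function.Periodic (EisensteinSeries.E2 ∘ ofComplex) 1 := by
  intro z
  simp only [Function.comp_apply]
  rcases lt_or_ge 0 z.im with hz | hz
  · have hz1 : 0 < (z + 1).im := by simpa using hz
    rw [EisensteinSeries.E2_eq_tsum_cexp, EisensteinSeries.E2_eq_tsum_cexp,
      ofComplex_apply_of_im_pos hz, ofComplex_apply_of_im_pos hz1]
    have : Complex.exp (2 * Real.pi * Complex.I * ((⟨z + 1, hz1⟩ : ℍ) : ℂ)) =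
        Complex.exp (2 * Real.pi * Complex.I * ((⟨z, hz⟩ : ℍ) : ℂ)) := by
      show Complex.exp (2 * Real.pi * Complex.I * (z + 1)) =
        Complex.exp (2 * Real.pi * Complex.I * z)
      rw [mul_add, Complex.exp_add, mul_one, Complex.exp_two_pi_mul_I, mul_one]
    rw [this]
  · have hz1 : (z + 1).im ≤ 0 := by simpa using hz
    rw [ofComplex_apply_eq_of_im_nonpos hz1 hz]

/-- `E₂` tends to `1` at `i∞`. -/
theorem S20_tendsto_E2 : Tendsto EisensteinSeries.E2 atImInfty (𝓝 1) := by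
  have hper := S20_E2_periodic
  have han : AnalyticAt ℂ (cuspFunction 1 EisensteinSeries.E2) 0 :=
    analyticAt_cuspFunction_zero one_pos hper E2_mdifferentiable
      EisensteinSeries.isBoundedAtImInfty_E2
  have hps := hasFPowerSeriesOnBall_cuspFunction (f := EisensteinSeries.E2)
    (c := fun m : ℕ => (if m = 0 then 1 else -24 * (ArithmeticFunction.sigma 1 m : ℂ))) one_pos han
    (fun τ => by
      simpa only [Function.Periodic.qParam, Complex.ofReal_one, div_one] using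
        EisensteinSeries.hasSum_qExpansion_E2 (z := τ))
  have h0 : cuspFunction 1 EisensteinSeries.E2 0 = 1 := by
    have := hps.coeff_zero (fun _ => (0 : ℂ))
    simpa using this.symm
  have hcomp : (cuspFunction 1 EisensteinSeries.E2 ∘ fun τ : ℍ ↦ Function.Periodic.qParam 1 τ :
      ℍ → ℂ) = EisensteinSeries.E2 := by
    funext τ
    simpa using eq_cuspFunction τ one_ne_zero hper
  have := han.continuousAt.tendsto.comp (qParam_tendsto_atImInfty one_pos)
  rw [hcomp, h0] at this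
  exact this


/-- Limit of the Serre derivative at `i∞`. -/
theorem S20_tendsto_serre {f : ℍ → ℂ} (hf : MDiff f) {a : ℂ} (k : ℂ)
    (h : Tendsto f atImInfty (𝓝 a)) :
    Tendsto (serreDerivative k f) atImInfty (𝓝 (-(k * 12⁻¹ * a))) := by
  have h1 := S20_tendsto_normalizedDeriv hf h
  have h2 := (S20_tendsto_E2.const_mul (k * 12⁻¹)).mul h
  have h3 := h1.sub h2
  simp only [zero_sub, mul_one] at h3
  exact h3

/-- The Serre derivative of a level one form of weight `k` is a level one form of weight `k + 2`. -/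
theorem S20_isMF1_serre {k : ℤ} {f : ℍ → ℂ} (hf : IsMF1 k f) :
    IsMF1 (k + 2) (serreDerivative (k : ℂ) f) := by
  obtain ⟨c, hc⟩ := hf.exists_tendsto
  refine isMF1_iff.mpr ⟨serreDerivative_mdifferentiable k hf.mdiff,
    fun γ => serreDerivative_slash_invariant hf.mdiff (hf.slash_eq γ), ?_⟩
  exact (S20_tendsto_serre hf.mdiff k hc).isBigO_one ℝ

/-- A level one form of weight `< 12` or `= 14` vanishing at `i∞` is zero. -/
theorem S20_eq_zero_of_tendsto_zero {k : ℤ} (hk : k < 12 ∨ k = 14) {g : ℍ → ℂ}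
    (hg : IsMF1 k g) (h0 : Tendsto g atImInfty (𝓝 0)) : g = 0 := by
  obtain ⟨g', hg', rfl⟩ := (hg.isCF1_of_tendsto_zero h0).exists_eq_Delta_mul
  have : g' = 0 := by
    rcases hk with hk | rfl
    · exact hg'.eq_zero_of_neg (by omega)
    · exact IsMF1.eq_zero_of_weight_two (by simpa using hg')
  rw [this, mul_zero]

/-- Ramanujan's identity `∂₄ E₄ = -E₆ / 3`. -/
theorem S20_ramanujan_E4 :
    serreDerivative 4 (E₄ : ℍ → ℂ) = (-(1 / 3) : ℂ) • (E₆ : ℍ → ℂ) := by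
  have h1 : IsMF1 6 (serreDerivative 4 (E₄ : ℍ → ℂ)) := by
    have := S20_isMF1_serre isMF1_E4
    simpa using this
  have h2 : IsMF1 6 (serreDerivative 4 (E₄ : ℍ → ℂ) + (1 / 3 : ℂ) • (E₆ : ℍ → ℂ)) :=
    h1.add (isMF1_E6.smul _)
  have h3 : Tendsto (serreDerivative 4 (E₄ : ℍ → ℂ) + (1 / 3 : ℂ) • (E₆ : ℍ → ℂ)) atImInfty
      (𝓝 0) := by
    have := (S20_tendsto_serre isMF1_E4.mdiff 4 tendsto_E4).add (tendsto_E6.const_smul (1 / 3 : ℂ))
    have h0 : (-(4 * 12⁻¹ * 1) + (1 / 3 : ℂ) • (1 : ℂ)) = 0 := by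
      simp only [smul_eq_mul]
      norm_num
    rw [h0] at this
    exact this
  have h4 := S20_eq_zero_of_tendsto_zero (Or.inl (by norm_num)) h2 h3
  rw [← eq_neg_iff_add_eq_zero] at h4
  rw [h4, _root_.neg_smul]

/-- Ramanujan's identity `∂₆ E₆ = -E₄² / 2`. -/
theorem S20_ramanujan_E6 :
    serreDerivative 6 (E₆ : ℍ → ℂ) = (-(1 / 2) : ℂ) • ((E₄ : ℍ → ℂ) * (E₄ : ℍ → ℂ)) := by
  have h1 : IsMF1 8 (serreDerivative 6 (E₆ : ℍ → ℂ)) := by
    have := S20_isMF1_serre isMF1_E6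
    simpa using this
  have h44 : IsMF1 8 ((E₄ : ℍ → ℂ) * (E₄ : ℍ → ℂ)) := isMF1_E4.mul' isMF1_E4 (by norm_num)
  have h2 : IsMF1 8 (serreDerivative 6 (E₆ : ℍ → ℂ) +
      (1 / 2 : ℂ) • ((E₄ : ℍ → ℂ) * (E₄ : ℍ → ℂ))) :=
    h1.add (h44.smul _)
  have h3 : Tendsto (serreDerivative 6 (E₆ : ℍ → ℂ) +
      (1 / 2 : ℂ) • ((E₄ : ℍ → ℂ) * (E₄ : ℍ → ℂ))) atImInfty (𝓝 0) := by
    have := (S20_tendsto_serre isMF1_E6.mdiff 6 tendsto_E6).add
      ((tendsto_E4.mul tendsto_E4).const_smul (1 / 2 : ℂ))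
    have h0 : (-(6 * 12⁻¹ * 1) + (1 / 2 : ℂ) • ((1 : ℂ) * 1)) = 0 := by
      simp only [smul_eq_mul]
      norm_num
    rw [h0] at this
    exact this
  have h4 := S20_eq_zero_of_tendsto_zero (Or.inl (by norm_num)) h2 h3
  rw [← eq_neg_iff_add_eq_zero] at h4
  rw [h4, _root_.neg_smul]

/-- Ramanujan's identity `∂₁₂ Δ = 0`. -/
theorem S20_ramanujan_Delta : serreDerivative 12 (discriminant : ℍ → ℂ) = 0 := by
  have h1 : IsMF1 14 (serreDerivative 12 (discriminant : ℍ → ℂ)) := by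
    have := S20_isMF1_serre isMF1_Delta
    simpa using this
  have h3 : Tendsto (serreDerivative 12 (discriminant : ℍ → ℂ)) atImInfty (𝓝 0) := by
    have := S20_tendsto_serre isMF1_Delta.mdiff 12 discriminant_isZeroAtImInfty
    simpa using this
  exact S20_eq_zero_of_tendsto_zero (Or.inr rfl) h1 h3


/-- `D f` in terms of the Serre derivative. -/
theorem S20_D_eq (k : ℂ) (f : ℍ → ℂ) (τ : ℍ) :
    D f τ = serreDerivative k f τ + k * 12⁻¹ * EisensteinSeries.E2 τ * f τ := by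
  simp [serreDerivative]

theorem S20_deriv_ne_zero_of_D_ne_zero {f : ℍ → ℂ} {τ : ℍ} (h : D f τ ≠ 0) :
    deriv (f ∘ ofComplex) τ ≠ 0 := by
  intro h0
  apply h
  simp [normalizedDerivOfComplex, h0]

/-- `D E₄ = (E₂ E₄ - E₆) / 3`. -/
theorem S20_D_E4 (τ : ℍ) :
    D (E₄ : ℍ → ℂ) τ = (EisensteinSeries.E2 τ * E₄ τ - E₆ τ) / 3 := by
  rw [S20_D_eq 4, S20_ramanujan_E4]
  simp only [Pi.smul_apply, smul_eq_mul]
  ring

/-- `D E₆ = (E₂ E₆ - E₄²) / 2`. -/
theorem S20_D_E6 (τ : ℍ) :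
    D (E₆ : ℍ → ℂ) τ = (EisensteinSeries.E2 τ * E₆ τ - E₄ τ ^ 2) / 2 := by
  rw [S20_D_eq 6, S20_ramanujan_E6]
  simp only [Pi.smul_apply, Pi.mul_apply, smul_eq_mul]
  ring

/-- `D Δ = E₂ Δ`. -/
theorem S20_D_Delta (τ : ℍ) :
    D (discriminant : ℍ → ℂ) τ = EisensteinSeries.E2 τ * discriminant τ := by
  rw [S20_D_eq 12, S20_ramanujan_Delta]
  simp only [Pi.zero_apply]
  ring

/-- **E1**: the zeros of `E₄` are simple. -/
theorem S20_E4_simple (τ : ℍ) (h : E₄ τ = 0) : deriv ((E₄ : ℍ → ℂ) ∘ ofComplex) τ ≠ 0 := by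
  apply S20_deriv_ne_zero_of_D_ne_zero
  rw [S20_D_E4, h]
  have h6 : E₆ τ ≠ 0 := (E4_E6_not_both_zero τ).resolve_left (fun h' => h' h)
  simpa using h6

/-- **E2**: the zeros of `E₆` are simple. -/
theorem S20_E6_simple (τ : ℍ) (h : E₆ τ = 0) : deriv ((E₆ : ℍ → ℂ) ∘ ofComplex) τ ≠ 0 := by
  apply S20_deriv_ne_zero_of_D_ne_zero
  rw [S20_D_E6, h]
  have h4 : E₄ τ ≠ 0 := (E4_E6_not_both_zero τ).resolve_right (fun h' => h' h)
  simpa using h4

/-- `D (E₄³ - cΔ) = E₂ (E₄³ - cΔ) - E₄² E₆`. -/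
theorem S20_D_E4_cube_sub (c : ℂ) (τ : ℍ) :
    D (fun z : ℍ => E₄ z ^ 3 - c * discriminant z) τ =
      EisensteinSeries.E2 τ * (E₄ τ ^ 3 - c * discriminant τ) - E₄ τ ^ 2 * E₆ τ := by
  have h4 : MDiff (E₄ : ℍ → ℂ) := isMF1_E4.mdiff
  have hΔ : MDiff (discriminant : ℍ → ℂ) := isMF1_Delta.mdiff
  have h43 : MDiff ((E₄ : ℍ → ℂ) ^ 3) := (isMF1_E4.pow 3).mdiff
  have hcΔ : MDiff (c • (discriminant : ℍ → ℂ)) := (isMF1_Delta.smul c).mdiff
  have hfun : (fun z : ℍ => E₄ z ^ 3 - c * discriminant z) =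
      (E₄ : ℍ → ℂ) ^ 3 - c • (discriminant : ℍ → ℂ) := by
    funext z
    simp
  rw [hfun, normalizedDerivOfComplex_sub _ _ h43 hcΔ, normalizedDerivOfComplex_pow _ _ h4,
    normalizedDerivOfComplex_smul _ _ hΔ]
  simp only [Pi.sub_apply, Pi.mul_apply, Pi.smul_apply, Pi.pow_apply, smul_eq_mul,
    S20_D_E4, S20_D_Delta]
  norm_num
  ring

/-- **E3**: the zeros of `E₄³ - cΔ` away from the zeros of `E₄ E₆` are simple. -/
theorem S20_E4_cube_sub_simple (c : ℂ) (τ : ℍ) (h4 : E₄ τ ≠ 0) (h6 : E₆ τ ≠ 0)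
    (h : E₄ τ ^ 3 = c * discriminant τ) :
    deriv ((fun z : ℍ => E₄ z ^ 3 - c * discriminant z) ∘ ofComplex) τ ≠ 0 := by
  apply S20_deriv_ne_zero_of_D_ne_zero
  rw [S20_D_E4_cube_sub, h, sub_self, mul_zero, zero_sub, neg_ne_zero]
  exact mul_ne_zero (pow_ne_zero 2 h4) h6

end Fermat.Agent.S20
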