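import Fermat.Agent.S20.JInj
import Fermat.Agent.S20.Serre

/-!
# S20 package F: the divisor form `Φ`

* `rho`, `S_smul_I`, `ST_smul_rho`, `denom_S_I`, `denom_ST_rho`, `E6_I`, `E4_rho` (F1)
* `exists_smul_I_of_E6_eq_zero`, `exists_smul_rho_of_E4_eq_zero` (F2)
* `exists_Phi` (F3)
-/

set_option autoImplicit false
set_option linter.unusedSectionVars false

namespace Fermat.Agent.S20

open UpperHalfPlane ModularForm Matrix.SpecialLinearGroup Filter Topology ModularGroup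
open scoped MatrixGroups ModularForm Manifold

/-- The transformation rule of a level one form. -/
theorem IsMF1.apply_smul {k : ℤ} {f : ℍ → ℂ} (hf : IsMF1 k f) (γ : SL(2, ℤ)) (τ : ℍ) :
    f (γ • τ) = denom γ τ ^ k * f τ := by
  have h := congrFun (hf.slash_eq γ) τ
  rw [SL_slash_apply] at h
  have hd : denom γ τ ≠ 0 := denom_ne_zero γ τ
  rw [← h, mul_comm (f (γ • τ)), ← mul_assoc, ← zpow_add₀ hd, add_neg_cancel, zpow_zero, one_mul]

/-- `ρ = (-1 + i √3) / 2`, the fixed point of `S * T`. -/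
noncomputable def rho : ℍ := ⟨⟨-1 / 2, Real.sqrt 3 / 2⟩, by
  show 0 < Real.sqrt 3 / 2
  positivity⟩

theorem coe_rho : (rho : ℂ) = ⟨-1 / 2, Real.sqrt 3 / 2⟩ := rfl

theorem rho_sq : (rho : ℂ) ^ 2 + rho + 1 = 0 := by
  have h3 : Real.sqrt 3 * Real.sqrt 3 = 3 := Real.mul_self_sqrt (by norm_num)
  rw [coe_rho]
  apply Complex.ext
  · simp [pow_two]
    nlinarith [h3]
  · simp [pow_two]
    ring

theorem rho_cube : (rho : ℂ) ^ 3 = 1 := by
  linear_combination ((rho : ℂ) - 1) * rho_sq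

theorem rho_add_one_sq : ((rho : ℂ) + 1) ^ 2 = rho := by
  linear_combination rho_sq

theorem rho_add_one_cube : ((rho : ℂ) + 1) ^ 3 = -1 := by
  linear_combination ((rho : ℂ) + 2) * rho_sq

theorem rho_add_one_pow_six : ((rho : ℂ) + 1) ^ 6 = 1 := by
  have : ((rho : ℂ) + 1) ^ 6 = (((rho : ℂ) + 1) ^ 3) ^ 2 := by ring
  rw [this, rho_add_one_cube]
  norm_num

theorem rho_ne_one : (rho : ℂ) ≠ 1 := by
  intro h
  have him := congrArg Complex.im h
  rw [coe_rho] at him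
  simp at him

theorem S_smul_I : S • UpperHalfPlane.I = UpperHalfPlane.I := by
  rw [modular_S_smul]
  ext
  simp

theorem ST_smul_rho : (S * T) • rho = rho := by
  ext
  rw [coe_specialLinearGroup_apply]
  have h := rho_sq
  have hne : (rho : ℂ) + 1 ≠ 0 := by
    intro h0
    have : (rho : ℂ) = -1 := by linear_combination h0
    rw [this] at h
    norm_num at h
  have e00 : ((S * T : SL(2, ℤ)) 0 0 : ℤ) = 0 := by decide
  have e01 : ((S * T : SL(2, ℤ)) 0 1 : ℤ) = -1 := by decide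
  have e10 : ((S * T : SL(2, ℤ)) 1 0 : ℤ) = 1 := by decide
  have e11 : ((S * T : SL(2, ℤ)) 1 1 : ℤ) = 1 := by decide
  rw [e00, e01, e10, e11]
  simp only [algebraMap_int_eq, eq_intCast, Int.cast_zero, Int.cast_neg, Int.cast_one,
    Complex.ofReal_zero, Complex.ofReal_neg, Complex.ofReal_one, zero_mul, zero_add, one_mul]
  rw [div_eq_iff hne]
  linear_combination -h

theorem denom_S_I : denom S UpperHalfPlane.I = Complex.I := by
  rw [denom_S]
  rfl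

theorem denom_ST_rho : denom (S * T : SL(2, ℤ)) rho = (rho : ℂ) + 1 := by
  rw [denom_apply]
  have e10 : ((S * T : SL(2, ℤ)) 1 0 : ℤ) = 1 := by decide
  have e11 : ((S * T : SL(2, ℤ)) 1 1 : ℤ) = 1 := by decide
  simp [e10, e11]

theorem E6_I : E₆ UpperHalfPlane.I = 0 := by
  have h := isMF1_E6.apply_smul S UpperHalfPlane.I
  rw [S_smul_I, denom_S_I] at h
  have hI : (Complex.I : ℂ) ^ (6 : ℤ) = -1 := by
    have : (Complex.I : ℂ) ^ (6 : ℤ) = (Complex.I ^ 2) ^ 3 := by norm_cast; ring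
    rw [this, Complex.I_sq]
    norm_num
  rw [hI] at h
  have h2 : (2 : ℂ) * E₆ UpperHalfPlane.I = 0 := by linear_combination h
  simpa using h2

theorem E4_rho : E₄ rho = 0 := by
  have h := isMF1_E4.apply_smul (S * T) rho
  rw [ST_smul_rho, denom_ST_rho] at h
  have hr := rho_sq
  have h4 : ((rho : ℂ) + 1) ^ (4 : ℤ) = (rho : ℂ) ^ 2 := by
    have : ((rho : ℂ) + 1) ^ (4 : ℤ) = ((rho : ℂ) + 1) ^ 4 := by norm_cast
    rw [this]
    linear_combination ((rho : ℂ) ^ 2 + 3 * rho + 1) * hr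
  rw [h4] at h
  have hne : (1 : ℂ) - (rho : ℂ) ^ 2 ≠ 0 := by
    intro h0
    have h1 : (rho : ℂ) = -2 := by linear_combination h0 + hr
    have him := congrArg Complex.im h1
    rw [coe_rho] at him
    simp at him
  have h2 : ((1 : ℂ) - (rho : ℂ) ^ 2) * E₄ rho = 0 := by linear_combination h
  exact (mul_eq_zero.mp h2).resolve_left hne

/-- **F2** for `E₆`: the zeros of `E₆` are the `SL(2,ℤ)`-translates of `i`. -/
theorem exists_smul_I_of_E6_eq_zero {τ : ℍ} (h : E₆ τ = 0) :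
    ∃ γ : SL(2, ℤ), γ • UpperHalfPlane.I = τ := by
  apply j_inj
  rw [discriminant_eq_E₄_cube_sub_E₆_sq, discriminant_eq_E₄_cube_sub_E₆_sq, h, E6_I]
  ring

/-- **F2** for `E₄`: the zeros of `E₄` are the `SL(2,ℤ)`-translates of `ρ`. -/
theorem exists_smul_rho_of_E4_eq_zero {τ : ℍ} (h : E₄ τ = 0) :
    ∃ γ : SL(2, ℤ), γ • rho = τ := by
  apply j_inj
  rw [h, E4_rho]
  ring

/-- **F3**: for every point `τ₀` there is a level one form whose zero set is exactly the orbit of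
`τ₀`, with simple zeros, and with value `1` at the cusp. -/
theorem exists_Phi (τ₀ : ℍ) : ∃ (w : ℤ) (Φ : ℍ → ℂ), IsMF1 w Φ ∧ Φ τ₀ = 0 ∧
    (∀ τ, Φ τ = 0 → ∃ γ : SL(2, ℤ), γ • τ₀ = τ) ∧
    (∀ τ, Φ τ = 0 → deriv (Φ ∘ ofComplex) τ ≠ 0) ∧ Tendsto Φ atImInfty (𝓝 1) := by
  by_cases h6 : E₆ τ₀ = 0
  · refine ⟨6, E₆, isMF1_E6, h6, ?_, fun τ hτ => S20_E6_simple τ hτ, tendsto_E6⟩
    intro τ hτ
    obtain ⟨γ₁, h1⟩ := exists_smul_I_of_E6_eq_zero hτ
    obtain ⟨γ₀, h0⟩ := exists_smul_I_of_E6_eq_zero h6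
    refine ⟨γ₁ * γ₀⁻¹, ?_⟩
    rw [← h0, ← mul_smul, inv_mul_cancel_right, h1]
  by_cases h4 : E₄ τ₀ = 0
  · refine ⟨4, E₄, isMF1_E4, h4, ?_, fun τ hτ => S20_E4_simple τ hτ, tendsto_E4⟩
    intro τ hτ
    obtain ⟨γ₁, h1⟩ := exists_smul_rho_of_E4_eq_zero hτ
    obtain ⟨γ₀, h0⟩ := exists_smul_rho_of_E4_eq_zero h4
    refine ⟨γ₁ * γ₀⁻¹, ?_⟩
    rw [← h0, ← mul_smul, inv_mul_cancel_right, h1]
  have hΔ0 := discriminant_ne_zero τ₀
  set c : ℂ := E₄ τ₀ ^ 3 / discriminant τ₀ with hc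
  have hcΔ : c * discriminant τ₀ = E₄ τ₀ ^ 3 := div_mul_cancel₀ _ hΔ0
  have hfun : (fun z : ℍ => E₄ z ^ 3 - c * discriminant z) =
      (E₄ : ℍ → ℂ) ^ 3 - c • (discriminant : ℍ → ℂ) := by
    funext z
    simp
  have hzero : ∀ τ : ℍ, E₄ τ ^ 3 - c * discriminant τ = 0 → ∃ γ : SL(2, ℤ), γ • τ₀ = τ := by
    intro τ hτ
    apply j_inj
    have : E₄ τ ^ 3 = c * discriminant τ := by linear_combination hτ
    rw [this, ← hcΔ]
    ring
  refine ⟨12, fun z : ℍ => E₄ z ^ 3 - c * discriminant z, ?_, ?_, hzero, ?_, ?_⟩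
  · rw [hfun]
    have h1 : IsMF1 12 ((E₄ : ℍ → ℂ) ^ 3) := by
      have := isMF1_E4.pow 3
      simpa using this
    exact h1.sub (isMF1_Delta.smul c)
  · show E₄ τ₀ ^ 3 - c * discriminant τ₀ = 0
    rw [hcΔ, sub_self]
  · intro τ hτ
    have hτ' : E₄ τ ^ 3 - c * discriminant τ = 0 := hτ
    have hτ'' : E₄ τ ^ 3 = c * discriminant τ := by linear_combination hτ'
    obtain ⟨γ, rfl⟩ := hzero τ hτ'
    have e4 : E₄ (γ • τ₀) ≠ 0 := by
      rw [isMF1_E4.apply_smul γ τ₀]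
      exact mul_ne_zero (zpow_ne_zero _ (denom_ne_zero γ τ₀)) h4
    have e6 : E₆ (γ • τ₀) ≠ 0 := by
      rw [isMF1_E6.apply_smul γ τ₀]
      exact mul_ne_zero (zpow_ne_zero _ (denom_ne_zero γ τ₀)) h6
    exact S20_E4_cube_sub_simple c (γ • τ₀) e4 e6 hτ''
  · have h1 : Tendsto (fun z : ℍ => E₄ z ^ 3) atImInfty (𝓝 (1 ^ 3)) := tendsto_E4.pow 3
    have h2 : Tendsto (fun z : ℍ => c * discriminant z) atImInfty (𝓝 (c * 0)) :=
      (discriminant_isZeroAtImInfty : Tendsto discriminant atImInfty (𝓝 0)).const_mul c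
    have := h1.sub h2
    simpa using this

end Fermat.Agent.S20
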