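import Fermat.Agent.S20.Frame
import Fermat.Agent.S20.Phi
import Fermat.Agent.S20.CuspJetsApp

/-!
# S20 helper: the jet matrix of a frame is invertible; surjectivity of the constant term
-/

set_option autoImplicit false
set_option linter.unusedSectionVars false

namespace Fermat.Agent.S20

open UpperHalfPlane ModularForm Matrix.SpecialLinearGroup Filter Topology
open scoped MatrixGroups ModularForm Manifold

variable {N : ℕ} [NeZero N]

theorem IsMF1.vadd_one {k : ℤ} {f : ℍ → ℂ} (hf : IsMF1 k f) (τ : ℍ) :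
    f ((1 : ℝ) +ᵥ τ) = f τ := by
  have h := hf.apply_smul ModularGroup.T τ
  rw [UpperHalfPlane.modular_T_smul] at h
  have hd : denom (ModularGroup.T : SL(2, ℤ)) τ = 1 := by
    rw [ModularGroup.denom_apply, ModularGroup.coe_T]
    simp
  rw [h, hd, one_zpow, one_mul]

namespace Frame

variable (B : Frame N) [Fintype (Q N)]

/-- The evaluation matrix of the frame (rows: cosets, columns: frame elements). -/
noncomputable def evalMat (τ : ℍ) : Matrix (Q N) (Q N) ℂ :=
  Matrix.of fun q j => vecAt N (B.k j) (B.e j) τ q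

theorem evalMat_apply (τ : ℍ) (q j : Q N) : B.evalMat τ q j = vec N (B.k j) (B.e j) q τ := rfl

theorem cuspCol_evalMat (j : Q N) : CuspCol (cuspPermT N) (fun τ q => B.evalMat τ q j) :=
  cuspCol_vecAt (B.isMF j)

/-- The components of a combination of the frame. -/
theorem vecAt_sum_mul (K : ℤ) (r : Q N → ℍ → ℂ) (hr : ∀ j, IsMF1 (K - B.k j) (r j)) :
    vecAt N K (∑ j, r j * B.e j) = ∑ j, fun τ => r j τ • vecAt N (B.k j) (B.e j) τ := by
  funext τ q
  simp only [vecAt_apply, Finset.sum_apply, Pi.smul_apply, smul_eq_mul]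
  rw [vec_sum, Finset.sum_apply]
  refine Finset.sum_congr rfl fun j _ => ?_
  rw [vec_mul' (k := K - B.k j) (l := B.k j) (by ring), vec_of_isMF1 (hr j)]
  rfl

/-- The jet of a homogenised combination of the frame. -/
theorem jet_combination (K : ℤ) (c : Q N → ℂ) (ρ : Q N → ℍ → ℂ)
    (hρ : ∀ j, IsMF1 (K - B.k j) (ρ j)) (hρ1 : ∀ j, Tendsto (ρ j) atImInfty (𝓝 1)) :
    cuspJet (cuspPermT N) (vecAt N K (∑ j, (c j • ρ j) * B.e j)) =
      ∑ j, c j • cuspJet (cuspPermT N) (fun τ q => B.evalMat τ q j) := by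
  rw [B.vecAt_sum_mul K _ (fun j => (hρ j).smul (c j))]
  rw [CuspCol.jet_sum]
  · refine Finset.sum_congr rfl fun j _ => ?_
    have h1 : Tendsto (fun τ => (c j • ρ j) τ) atImInfty (𝓝 (c j)) := by
      have := (hρ1 j).const_mul (c j)
      simpa using this
    exact CuspCol.jet_fun_smul h1 (B.cuspCol_evalMat j)
  · intro j _
    exact CuspCol.fun_smul ((hρ j).smul (c j)).mdiff ((hρ j).smul (c j)).bdd
      (fun τ => ((hρ j).smul (c j)).vadd_one τ) (B.cuspCol_evalMat j)

variable [DecidableEq (Q N)]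

/-- The jet matrix of the frame. -/
noncomputable def jetMat : Matrix (Q N) (Q N) ℂ := cuspJetMat (cuspPermT N) B.evalMat

theorem jetMat_mulVec (c : Q N → ℂ) :
    B.jetMat.mulVec c = ∑ j, c j • cuspJet (cuspPermT N) (fun τ q => B.evalMat τ q j) := by
  funext q
  simp only [Matrix.mulVec, dotProduct, jetMat, cuspJetMat, Matrix.of_apply, Finset.sum_apply,
    Pi.smul_apply, smul_eq_mul]
  refine Finset.sum_congr rfl fun j _ => ?_
  ring

/-- Homogenisers at the cusp for a weight `K` that is large enough. -/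
theorem exists_cusp_homogenizers (K : ℤ) (hK : Even K) (hle : ∀ j, (B.k j : ℤ) + 4 ≤ K) :
    ∃ ρ : Q N → ℍ → ℂ, (∀ j, IsMF1 (K - B.k j) (ρ j)) ∧
      ∀ j, Tendsto (ρ j) atImInfty (𝓝 1) := by
  have h : ∀ j, ∃ ρ : ℍ → ℂ, IsMF1 (K - B.k j) ρ ∧ Tendsto ρ atImInfty (𝓝 1) := by
    intro j
    have hev : Even (K - B.k j) := Even.sub hK (by exact_mod_cast B.even j)
    exact exists_homogenizer_cusp hev (Or.inr (by have := hle j; omega))
  choose ρ hρ using h
  exact ⟨ρ, fun j => (hρ j).1, fun j => (hρ j).2⟩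

/-- The jet matrix of a frame is invertible. -/
theorem jetMat_det_ne_zero : B.jetMat.det ≠ 0 := by
  intro hdet
  obtain ⟨c, hc0, hc⟩ := Matrix.exists_mulVec_eq_zero_iff.mpr hdet
  apply hc0
  rw [B.jetMat_mulVec] at hc
  -- homogenise
  let K : ℤ := 2 * ((Finset.univ.sup B.k : ℕ) : ℤ) + 4
  have hKev : Even K := Even.add (even_two_mul _) (by decide)
  have hKle : ∀ j, (B.k j : ℤ) + 4 ≤ K := fun j => by
    have : B.k j ≤ Finset.univ.sup B.k := Finset.le_sup (Finset.mem_univ j)
    have : (B.k j : ℤ) ≤ ((Finset.univ.sup B.k : ℕ) : ℤ) := by exact_mod_cast this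
    simp only [K]
    omega
  obtain ⟨ρ, hρ, hρ1⟩ := B.exists_cusp_homogenizers K hKev hKle
  set F : ℍ → ℂ := ∑ j, (c j • ρ j) * B.e j with hF
  have hFmf : IsMF N K F := isMF_sum _ fun j _ =>
    (((hρ j).smul (c j)).isMF).mul' (B.isMF j) (by ring)
  have hjet : cuspJet (cuspPermT N) (vecAt N K F) = 0 := by
    rw [hF, B.jet_combination K c ρ hρ hρ1, hc]
  have hdecay : ∀ γ : SL(2, ℤ),
      (F ∣[K] γ) =O[atImInfty] fun τ => Real.exp (-2 * Real.pi * τ.im) := by
    intro γ
    have h1 := (cuspCol_vecAt hFmf).isBigO_of_jet_eq_zero hjet ((γ⁻¹ : SL(2, ℤ)) : Q N)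
    have h2 : (fun τ => vecAt N K F τ ((γ⁻¹ : SL(2, ℤ)) : Q N)) = F ∣[K] γ := by
      funext τ
      rw [vecAt_apply, vec_mk hFmf.inv, inv_inv]
    rw [h2] at h1
    exact h1
  obtain ⟨G, hG, hFG⟩ := hFmf.exists_div_Delta hdecay
  obtain ⟨g, hg, hGg⟩ := B.span (K - 12) G hG
  have key := B.indep K (fun j => c j • ρ j - discriminant * g j)
    (fun j => ((hρ j).smul (c j)).sub (isMF1_Delta.mul' (hg j) (by ring)))
    (by
      have h1 : ∑ j, (discriminant * g j) * B.e j = discriminant * ∑ j, g j * B.e j := by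
        rw [Finset.mul_sum]
        exact Finset.sum_congr rfl fun j _ => mul_assoc _ _ _
      simp only [sub_mul, Finset.sum_sub_distrib]
      rw [h1, ← hGg, ← hFG, hF, sub_self])
  funext j
  have h1 : c j • ρ j = discriminant * g j := sub_eq_zero.mp (key j)
  have h2 : Tendsto (fun τ => (c j • ρ j) τ) atImInfty (𝓝 (c j)) := by
    have := (hρ1 j).const_mul (c j)
    simpa using this
  have h3 : Tendsto (fun τ => (discriminant * g j) τ) atImInfty (𝓝 0) := by
    have hΔ : IsZeroAtImInfty (discriminant : ℍ → ℂ) := discriminant_isZeroAtImInfty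
    exact hΔ.mul_boundedAtFilter (hg j).bdd
  rw [h1] at h2
  exact (tendsto_nhds_unique h2 h3)

/-- Every `T`-invariant vector is the constant term of a form of weight `14`. -/
theorem exists_form_of_invariant (hk : ∀ j, B.k j ≤ 10) (v : Q N → ℂ)
    (hv : permOp N ModularGroup.T v = v) :
    ∃ f, IsMF N 14 f ∧ ∀ q, Tendsto (vec N 14 f q) atImInfty (𝓝 (v q)) := by
  have hdet := B.jetMat_det_ne_zero
  have hunit : IsUnit B.jetMat.det := isUnit_iff_ne_zero.mpr hdet
  set c : Q N → ℂ := B.jetMat⁻¹.mulVec v with hc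
  have hAc : B.jetMat.mulVec c = v := by
    rw [hc, Matrix.mulVec_mulVec, Matrix.mul_nonsing_inv _ hunit, Matrix.one_mulVec]
  obtain ⟨ρ, hρ, hρ1⟩ := B.exists_cusp_homogenizers 14 (by decide) (fun j => by
    have := hk j
    have : (B.k j : ℤ) ≤ 10 := by exact_mod_cast this
    omega)
  set F : ℍ → ℂ := ∑ j, (c j • ρ j) * B.e j with hF
  have hFmf : IsMF N 14 F := isMF_sum _ fun j _ =>
    (((hρ j).smul (c j)).isMF).mul' (B.isMF j) (by ring)
  have hjet : cuspJet (cuspPermT N) (vecAt N 14 F) = v := by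
    rw [hF, B.jet_combination 14 c ρ hρ hρ1, ← B.jetMat_mulVec, hAc]
  refine ⟨F, hFmf, fun q => ?_⟩
  have hinv : ∀ q, cuspJet (cuspPermT N) (vecAt N 14 F) (cuspPermT N q) =
      cuspJet (cuspPermT N) (vecAt N 14 F) q := by
    intro q
    rw [hjet]
    have := permOp_T_apply (N := N) v q
    rw [hv] at this
    exact this.symm
  have := (cuspCol_vecAt hFmf).tendsto_of_jet_invariant hinv q
  rw [hjet] at this
  exact this

/-- The dual family is cuspidal: `Δ · E⁻¹ → 0`. -/
theorem tendsto_discriminant_mul_evalMat_inv (j q : Q N) :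
    Tendsto (fun τ => discriminant τ * (B.evalMat τ)⁻¹ j q) atImInfty (𝓝 0) :=
  tendsto_discriminant_mul_inv (σ := cuspPermT N) (E := B.evalMat) B.cuspCol_evalMat
    B.jetMat_det_ne_zero j q

/-- Pointwise independence of the columns gives a nonzero determinant. -/
theorem evalMat_det_ne_zero_of_indep
    (h : ∀ (τ₀ : ℍ) (c : Q N → ℂ), ∑ j, c j • vecAt N (B.k j) (B.e j) τ₀ = 0 → ∀ j, c j = 0)
    (τ : ℍ) : (B.evalMat τ).det ≠ 0 := by
  intro hdet
  obtain ⟨c, hc0, hc⟩ := Matrix.exists_mulVec_eq_zero_iff.mpr hdet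
  apply hc0
  funext j
  refine h τ c ?_ j
  rw [← hc]
  funext q
  simp only [Matrix.mulVec, dotProduct, evalMat, Matrix.of_apply, Finset.sum_apply,
    Pi.smul_apply, smul_eq_mul]
  refine Finset.sum_congr rfl fun j _ => ?_
  ring

end Frame

end Fermat.Agent.S20
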