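import Fermat.Agent.S20.GradedBasis
import Fermat.Agent.S20.Perm

/-!
# S20 helper: local independence of the graded basis
-/

set_option autoImplicit false
set_option linter.unusedSectionVars false

namespace Fermat.Agent.S20

open UpperHalfPlane ModularForm Matrix.SpecialLinearGroup Filter Topology
open scoped MatrixGroups ModularForm Manifold

variable {N : ℕ} [NeZero N]

variable (N) in
/-- The basis element attached to a pair. -/
noncomputable def bf (p : ℕ × ℕ) : ℍ → ℂ := bfun N p.1 p.2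

theorem bf_isMF (p : ℕ × ℕ) : IsMF N (p.1 : ℤ) (bf N p) := bfun_isMF p.1 p.2

/-- A graded sum of a function supported at one pair. -/
theorem gsum_single (M : ℕ) (p : ℕ × ℕ) (hp1 : p.1 < M) (hp2 : p.2 < nb N p.1) (x : ℍ → ℂ) :
    gsum N M (fun k i => if (k, i) = p then x else 0) = x * bf N p := by
  classical
  unfold gsum
  rw [Finset.sum_eq_single p.1]
  · rw [Finset.sum_eq_single p.2]
    · simp [bf]
    · intro i _ hi
      have : (p.1, i) ≠ p := fun h => hi (by rw [← h])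
      simp only [if_neg this, zero_mul]
    · intro h
      exact absurd (Finset.mem_range.mpr hp2) h
  · intro k _ hk
    refine Finset.sum_eq_zero fun i _ => ?_
    have : (k, i) ≠ p := fun h => hk (by rw [← h])
    simp only [if_neg this, zero_mul]
  · intro h
    exact absurd (Finset.mem_range.mpr hp1) h

/-- A graded sum of a function supported on a finite set of valid pairs. -/
theorem gsum_indicator (M : ℕ) (s : Finset (ℕ × ℕ)) (hs : ∀ p ∈ s, p.1 < M ∧ p.2 < nb N p.1)
    (x : ℕ × ℕ → ℍ → ℂ) :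
    gsum N M (fun k i => if (k, i) ∈ s then x (k, i) else 0) = ∑ p ∈ s, x p * bf N p := by
  classical
  induction s using Finset.induction_on with
  | empty => simp [gsum_zero]
  | insert a s ha ih =>
    rw [Finset.sum_insert ha, ← ih fun p hp => hs p (Finset.mem_insert_of_mem hp),
      ← gsum_single M a (hs a (Finset.mem_insert_self a s)).1 (hs a (Finset.mem_insert_self a s)).2,
      ← gsum_add]
    congr 1
    funext k i
    by_cases h1 : (k, i) = a
    · have h2 : (k, i) ∉ s := by rw [h1]; exact ha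
      rw [if_neg h2, if_pos h1, if_pos (by rw [h1]; exact Finset.mem_insert_self a s), add_zero, h1]
    · by_cases h2 : (k, i) ∈ s
      · rw [if_pos h2, if_neg h1, if_pos (Finset.mem_insert_of_mem h2), zero_add]
      · rw [if_neg h2, if_neg h1, if_neg (by simp [h1, h2]), add_zero]

/-- Independence over level one forms, for finite sets of valid pairs. -/
theorem indep_finset (s : Finset (ℕ × ℕ)) (hs : ∀ p ∈ s, p.2 < nb N p.1) (K : ℤ)
    (r : ℕ × ℕ → ℍ → ℂ) (hr : ∀ p ∈ s, IsMF1 (K - p.1) (r p))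
    (h0 : ∑ p ∈ s, r p * bf N p = 0) : ∀ p ∈ s, r p = 0 := by
  classical
  let M : ℕ := K.toNat + s.sup (fun p => p.1) + 1
  have hM : ∀ p ∈ s, p.1 < M := fun p hp => by
    have : p.1 ≤ s.sup (fun p => p.1) := Finset.le_sup (f := fun p : ℕ × ℕ => p.1) hp
    omega
  have hKM : K < M := by
    have := Int.self_le_toNat K
    have : (M : ℤ) = K.toNat + s.sup (fun p => p.1) + 1 := by simp [M]
    omega
  have key := graded_indep (N := N) M K hKM (fun k i => if (k, i) ∈ s then r (k, i) else 0)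
    (fun k i => by
      split_ifs with h
      · exact hr _ h
      · exact isMF1_zero)
    (by rw [gsum_indicator M s (fun p hp => ⟨hM p hp, hs p hp⟩) r, h0])
  intro p hp
  have := key p.1 p.2 (hs p hp)
  simpa [hp] using this

/-- The value of the components of a homogenised combination. -/
theorem vecAt_sum_mul (s : Finset (ℕ × ℕ)) (K : ℤ) (r : ℕ × ℕ → ℍ → ℂ)
    (hr : ∀ p ∈ s, IsMF1 (K - p.1) (r p)) (τ : ℍ) :
    vecAt N K (∑ p ∈ s, r p * bf N p) τ = ∑ p ∈ s, r p τ • vecAt N p.1 (bf N p) τ := by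
  funext q
  simp only [vecAt_apply, Finset.sum_apply, Pi.smul_apply, smul_eq_mul]
  rw [vec_sum, Finset.sum_apply]
  refine Finset.sum_congr rfl fun p hp => ?_
  rw [vec_mul' (k := K - p.1) (l := p.1) (by ring), vec_of_isMF1 (hr p hp)]
  rfl

/-- Local independence, abstract form. -/
theorem local_indep_aux {τ₀ : ℍ} {w : ℤ} {Φ : ℍ → ℂ} (hΦ : IsMF1 w Φ) (hΦ0 : Φ τ₀ = 0)
    (horb : ∀ τ, Φ τ = 0 → ∃ γ : SL(2, ℤ), γ • τ₀ = τ)
    (hsimple : ∀ τ : ℍ, Φ τ = 0 → deriv (Φ ∘ ofComplex) τ ≠ 0)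
    (hlim : Tendsto Φ atImInfty (𝓝 1))
    (s : Finset (ℕ × ℕ)) (hs : ∀ p ∈ s, p.2 < nb N p.1) (K : ℤ) (ρ : ℕ × ℕ → ℍ → ℂ)
    (hρ : ∀ p ∈ s, IsMF1 (K - p.1) (ρ p)) (hρ1 : ∀ p ∈ s, ρ p τ₀ = 1)
    (c : ℕ × ℕ → ℂ) (hc : ∑ p ∈ s, c p • vecAt N p.1 (bf N p) τ₀ = 0) :
    ∀ p ∈ s, c p = 0 := by
  classical
  have hr : ∀ p ∈ s, IsMF1 (K - p.1) (c p • ρ p) := fun p hp => (hρ p hp).smul (c p)
  set F : ℍ → ℂ := ∑ p ∈ s, (c p • ρ p) * bf N p with hF
  have hFmf : IsMF N K F := isMF_sum _ fun p hp =>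
    ((hr p hp).isMF).mul' (bf_isMF p) (by ring)
  have hFvec : vecAt N K F τ₀ = 0 := by
    rw [hF, vecAt_sum_mul s K _ hr, ← hc]
    refine Finset.sum_congr rfl fun p hp => ?_
    simp [hρ1 p hp]
  have hFz : ∀ τ : ℍ, Φ τ = 0 → F τ = 0 ∧ deriv (Φ ∘ ofComplex) τ ≠ 0 := by
    intro τ hτ
    refine ⟨?_, hsimple τ hτ⟩
    obtain ⟨γ, rfl⟩ := horb τ hτ
    exact eq_zero_on_orbit hFmf.inv (fun q => congrFun hFvec q) γ
  obtain ⟨G, hG, hFG⟩ := hFmf.exists_div hΦ hFz one_ne_zero hlim
  -- expand `G` in the graded basis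
  let M : ℕ := K.toNat + (K - w).toNat + s.sup (fun p => p.1) + 1
  have hM : ∀ p ∈ s, p.1 < M := fun p hp => by
    have : p.1 ≤ s.sup (fun p => p.1) := Finset.le_sup (f := fun p : ℕ × ℕ => p.1) hp
    omega
  have hMeq : (M : ℤ) = K.toNat + (K - w).toNat + s.sup (fun p => p.1) + 1 := by simp [M]
  have hKM : K < M := by
    have := Int.self_le_toNat K
    omega
  have hKwM : K - w < M := by
    have := Int.self_le_toNat (K - w)
    omega
  obtain ⟨g, hg, hGg⟩ := graded_span (N := N) M (K - w) hKwM G hG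
  have key := graded_indep (N := N) M K hKM
    (fun k i => (if (k, i) ∈ s then c (k, i) • ρ (k, i) else 0) - Φ * g k i)
    (fun k i => by
      refine IsMF1.sub ?_ (hΦ.mul' (hg k i) (by ring))
      split_ifs with h
      · exact hr _ h
      · exact isMF1_zero)
    (by
      rw [gsum_sub, gsum_indicator M s (fun p hp => ⟨hM p hp, hs p hp⟩) (fun p => c p • ρ p),
        gsum_mul_left, ← hGg, ← hFG, sub_self])
  intro p hp
  have h1 := key p.1 p.2 (hs p hp)
  simp only [Prod.mk.eta, if_pos hp] at h1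
  have h2 := congrFun h1 τ₀
  simp only [Pi.sub_apply, Pi.smul_apply, Pi.mul_apply, smul_eq_mul, hρ1 p hp, hΦ0, zero_mul,
    mul_one, sub_zero, Pi.zero_apply] at h2
  exact h2

end Fermat.Agent.S20
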