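import Mathlib

/-!
# Local uniqueness of the Weierstrass `℘`-function  (S20 squad, package A, step A1)

Main result: `Fermat.Agent.S20.S20_wpExcept_eventuallyEq`: two period pairs with the same
`g₂`, `g₃` have the same regular part of `℘` near `0` (uniqueness for the differential equation
near the double pole).  Intended use: equal `j` ⇒ after scaling the two lattices have the same
`g₂, g₃` ⇒ the same `℘` ⇒ the same set of poles ⇒ the same lattice.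
-/

set_option autoImplicit false
set_option linter.style.haveILetI false

namespace Fermat.Agent.S20

open Filter Topology PeriodPair

/-- Local form of `℘` near `0`. -/
lemma S20_wp_eq_near_zero (L : PeriodPair) {z : ℂ} (_hz : z ∉ L.lattice) :
    L.weierstrassP z = L.weierstrassPExcept 0 z + 1 / z ^ 2 := by
  have h := L.weierstrassPExcept_def (0 : L.lattice) z
  simp only [ZeroMemClass.coe_zero, sub_zero] at h
  rw [h]
  simp

/-- Local form of `℘'` near `0`. -/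
lemma S20_dwp_eq_near_zero (L : PeriodPair) (z : ℂ) :
    L.derivWeierstrassP z = L.derivWeierstrassPExcept 0 z - 2 / z ^ 3 := by
  have h := L.derivWeierstrassPExcept_def (0 : L.lattice) z
  simp only [ZeroMemClass.coe_zero, sub_zero] at h
  rw [h]
  ring

/-- A punctured neighbourhood of `0` avoids the lattice. -/
lemma S20_eventually_notMem (L : PeriodPair) : ∀ᶠ z in 𝓝 (0 : ℂ), z ≠ 0 → z ∉ L.lattice := by
  filter_upwards [L.compl_lattice_sdiff_singleton_mem_nhds 0] with z hz hz0 hzL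
  exact hz ⟨hzL, hz0⟩

/-- The regular parts of two `℘`-functions with the same `g₂`, `g₃` agree near `0`. -/
theorem S20_wpExcept_eventuallyEq (L₁ L₂ : PeriodPair) (h₂ : L₁.g₂ = L₂.g₂) (h₃ : L₁.g₃ = L₂.g₃) :
    L₁.weierstrassPExcept 0 =ᶠ[𝓝 0] L₂.weierstrassPExcept 0 := by
  obtain ⟨R₁, hR₁⟩ : ∃ R, R = L₁.weierstrassPExcept 0 := ⟨_, rfl⟩
  obtain ⟨R₂, hR₂⟩ : ∃ R, R = L₂.weierstrassPExcept 0 := ⟨_, rfl⟩
  obtain ⟨R₁', hR₁'⟩ : ∃ R, R = L₁.derivWeierstrassPExcept 0 := ⟨_, rfl⟩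
  obtain ⟨R₂', hR₂'⟩ : ∃ R, R = L₂.derivWeierstrassPExcept 0 := ⟨_, rfl⟩
  rw [← hR₁, ← hR₂]
  have hR₁an : AnalyticAt ℂ R₁ 0 := hR₁ ▸ L₁.analyticAt_weierstrassPExcept 0
  have hR₂an : AnalyticAt ℂ R₂ 0 := hR₂ ▸ L₂.analyticAt_weierstrassPExcept 0
  have hR₁'an : AnalyticAt ℂ R₁' 0 := hR₁' ▸ L₁.analyticAt_derivWeierstrassPExcept 0
  have hR₂'an : AnalyticAt ℂ R₂' 0 := hR₂' ▸ L₂.analyticAt_derivWeierstrassPExcept 0
  have hR₁0 : R₁ 0 = 0 := by rw [hR₁]; simp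
  have hR₂0 : R₂ 0 = 0 := by rw [hR₂]; simp
  obtain ⟨D, hD⟩ : ∃ D : ℂ → ℂ, D = fun z => R₁ z - R₂ z := ⟨_, rfl⟩
  have hDan : AnalyticAt ℂ D 0 := hD ▸ hR₁an.sub hR₂an
  suffices hsuff : ∀ᶠ z in 𝓝 (0 : ℂ), D z = 0 by
    filter_upwards [hsuff] with z hz
    rw [hD] at hz
    exact sub_eq_zero.mp hz
  by_contra hne
  obtain ⟨n, h, hhan, hh0, hDh⟩ := (hDan.exists_eventuallyEq_pow_smul_nonzero_iff).mpr hne
  simp only [sub_zero, smul_eq_mul] at hDh
  -- derivative of `D`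
  have hderivR₁ : ∀ᶠ z in 𝓝 (0 : ℂ), deriv R₁ z = R₁' z := by
    filter_upwards [L₁.compl_lattice_sdiff_singleton_mem_nhds 0] with z hz
    rw [hR₁, hR₁']
    exact L₁.eqOn_deriv_weierstrassPExcept_derivWeierstrassPExcept 0 hz
  have hderivR₂ : ∀ᶠ z in 𝓝 (0 : ℂ), deriv R₂ z = R₂' z := by
    filter_upwards [L₂.compl_lattice_sdiff_singleton_mem_nhds 0] with z hz
    rw [hR₂, hR₂']
    exact L₂.eqOn_deriv_weierstrassPExcept_derivWeierstrassPExcept 0 hz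
  have hR₁diff : ∀ᶠ z in 𝓝 (0 : ℂ), DifferentiableAt ℂ R₁ z :=
    hR₁an.eventually_analyticAt.mono fun z hz => hz.differentiableAt
  have hR₂diff : ∀ᶠ z in 𝓝 (0 : ℂ), DifferentiableAt ℂ R₂ z :=
    hR₂an.eventually_analyticAt.mono fun z hz => hz.differentiableAt
  have hhdiff : ∀ᶠ z in 𝓝 (0 : ℂ), DifferentiableAt ℂ h z :=
    hhan.eventually_analyticAt.mono fun z hz => hz.differentiableAt
  have hderivD : ∀ᶠ z in 𝓝 (0 : ℂ), deriv D z = R₁' z - R₂' z := by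
    filter_upwards [hderivR₁, hderivR₂, hR₁diff, hR₂diff] with z h1 h2 h3 h4
    rw [hD, deriv_fun_sub h3 h4, h1, h2]
  -- derivative of `z ^ n * h z`
  have hderivD' : ∀ᶠ z in 𝓝 (0 : ℂ), z * deriv D z = z ^ n * (n * h z + z * deriv h z) := by
    have e1 : ∀ᶠ z in 𝓝 (0 : ℂ), deriv D z = deriv (fun z => z ^ n * h z) z :=
      hDh.eventually_nhds.mono fun z hz => Filter.EventuallyEq.deriv_eq hz
    filter_upwards [e1, hhdiff] with z hz hhz
    rw [hz, deriv_fun_mul (by fun_prop) hhz]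
    simp only [deriv_pow_field]
    rcases Nat.eq_zero_or_pos n with rfl | hn
    · simp
    · have : z ^ n = z ^ (n - 1) * z := by rw [← pow_succ, Nat.sub_add_cancel hn]
      rw [this]; ring
  -- the differential equations
  have hode : ∀ᶠ z in 𝓝 (0 : ℂ), z ≠ 0 →
      z * (R₁' z - R₂' z) * (z ^ 3 * (R₁' z + R₂' z) - 4) =
        (R₁ z - R₂ z) * (4 * ((1 + z ^ 2 * R₁ z) ^ 2 + (1 + z ^ 2 * R₁ z) * (1 + z ^ 2 * R₂ z)
          + (1 + z ^ 2 * R₂ z) ^ 2) - L₁.g₂ * z ^ 4) := by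
    filter_upwards [S20_eventually_notMem L₁, S20_eventually_notMem L₂] with z hz1 hz2 hz0
    have e1 := L₁.derivWeierstrassP_sq z (hz1 hz0)
    have e2 := L₂.derivWeierstrassP_sq z (hz2 hz0)
    rw [S20_wp_eq_near_zero L₁ (hz1 hz0), S20_dwp_eq_near_zero L₁, ← hR₁, ← hR₁'] at e1
    rw [S20_wp_eq_near_zero L₂ (hz2 hz0), S20_dwp_eq_near_zero L₂, ← h₂, ← h₃, ← hR₂, ← hR₂'] at e2
    have hz2' : z ^ 2 ≠ 0 := pow_ne_zero 2 hz0
    apply mul_left_cancel₀ hz2'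
    field_simp at e1 e2
    linear_combination e1 - e2
  -- combine
  have hcomb : ∀ᶠ z in 𝓝 (0 : ℂ), z ≠ 0 →
      (n * h z + z * deriv h z) * (z ^ 3 * (R₁' z + R₂' z) - 4) =
        h z * (4 * ((1 + z ^ 2 * R₁ z) ^ 2 + (1 + z ^ 2 * R₁ z) * (1 + z ^ 2 * R₂ z)
          + (1 + z ^ 2 * R₂ z) ^ 2) - L₁.g₂ * z ^ 4) := by
    filter_upwards [hode, hderivD, hderivD', hDh] with z h1 h2 h3 h4 hz0
    have h1' := h1 hz0
    rw [← h2, mul_assoc, ← mul_assoc z, h3] at h1'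
    have h4' : R₁ z - R₂ z = z ^ n * h z := by rw [← h4, hD]
    rw [h4'] at h1'
    have hzn : z ^ n ≠ 0 := pow_ne_zero n hz0
    apply mul_left_cancel₀ hzn
    linear_combination h1'
  -- pass to the limit `z → 0`
  obtain ⟨F, hF⟩ : ∃ F : ℂ → ℂ, F = fun z => (n * h z + z * deriv h z) * (z ^ 3 * (R₁' z + R₂' z) - 4) -
        h z * (4 * ((1 + z ^ 2 * R₁ z) ^ 2 + (1 + z ^ 2 * R₁ z) * (1 + z ^ 2 * R₂ z)
          + (1 + z ^ 2 * R₂ z) ^ 2) - L₁.g₂ * z ^ 4) := ⟨_, rfl⟩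
  have hFcont : ContinuousAt F 0 := by
    have hh' : AnalyticAt ℂ (deriv h) 0 := hhan.deriv
    have c1 := hhan.continuousAt
    have c2 := hh'.continuousAt
    have c3 := hR₁an.continuousAt
    have c4 := hR₂an.continuousAt
    have c5 := hR₁'an.continuousAt
    have c6 := hR₂'an.continuousAt
    rw [hF]
    fun_prop
  have hF0 : F 0 = -(4 * n + 12) * h 0 := by
    rw [hF]
    simp only [hR₁0, hR₂0]
    ring
  have hFne : F 0 ≠ 0 := by
    rw [hF0]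
    refine mul_ne_zero ?_ hh0
    rw [neg_ne_zero]
    have : (4 * (n : ℂ) + 12) = ((4 * n + 12 : ℕ) : ℂ) := by push_cast; ring
    rw [this]
    exact_mod_cast (by omega : 4 * n + 12 ≠ 0)
  have hev := hFcont.eventually_ne hFne
  have hfreq : ∃ᶠ z in 𝓝 (0 : ℂ), z ≠ 0 := by
    have h1 : ∃ᶠ z in 𝓝[≠] (0 : ℂ), z ≠ 0 :=
      (eventually_mem_nhdsWithin (a := (0 : ℂ)) (s := {0}ᶜ)).frequently
    exact h1.filter_mono nhdsWithin_le_nhds
  obtain ⟨z, ⟨hz1, hz2⟩, hz0⟩ := ((hev.and hcomb).and_frequently hfreq).exists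
  apply hz1
  rw [hF]
  exact sub_eq_zero.mpr (hz2 hz0)

end Fermat.Agent.S20
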